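import Mathlib

set_option autoImplicit false
set_option linter.style.haveILetI false

/-! Multiplicities of primes in ideals of a Dedekind domain. -/

namespace Fermat.Agent.H28

open IsDedekindDomain WithZero

section Mult

variable {O : Type*} [CommRing O] [IsDedekindDomain O]

/-- multiplicity of the prime `v` in the ideal `I` -/
noncomputable def mlt (v : HeightOneSpectrum O) (I : Ideal O) : ℕ := multiplicity v.asIdeal I

theorem finite_mlt (v : HeightOneSpectrum O) {I : Ideal O} (hI : I ≠ ⊥) :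
    FiniteMultiplicity v.asIdeal I :=
  FiniteMultiplicity.of_prime_left v.prime (by simpa using hI)

theorem emult_eq (v : HeightOneSpectrum O) {I : Ideal O} (hI : I ≠ ⊥) :
    emultiplicity v.asIdeal I = (mlt v I : ℕ∞) :=
  (finite_mlt v hI).emultiplicity_eq_multiplicity

theorem mlt_mul (v : HeightOneSpectrum O) {I J : Ideal O} (hI : I ≠ ⊥) (hJ : J ≠ ⊥) :
    mlt v (I * J) = mlt v I + mlt v J := by
  apply multiplicity_mul v.prime
  exact finite_mlt v (mul_ne_zero (by simpa using hI) (by simpa using hJ))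

theorem mlt_top (v : HeightOneSpectrum O) : mlt v (⊤ : Ideal O) = 0 := by
  rw [← Ideal.one_eq_top]
  exact multiplicity_of_one_right (by
    rw [Ideal.isUnit_iff]
    exact v.isPrime.ne_top)

theorem pow_ne_bot {I : Ideal O} (hI : I ≠ ⊥) (n : ℕ) : I ^ n ≠ ⊥ :=
  pow_ne_zero n (by simpa using hI)

theorem mul_ne_bot {I J : Ideal O} (hI : I ≠ ⊥) (hJ : J ≠ ⊥) : I * J ≠ ⊥ :=
  mul_ne_zero (by simpa using hI) (by simpa using hJ)

theorem mlt_pow (v : HeightOneSpectrum O) {I : Ideal O} (hI : I ≠ ⊥) (n : ℕ) :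
    mlt v (I ^ n) = n * mlt v I := by
  induction n with
  | zero => rw [pow_zero, Ideal.one_eq_top, mlt_top, zero_mul]
  | succ n ih => rw [pow_succ, mlt_mul v (pow_ne_bot hI n) hI, ih]; ring

theorem prod_ne_bot {ι : Type*} (s : Finset ι) (I : ι → Ideal O) (h : ∀ i ∈ s, I i ≠ ⊥) :
    ∏ i ∈ s, I i ≠ ⊥ := by
  rw [← Ideal.zero_eq_bot]
  exact Finset.prod_ne_zero_iff.mpr (fun i hi => by simpa using h i hi)

theorem mlt_prod {ι : Type*} (v : HeightOneSpectrum O) (s : Finset ι) (I : ι → Ideal O)
    (h : ∀ i ∈ s, I i ≠ ⊥) : mlt v (∏ i ∈ s, I i) = ∑ i ∈ s, mlt v (I i) := by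
  classical
  induction s using Finset.induction_on with
  | empty => rw [Finset.prod_empty, Finset.sum_empty, Ideal.one_eq_top, mlt_top]
  | insert a s ha ih =>
    rw [Finset.prod_insert ha, Finset.sum_insert ha, mlt_mul v (h a (Finset.mem_insert_self _ _))
      (prod_ne_bot s I fun i hi => h i (Finset.mem_insert_of_mem hi)),
      ih fun i hi => h i (Finset.mem_insert_of_mem hi)]

theorem one_le_mlt_iff (v : HeightOneSpectrum O) {I : Ideal O} (hI : I ≠ ⊥) :
    1 ≤ mlt v I ↔ I ≤ v.asIdeal := by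
  rw [← Ideal.dvd_iff_le]
  constructor
  · intro h
    have h1 := pow_multiplicity_dvd v.asIdeal I
    exact (dvd_pow_self _ (by unfold mlt at h; omega)).trans h1
  · intro h
    have := (finite_mlt v hI).le_multiplicity_of_pow_dvd (k := 1) (by simpa using h)
    exact this

theorem mlt_self (v : HeightOneSpectrum O) : mlt v v.asIdeal = 1 := by
  unfold mlt
  apply multiplicity_self

theorem mlt_eq_zero_of_ne {v w : HeightOneSpectrum O} (h : w ≠ v) : mlt v w.asIdeal = 0 := by
  by_contra hne
  have h1 := (one_le_mlt_iff v w.ne_bot).mp (by omega)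
  exact h (HeightOneSpectrum.ext (w.isMaximal.eq_of_le v.isPrime.ne_top h1))

theorem le_iff_mlt {I J : Ideal O} (hI : I ≠ ⊥) (hJ : J ≠ ⊥) :
    I ≤ J ↔ ∀ v : HeightOneSpectrum O, mlt v J ≤ mlt v I := by
  rw [← Ideal.dvd_iff_le, UniqueFactorizationMonoid.dvd_iff_emultiplicity_le (by simpa using hJ)]
  constructor
  · intro h v
    have := h v.asIdeal v.prime
    rw [emult_eq v hI, emult_eq v hJ] at this
    exact_mod_cast this
  · intro h P hP
    have := h ⟨P, Ideal.isPrime_of_prime hP, by simpa using hP.ne_zero⟩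
    rw [← Nat.cast_le (α := ℕ∞), ← emult_eq _ hI, ← emult_eq _ hJ] at this
    exact this

theorem span_ne_bot {a : O} (ha : a ≠ 0) : Ideal.span {a} ≠ ⊥ := by
  simpa using ha

variable (F : Type*) [Field F] [Algebra O F] [IsFractionRing O F]

theorem log_valuation (v : HeightOneSpectrum O) {a : O} (ha : a ≠ 0) :
    WithZero.log (v.valuation F (algebraMap O F a)) = -(mlt v (Ideal.span {a}) : ℤ) := by
  rw [v.valuation_of_algebraMap, v.intValuation_eq_exp_neg_multiplicity ha, WithZero.log_exp]
  rfl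

end Mult

section Map

variable {O O' : Type*} [CommRing O] [IsDedekindDomain O] [CommRing O'] [IsDedekindDomain O']

/-- image of a prime under a ring isomorphism -/
@[simps asIdeal] noncomputable def mapPrime (e : O ≃+* O') (v : HeightOneSpectrum O) :
    HeightOneSpectrum O' where
  asIdeal := v.asIdeal.comap (e.symm : O' →+* O)
  isPrime := by
    haveI := v.isPrime
    exact Ideal.IsPrime.comap _
  ne_bot := by
    intro h
    apply v.ne_bot
    rw [eq_bot_iff]
    intro x hx
    have : e x ∈ v.asIdeal.comap (e.symm : O' →+* O) := by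
      rw [Ideal.mem_comap]
      simpa using hx
    rw [h, Ideal.mem_bot] at this
    rw [Ideal.mem_bot]
    exact (map_eq_zero_iff e e.injective).mp this

theorem map_eq_comap_symm' (e : O ≃+* O') (I : Ideal O) :
    I.map (e : O →+* O') = I.comap (e.symm : O' →+* O) := by
  ext x
  constructor
  · intro hx
    rw [Ideal.mem_map_iff_of_surjective (e : O →+* O') e.surjective] at hx
    obtain ⟨y, hy, rfl⟩ := hx
    rw [Ideal.mem_comap]
    simpa using hy
  · intro hx
    rw [Ideal.mem_comap] at hx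
    have := Ideal.mem_map_of_mem (e : O →+* O') hx
    simpa using this

theorem map_ne_bot (e : O ≃+* O') {I : Ideal O} (hI : I ≠ ⊥) :
    I.map (e : O →+* O') ≠ ⊥ := by
  obtain ⟨x, hx, hx0⟩ := Submodule.exists_mem_ne_zero_of_ne_bot hI
  intro h
  have h1 := Ideal.mem_map_of_mem (e : O →+* O') hx
  rw [h, Ideal.mem_bot] at h1
  exact hx0 ((map_eq_zero_iff e e.injective).mp h1)

theorem map_le_map_iff' (e : O ≃+* O') {I J : Ideal O} :
    I.map (e : O →+* O') ≤ J.map (e : O →+* O') ↔ I ≤ J := by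
  refine ⟨fun h x hx => ?_, Ideal.map_mono⟩
  have h1 := h (Ideal.mem_map_of_mem (e : O →+* O') hx)
  rw [map_eq_comap_symm', Ideal.mem_comap] at h1
  simpa using h1

theorem mlt_map (e : O ≃+* O') (v : HeightOneSpectrum O) {I : Ideal O} (hI : I ≠ ⊥) :
    mlt (mapPrime e v) (I.map (e : O →+* O')) = mlt v I := by
  unfold mlt
  have h1 : FiniteMultiplicity v.asIdeal I := finite_mlt v hI
  have h2 : FiniteMultiplicity (mapPrime e v).asIdeal (I.map (e : O →+* O')) :=
    finite_mlt _ (map_ne_bot e hI)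
  have key : ∀ n : ℕ, (mapPrime e v).asIdeal ^ n ∣ I.map (e : O →+* O') ↔ v.asIdeal ^ n ∣ I := by
    intro n
    rw [Ideal.dvd_iff_le, Ideal.dvd_iff_le, mapPrime_asIdeal, ← map_eq_comap_symm',
      ← Ideal.map_pow, map_le_map_iff']
  apply le_antisymm
  · apply h1.le_multiplicity_of_pow_dvd
    rw [← key]
    exact pow_multiplicity_dvd _ _
  · apply h2.le_multiplicity_of_pow_dvd
    rw [key]
    exact pow_multiplicity_dvd _ _

end Map

end Fermat.Agent.H28
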