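import Mathlib

set_option autoImplicit false
set_option linter.style.haveILetI false

/-! Codimension of ideals in a Dedekind domain over a field, all of whose residue fields are the
base field. -/

namespace Fermat.Agent.H28

open Module

section Codim

variable {K O : Type*} [Field K] [CommRing O] [Algebra K O]

/-- `P` is a rational maximal ideal -/
def IsRat (K : Type*) {O : Type*} [Field K] [CommRing O] [Algebra K O] (P : Ideal O) : Prop :=
  P ≠ ⊤ ∧ ∀ x : O, ∃ c : K, x - algebraMap K O c ∈ P

theorem IsRat.isMaximal {P : Ideal O} (h : IsRat K P) : P.IsMaximal := by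
  rw [Ideal.isMaximal_iff]
  refine ⟨fun h1 => h.1 ((Ideal.eq_top_iff_one P).mpr h1), fun J x hPJ hxP hxJ => ?_⟩
  obtain ⟨c, hc⟩ := h.2 x
  have hcJ : algebraMap K O c ∈ J := by
    have := J.sub_mem hxJ (hPJ hc)
    rwa [sub_sub_cancel] at this
  have hc0 : c ≠ 0 := by
    rintro rfl
    rw [map_zero, sub_zero] at hc
    exact hxP hc
  have := J.mul_mem_left (algebraMap K O c⁻¹) hcJ
  rwa [← map_mul, inv_mul_cancel₀ hc0, map_one] at this

theorem IsRat.algebraMap_mem {P : Ideal O} (h : IsRat K P) {c : K}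
    (hc : algebraMap K O c ∈ P) : c = 0 := by
  by_contra hc0
  apply h.1
  rw [Ideal.eq_top_iff_one]
  have := P.mul_mem_left (algebraMap K O c⁻¹) hc
  rwa [← map_mul, inv_mul_cancel₀ hc0, map_one] at this

theorem IsRat.eq_of_sub_mem {P : Ideal O} (h : IsRat K P) {x : O} {c c' : K}
    (hc : x - algebraMap K O c ∈ P) (hc' : x - algebraMap K O c' ∈ P) : c = c' := by
  have := P.sub_mem hc' hc
  rw [sub_sub_sub_cancel_left, ← map_sub] at this
  exact sub_eq_zero.mp (h.algebraMap_mem this)

/-- The quotient of `O` by `I` as a `K`-vector space has dimension `n`. -/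
def HasCodim (K : Type*) {O : Type*} [Field K] [CommRing O] [Algebra K O] (I : Ideal O)
    (n : ℕ) : Prop :=
  Module.Finite K (O ⧸ I) ∧ finrank K (O ⧸ I) = n

theorem IsRat.hasCodim {P : Ideal O} (h : IsRat K P) : HasCodim K P 1 := by
  have hnt : Nontrivial (O ⧸ P) := Ideal.Quotient.nontrivial_iff.mpr h.1
  have hs : Function.Surjective (Algebra.linearMap K (O ⧸ P)) := by
    intro q
    obtain ⟨x, rfl⟩ := Ideal.Quotient.mk_surjective q
    obtain ⟨c, hc⟩ := h.2 x
    refine ⟨c, ?_⟩
    rw [Algebra.linearMap_apply, IsScalarTower.algebraMap_apply K O (O ⧸ P),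
      Ideal.Quotient.algebraMap_eq, eq_comm, Ideal.Quotient.mk_eq_mk_iff_sub_mem]
    exact hc
  have hi : Function.Injective (Algebra.linearMap K (O ⧸ P)) :=
    (algebraMap K (O ⧸ P)).injective
  refine ⟨Module.Finite.of_surjective _ hs, ?_⟩
  rw [← (LinearEquiv.ofBijective _ ⟨hi, hs⟩).finrank_eq, finrank_self]

theorem hasCodim_top : HasCodim K (⊤ : Ideal O) 0 := by
  have : Subsingleton (O ⧸ (⊤ : Ideal O)) := Ideal.Quotient.subsingleton_iff.mpr rfl
  exact ⟨Module.Finite.of_surjective (0 : K →ₗ[K] (O ⧸ (⊤ : Ideal O)))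
    (fun x => ⟨0, Subsingleton.elim _ _⟩), finrank_zero_of_subsingleton⟩

/-- equality of ideals from equality of codimensions -/
theorem eq_of_le_of_codim_le {I J : Ideal O} (h : I ≤ J) {n m : ℕ} (hI : HasCodim K I n)
    (hJ : HasCodim K J m) (hnm : n ≤ m) : I = J := by
  haveI := hI.1
  haveI := hJ.1
  let f : (O ⧸ I) →ₐ[K] (O ⧸ J) := Ideal.Quotient.factorₐ K h
  have hf : Function.Surjective f := Ideal.Quotient.factor_surjective h
  have hle : finrank K (O ⧸ J) ≤ finrank K (O ⧸ I) :=
    LinearMap.finrank_le_finrank_of_surjective (f := f.toLinearMap) hf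
  have heq : finrank K (O ⧸ I) = finrank K (O ⧸ J) := by
    apply le_antisymm _ hle
    rw [hI.2, hJ.2]; exact hnm
  have hinj : Function.Injective f.toLinearMap :=
    (LinearMap.injective_iff_surjective_of_finrank_eq_finrank heq).mpr hf
  apply le_antisymm h
  intro x hx
  rw [← Ideal.Quotient.eq_zero_iff_mem] at hx ⊢
  apply hinj
  rw [map_zero]
  exact hx

theorem HasCodim.le_of_le {I J : Ideal O} (h : I ≤ J) {n m : ℕ} (hI : HasCodim K I n)
    (hJ : HasCodim K J m) : m ≤ n := by
  haveI := hI.1
  let f : (O ⧸ I) →ₐ[K] (O ⧸ J) := Ideal.Quotient.factorₐ K h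
  have hf : Function.Surjective f := Ideal.Quotient.factor_surjective h
  rw [← hI.2, ← hJ.2]
  exact LinearMap.finrank_le_finrank_of_surjective (f := f.toLinearMap) hf

theorem HasCodim.unique {I : Ideal O} {n m : ℕ} (h : HasCodim K I n) (h' : HasCodim K I m) :
    n = m := h.2.symm.trans h'.2

variable [IsDedekindDomain O]

theorem hasCodim_mul {I P : Ideal O} (hI0 : I ≠ ⊥) (hP : IsRat K P) {n : ℕ}
    (hI : HasCodim K I n) : HasCodim K (I * P) (n + 1) := by
  have hPmax := hP.isMaximal
  have hle : I * P ≤ I := Ideal.mul_le_left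
  have hne : I * P ≠ I := by
    intro h
    have : I * P = I * ⊤ := by rw [h, Ideal.mul_top]
    exact hP.1 (mul_left_cancel₀ (by simpa using hI0) this)
  obtain ⟨a, haI, haIP⟩ : ∃ a ∈ I, a ∉ I * P := by
    by_contra hcon
    push Not at hcon
    exact hne (le_antisymm hle hcon)
  have hsup : Ideal.span {a} ⊔ I * P = I := by
    have h1 : Ideal.span {a} ⊔ I * P ≤ I :=
      sup_le ((Ideal.span_singleton_le_iff_mem I).mpr haI) hle
    obtain ⟨J, hJ⟩ := Ideal.dvd_iff_le.mpr h1
    have h2 : P ≤ J := by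
      have : I * P ≤ I * J := by rw [← hJ]; exact le_sup_right
      exact (mul_le_mul_iff_right₀ (pos_iff_ne_zero.mpr (by simpa using hI0))).mp this
    by_cases h : J = ⊤
    · rw [h, Ideal.mul_top] at hJ; exact hJ
    · exfalso
      apply haIP
      rw [hPmax.eq_of_le h h2, ← hJ]
      exact Ideal.mem_sup_left (Ideal.mem_span_singleton_self a)
  -- the map `x ↦ a x` from `O` to `O / I P`
  let φ : O →ₗ[K] (O ⧸ (I * P)) :=
    (Ideal.Quotient.mkₐ K (I * P)).toLinearMap.comp (LinearMap.mulLeft K a)
  let f : (O ⧸ (I * P)) →ₐ[K] (O ⧸ I) := Ideal.Quotient.factorₐ K hle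
  have hf : Function.Surjective f := Ideal.Quotient.factor_surjective hle
  have hφker : ∀ x, φ x = 0 ↔ x ∈ P := by
    intro x
    show Ideal.Quotient.mk (I * P) (a * x) = 0 ↔ _
    rw [Ideal.Quotient.eq_zero_iff_mem]
    constructor
    · intro h
      by_contra hx
      obtain ⟨c, hc⟩ := hP.2 x
      have hc0 : c ≠ 0 := by
        rintro rfl
        rw [map_zero, sub_zero] at hc
        exact hx hc
      have h1 : a * (x - algebraMap K O c) ∈ I * P := Ideal.mul_mem_mul haI hc
      have h2 := (I * P).sub_mem h h1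
      have h3 : a * x - a * (x - algebraMap K O c) = a * algebraMap K O c := by ring
      rw [h3] at h2
      have h4 := (I * P).mul_mem_right (algebraMap K O c⁻¹) h2
      rw [mul_assoc, ← map_mul, mul_inv_cancel₀ hc0, map_one, mul_one] at h4
      exact haIP h4
    · intro h
      exact Ideal.mul_mem_mul haI h
  have hrange : LinearMap.range φ = LinearMap.ker f.toLinearMap := by
    ext q
    constructor
    · rintro ⟨x, rfl⟩
      rw [LinearMap.mem_ker]
      show Ideal.Quotient.mk I (a * x) = 0
      rw [Ideal.Quotient.eq_zero_iff_mem]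
      exact I.mul_mem_right _ haI
    · intro hq
      obtain ⟨x, rfl⟩ := Ideal.Quotient.mk_surjective q
      have hx : x ∈ I := by
        rw [← Ideal.Quotient.eq_zero_iff_mem]
        exact hq
      rw [← hsup] at hx
      obtain ⟨y, hy, z, hz, rfl⟩ := Submodule.mem_sup.mp hx
      obtain ⟨w, rfl⟩ := Ideal.mem_span_singleton'.mp hy
      refine ⟨w, ?_⟩
      show Ideal.Quotient.mk (I * P) (a * w) = _
      rw [Ideal.Quotient.mk_eq_mk_iff_sub_mem]
      have : a * w - (w * a + z) = -z := by ring
      rw [this]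
      exact (I * P).neg_mem hz
  -- range of φ is one dimensional
  have hP1 := hP.hasCodim
  haveI := hP1.1
  let ψ : (O ⧸ P) →ₗ[K] (O ⧸ (I * P)) :=
    Submodule.liftQ (P.restrictScalars K) φ (fun x hx => (hφker x).mpr hx)
  have hψr : LinearMap.range ψ = LinearMap.range φ := Submodule.range_liftQ _ _ _
  have hψi : Function.Injective ψ := by
    rw [← LinearMap.ker_eq_bot, eq_bot_iff]
    intro q hq
    obtain ⟨x, rfl⟩ := Ideal.Quotient.mk_surjective q
    have : φ x = 0 := hq
    rw [hφker] at this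
    exact Ideal.Quotient.eq_zero_iff_mem.mpr this
  have hfr : finrank K (LinearMap.range φ) = 1 := by
    rw [← hψr, LinearMap.finrank_range_of_inj hψi, hP1.2]
  have hfin : Module.Finite K (LinearMap.range φ) := by
    rw [← hψr]
    infer_instance
  haveI := hI.1
  haveI hker : Module.Finite K (LinearMap.ker f.toLinearMap) := by rw [← hrange]; exact hfin
  have hfinq : Module.Finite K (O ⧸ (I * P)) := by
    haveI hq : Module.Finite K ((O ⧸ (I * P)) ⧸ LinearMap.ker f.toLinearMap) :=
      Module.Finite.equiv (LinearMap.quotKerEquivOfSurjective f.toLinearMap hf).symm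
    exact Module.Finite.of_submodule_quotient (LinearMap.ker f.toLinearMap)
  refine ⟨hfinq, ?_⟩
  have h5 := LinearMap.finrank_range_add_finrank_ker f.toLinearMap
  rw [LinearMap.range_eq_top.mpr hf, finrank_top, ← hrange, hfr, hI.2] at h5
  exact h5.symm

theorem hasCodim_prod (s : Multiset (Ideal O)) (hs : ∀ P ∈ s, IsRat K P)
    (hs0 : ∀ P ∈ s, P ≠ ⊥) : HasCodim K s.prod (Multiset.card s) := by
  induction s using Multiset.induction with
  | empty => simpa using hasCodim_top
  | cons P s ih =>
    rw [Multiset.prod_cons, Multiset.card_cons, mul_comm]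
    apply hasCodim_mul _ (hs P (Multiset.mem_cons_self _ _))
      (ih (fun Q hQ => hs Q (Multiset.mem_cons_of_mem hQ))
        (fun Q hQ => hs0 Q (Multiset.mem_cons_of_mem hQ)))
    rw [← Ideal.zero_eq_bot]
    apply Multiset.prod_ne_zero
    intro h0
    exact hs0 0 (Multiset.mem_cons_of_mem h0) rfl

end Codim

end Fermat.Agent.H28
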