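import Mathlib
import Fermat.Agent.H28.Codim

set_option autoImplicit false
set_option linter.style.haveILetI false

/-! Abstract reduction theory (Deuring): multiplicativity of reduction of ideals. -/

namespace Fermat.Agent.H28

open Module IsLocalRing

/-- A reduction system: `O` is the affine coordinate ring of (an open part of) a curve over `L`,
`Ob` the one of the special fibre over the residue field of `A`, `R` the subring of integral
functions and `ρ` the reduction. -/
structure RedSys {L : Type*} [Field L] (A : ValuationSubring L) (O Ob : Type*)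
    [CommRing O] [CommRing Ob] [Algebra L O] [Algebra (ResidueField A) Ob] where
  R : Subring O
  ρ : R →+* Ob
  alg_mem : ∀ a : A, algebraMap L O a ∈ R
  ρ_alg : ∀ a : A, ρ ⟨algebraMap L O a, alg_mem a⟩ =
    algebraMap (ResidueField A) Ob (residue A a)
  surj : Function.Surjective ρ
  prim : ∀ x : O, x ≠ 0 → ∃ (c : L) (h : c • x ∈ R), ρ ⟨c • x, h⟩ ≠ 0
  fg : ∀ s : Multiset (Ideal O), (∀ P ∈ s, IsRat L P) →
    (∀ P ∈ s, ∀ y ∈ R, ∀ c : L, y - algebraMap L O c ∈ P → c ∈ A) →
    ∃ (ι : Type) (_ : Fintype ι) (g : ι → R), ∀ y ∈ R, ∃ a : ι → A,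
      y - ∑ i, (a i : L) • (g i : O) ∈ s.prod

namespace RedSys

variable {L : Type*} [Field L] {A : ValuationSubring L} {O Ob : Type*}
  [CommRing O] [CommRing Ob] [Algebra L O] [Algebra (ResidueField A) Ob]
  (S : RedSys A O Ob)

/-- the structure map `A → R` -/
def incl : A →+* S.R where
  toFun a := ⟨algebraMap L O a, S.alg_mem a⟩
  map_one' := Subtype.ext (by simp)
  map_zero' := Subtype.ext (by simp)
  map_mul' a b := Subtype.ext (by simp)
  map_add' a b := Subtype.ext (by simp)

@[simp] theorem coe_incl (a : A) : ((S.incl a : S.R) : O) = algebraMap L O a := rfl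

theorem ρ_incl (a : A) : S.ρ (S.incl a) = algebraMap (ResidueField A) Ob (residue A a) :=
  S.ρ_alg a

theorem smul_mem {a : L} (ha : a ∈ A) {y : O} (hy : y ∈ S.R) : a • y ∈ S.R := by
  rw [Algebra.smul_def]
  exact S.R.mul_mem (S.alg_mem ⟨a, ha⟩) hy

theorem ρ_smul {a : L} (ha : a ∈ A) {y : O} (hy : y ∈ S.R) :
    S.ρ ⟨a • y, S.smul_mem ha hy⟩ =
      algebraMap (ResidueField A) Ob (residue A ⟨a, ha⟩) * S.ρ ⟨y, hy⟩ := by
  have : (⟨a • y, S.smul_mem ha hy⟩ : S.R) = S.incl ⟨a, ha⟩ * ⟨y, hy⟩ :=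
    Subtype.ext (by simp [Algebra.smul_def])
  rw [this, map_mul, S.ρ_incl]

theorem algebraMap_residue_eq_zero {a : A} (h : a ∈ maximalIdeal A) :
    algebraMap (ResidueField A) Ob (residue A a) = 0 := by
  rw [(residue_eq_zero_iff a).mpr h, map_zero]

/-- if `c` is not in the valuation ring then its inverse is in the maximal ideal -/
theorem inv_mem_maximalIdeal {c : L} (hc : c ∉ A) :
    ∃ h : c⁻¹ ∈ A, (⟨c⁻¹, h⟩ : A) ∈ maximalIdeal A := by
  have h := (A.mem_or_inv_mem c).resolve_left hc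
  refine ⟨h, ?_⟩
  rw [mem_maximalIdeal, mem_nonunits_iff]
  intro hu
  obtain ⟨b, hb⟩ := isUnit_iff_exists_inv.mp hu
  have hb' : c⁻¹ * (b : L) = 1 := congrArg Subtype.val hb
  have : (b : L) = c := by
    have hc0 : c⁻¹ ≠ 0 := left_ne_zero_of_mul_eq_one hb'
    have hc0' : c ≠ 0 := fun h => hc0 (by rw [h, inv_zero])
    field_simp at hb'
    exact hb'
  exact hc (this ▸ b.2)

theorem exists_of_ρ_eq_zero {y : S.R} (hy : S.ρ y = 0) :
    ∃ (c : A) (z : S.R), c ∈ maximalIdeal A ∧ (y : O) = (c : L) • (z : O) := by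
  by_cases hy0 : (y : O) = 0
  · refine ⟨0, 0, zero_mem _, ?_⟩
    rw [hy0]; simp
  obtain ⟨c, h, hne⟩ := S.prim y hy0
  have hcA : c ∉ A := by
    intro hc
    apply hne
    have := S.ρ_smul hc y.2
    rw [this]
    have h2 : S.ρ ⟨(y : O), y.2⟩ = 0 := hy
    rw [h2, mul_zero]
  have hc0 : c ≠ 0 := by
    rintro rfl
    exact hcA A.zero_mem
  obtain ⟨h1, h2⟩ := inv_mem_maximalIdeal hcA
  exact ⟨⟨c⁻¹, h1⟩, ⟨c • (y : O), h⟩, h2, (inv_smul_smul₀ hc0 _).symm⟩

/-- division by a primitive element -/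
theorem mem_of_mul_mem [IsDomain O] [IsDomain Ob] {a : S.R} (ha : S.ρ a ≠ 0) {z : O}
    (h : (a : O) * z ∈ S.R) : z ∈ S.R := by
  by_cases hz : z = 0
  · rw [hz]; exact S.R.zero_mem
  obtain ⟨c, hc, hne⟩ := S.prim z hz
  have hc0 : c ≠ 0 := by
    rintro rfl
    apply hne
    have : (⟨(0 : L) • z, hc⟩ : S.R) = 0 := Subtype.ext (zero_smul L z)
    rw [this, map_zero]
  by_cases hci : c⁻¹ ∈ A
  · have := S.smul_mem hci hc
    rwa [inv_smul_smul₀ hc0] at this
  · exfalso
    obtain ⟨h1, h2⟩ := inv_mem_maximalIdeal hci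
    have h1' : c ∈ A := by rwa [inv_inv] at h1
    have h3 : (a * ⟨c • z, hc⟩ : S.R) = ⟨c • ((a : O) * z), S.smul_mem h1' h⟩ :=
      Subtype.ext (by
        show (a : O) * (c • z) = c • ((a : O) * z)
        rw [mul_smul_comm])
    have h4 := congrArg S.ρ h3
    rw [map_mul, S.ρ_smul h1' h] at h4
    have h5 : (⟨c, h1'⟩ : A) ∈ maximalIdeal A := by
      have : (⟨c, h1'⟩ : A) = ⟨c⁻¹⁻¹, h1⟩ := Subtype.ext (inv_inv c).symm
      rw [this]; exact h2
    rw [algebraMap_residue_eq_zero h5, zero_mul] at h4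
    exact (mul_ne_zero ha hne) h4

/-- reduction of an ideal -/
def bar (I : Ideal O) : Ideal Ob := Ideal.map S.ρ (I.comap S.R.subtype)

theorem mem_bar {I : Ideal O} {y : Ob} : y ∈ S.bar I ↔ ∃ x : S.R, (x : O) ∈ I ∧ S.ρ x = y := by
  rw [bar, Ideal.mem_map_iff_of_surjective _ S.surj]
  rfl

theorem ρ_mem_bar {I : Ideal O} {x : S.R} (hx : (x : O) ∈ I) : S.ρ x ∈ S.bar I :=
  S.mem_bar.mpr ⟨x, hx, rfl⟩

theorem bar_mono {I J : Ideal O} (h : I ≤ J) : S.bar I ≤ S.bar J :=
  Ideal.map_mono (Ideal.comap_mono h)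

theorem bar_top : S.bar ⊤ = ⊤ := by
  rw [Ideal.eq_top_iff_one, S.mem_bar]
  exact ⟨1, trivial, map_one _⟩

theorem bar_mul_le (I J : Ideal O) : S.bar I * S.bar J ≤ S.bar (I * J) := by
  rw [Ideal.mul_le]
  intro x hx y hy
  obtain ⟨a, ha, rfl⟩ := S.mem_bar.mp hx
  obtain ⟨b, hb, rfl⟩ := S.mem_bar.mp hy
  rw [← map_mul]
  exact S.ρ_mem_bar (Ideal.mul_mem_mul ha hb)

theorem prod_bar_le (s : Multiset (Ideal O)) : (s.map S.bar).prod ≤ S.bar s.prod := by
  induction s using Multiset.induction with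
  | empty => simp [bar_top]
  | cons P s ih =>
    rw [Multiset.map_cons, Multiset.prod_cons, Multiset.prod_cons]
    exact (Ideal.mul_mono_right ih).trans (S.bar_mul_le _ _)

theorem bar_span_singleton [IsDomain O] [IsDomain Ob] {a : S.R} (ha : S.ρ a ≠ 0) :
    S.bar (Ideal.span {(a : O)}) = Ideal.span {S.ρ a} := by
  apply le_antisymm
  · intro y hy
    obtain ⟨x, hx, rfl⟩ := S.mem_bar.mp hy
    obtain ⟨z, hz⟩ := Ideal.mem_span_singleton'.mp hx
    have hzR : z ∈ S.R := by
      apply S.mem_of_mul_mem ha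
      rw [mul_comm, hz]; exact x.2
    rw [Ideal.mem_span_singleton']
    refine ⟨S.ρ ⟨z, hzR⟩, ?_⟩
    rw [← map_mul]
    exact congrArg S.ρ (Subtype.ext hz)
  · rw [Ideal.span_singleton_le_iff_mem]
    exact S.ρ_mem_bar (Ideal.mem_span_singleton_self _)

theorem bar_ne_bot [IsDomain O] {I : Ideal O} (hI : I ≠ ⊥) : S.bar I ≠ ⊥ := by
  obtain ⟨x, hx, hx0⟩ := Submodule.exists_mem_ne_zero_of_ne_bot hI
  obtain ⟨c, h, hne⟩ := S.prim x hx0
  intro hbot
  have : S.ρ ⟨c • x, h⟩ ∈ S.bar I := S.ρ_mem_bar (by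
    show c • x ∈ I
    rw [Algebra.smul_def]
    exact I.mul_mem_left _ hx)
  rw [hbot] at this
  exact hne this

/-- a rational maximal ideal is good if integral functions take integral values -/
def Good (P : Ideal O) : Prop := ∀ y ∈ S.R, ∀ c : L, y - algebraMap L O c ∈ P → c ∈ A

theorem bar_eq_top_of_not_good {P : Ideal O} (hP : ¬ S.Good P) : S.bar P = ⊤ := by
  unfold Good at hP
  push Not at hP
  obtain ⟨y, hy, c, hc, hcA⟩ := hP
  obtain ⟨h1, h2⟩ := inv_mem_maximalIdeal hcA
  have hc0 : c ≠ 0 := by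
    rintro rfl
    exact hcA A.zero_mem
  rw [Ideal.eq_top_iff_one, S.mem_bar]
  refine ⟨1 - ⟨c⁻¹ • y, S.smul_mem h1 hy⟩, ?_, ?_⟩
  · show (1 : O) - c⁻¹ • y ∈ P
    have : (1 : O) - c⁻¹ • y = -(algebraMap L O c⁻¹ * (y - algebraMap L O c)) := by
      rw [mul_sub, ← map_mul, inv_mul_cancel₀ hc0, map_one, Algebra.smul_def]
      ring
    rw [this]
    exact P.neg_mem (P.mul_mem_left _ hc)
  · rw [map_sub, map_one, S.ρ_smul h1 hy, algebraMap_residue_eq_zero h2, zero_mul, sub_zero]

theorem isRat_bar {P : Ideal O} (hP : IsRat L P) (hg : S.Good P) :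
    IsRat (ResidueField A) (S.bar P) := by
  constructor
  · intro htop
    rw [Ideal.eq_top_iff_one, S.mem_bar] at htop
    obtain ⟨x, hx, hx1⟩ := htop
    have h0 : S.ρ (x - 1) = 0 := by rw [map_sub, hx1, map_one, sub_self]
    obtain ⟨c, z, hc, hcz⟩ := S.exists_of_ρ_eq_zero h0
    obtain ⟨c', hc'⟩ := hP.2 z
    have hc'A := hg z z.2 c' hc'
    have h1 : (x : O) = 1 + (c : L) • (z : O) := by
      rw [← hcz]
      show (x : O) = 1 + ((x : O) - 1)
      ring
    have h2 : algebraMap L O (1 + c * c') ∈ P := by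
      have h3 : algebraMap L O (1 + c * c') =
          x - algebraMap L O c * ((z : O) - algebraMap L O c') := by
        rw [h1, Algebra.smul_def, map_add, map_one, map_mul]
        ring
      rw [h3]
      exact P.sub_mem hx (P.mul_mem_left _ hc')
    have h4 := hP.algebraMap_mem h2
    have h5 : (1 : A) + c * ⟨c', hc'A⟩ = 0 := Subtype.ext h4
    have h6 : (1 : A) ∈ maximalIdeal A := by
      have h7 : (1 : A) = -(c * ⟨c', hc'A⟩) := eq_neg_of_add_eq_zero_left h5
      rw [h7]
      exact Ideal.neg_mem_iff _ |>.mpr (Ideal.mul_mem_right _ _ hc)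
    exact (Ideal.ne_top_iff_one _).mp (maximalIdeal.isMaximal A).ne_top h6
  · intro y
    obtain ⟨x, rfl⟩ := S.surj y
    obtain ⟨c, hc⟩ := hP.2 x
    have hcA := hg x x.2 c hc
    refine ⟨residue A ⟨c, hcA⟩, ?_⟩
    rw [← S.ρ_alg, ← map_sub]
    exact S.ρ_mem_bar hc

/-- Nakayama: elements of `R` whose reductions span `Ob` modulo `bar I` span `O` modulo `I`. -/
theorem codim_le_of_good (s : Multiset (Ideal O)) (hs : ∀ P ∈ s, IsRat L P)
    (hg : ∀ P ∈ s, S.Good P) {n m : ℕ} (hn : HasCodim L s.prod n)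
    (hm : HasCodim (ResidueField A) (S.bar s.prod) m) : n ≤ m := by
  classical
  obtain ⟨ι, _, g, hgen⟩ := S.fg s hs hg
  set I := s.prod with hI
  haveI := hm.1
  haveI := hn.1
  -- a basis of the reduced quotient
  let b := Module.finBasis (ResidueField A) (Ob ⧸ S.bar I)
  have hcard : Fintype.card (Fin (finrank (ResidueField A) (Ob ⧸ S.bar I))) = m := by
    rw [Fintype.card_fin, hm.2]
  have hlift : ∀ i, ∃ y : S.R, Ideal.Quotient.mk (S.bar I) (S.ρ y) = b i := by
    intro i
    obtain ⟨z, hz⟩ := Ideal.Quotient.mk_surjective (b i)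
    obtain ⟨y, hy⟩ := S.surj z
    exact ⟨y, by rw [hy, hz]⟩
  choose y hy using hlift
  letI : Module A S.R := Module.compHom S.R S.incl
  have smul_def' : ∀ (a : A) (x : S.R), ((a • x : S.R) : O) = (a : L) • (x : O) := by
    intro a x
    show ((S.incl a * x : S.R) : O) = _
    rw [Algebra.smul_def]
    rfl
  have hρsmul : ∀ (a : A) (x : S.R), S.ρ (a • x) =
      algebraMap (ResidueField A) Ob (residue A a) * S.ρ x := by
    intro a x
    show S.ρ (S.incl a * x) = _
    rw [map_mul, S.ρ_incl]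
  let N : Submodule A S.R :=
    { carrier := {x | (x : O) ∈ I}
      add_mem' := fun {x y} hx hy => I.add_mem hx hy
      zero_mem' := I.zero_mem
      smul_mem' := fun a x hx => by
        show ((a • x : S.R) : O) ∈ I
        rw [smul_def', Algebra.smul_def]
        exact I.mul_mem_left _ hx }
  let M' : Submodule A S.R := Submodule.span A (Set.range y)
  have htop : (⊤ : Submodule A (S.R ⧸ N)) ≤ M'.map N.mkQ := by
    have hfg : (⊤ : Submodule A (S.R ⧸ N)).FG := by
      refine ⟨Finset.univ.image (fun i => N.mkQ (g i)), ?_⟩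
      rw [eq_top_iff]
      rintro q -
      obtain ⟨x, rfl⟩ := Submodule.mkQ_surjective N q
      obtain ⟨a, ha⟩ := hgen x x.2
      have h1 : N.mkQ x = ∑ i, a i • N.mkQ (g i) := by
        rw [← sub_eq_zero]
        simp_rw [← map_smul]
        rw [← map_sum, ← map_sub, Submodule.mkQ_apply, Submodule.Quotient.mk_eq_zero]
        show ((x - ∑ i, a i • g i : S.R) : O) ∈ I
        have h2 : ((x - ∑ i, a i • g i : S.R) : O) = (x : O) - ∑ i, (a i : L) • (g i : O) := by
          rw [AddSubgroupClass.coe_sub, AddSubmonoidClass.coe_finsetSum]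
          simp_rw [smul_def']
        rw [h2]
        exact ha
      rw [h1]
      apply Submodule.sum_mem
      intro i _
      apply Submodule.smul_mem
      apply Submodule.subset_span
      simp
    refine Submodule.le_of_le_smul_of_le_jacobson_bot (I := maximalIdeal A) hfg
      (IsLocalRing.maximalIdeal_le_jacobson _) ?_
    rintro q -
    obtain ⟨x, rfl⟩ := Submodule.mkQ_surjective N q
    -- expand the reduction of x in the basis
    have hx := b.sum_repr (Ideal.Quotient.mk (S.bar I) (S.ρ x))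
    have hres : ∀ r : ResidueField A, ∃ a : A, residue A a = r := residue_surjective
    choose lift hlift using hres
    let x' : S.R := ∑ i, lift (b.repr (Ideal.Quotient.mk (S.bar I) (S.ρ x)) i) • y i
    have h3 : S.ρ (x - x') ∈ S.bar I := by
      rw [← Ideal.Quotient.eq_zero_iff_mem, map_sub, map_sub, ← hx, sub_eq_zero, map_sum, map_sum]
      refine Finset.sum_congr rfl fun i _ => ?_
      rw [hρsmul, map_mul, hy, hlift]
      rw [Algebra.smul_def]
      rfl
    obtain ⟨z, hz, hz'⟩ := S.mem_bar.mp h3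
    have h4 : S.ρ (x - x' - z) = 0 := by rw [map_sub, hz', sub_self]
    obtain ⟨c, w, hc, hcw⟩ := S.exists_of_ρ_eq_zero h4
    have h5 : x = x' + (z + c • w) := by
      apply Subtype.ext
      have h6 : ((x - x' - z : S.R) : O) = (x : O) - x' - z := rfl
      rw [h6] at hcw
      show (x : O) = (x' : O) + ((z : O) + ((c • w : S.R) : O))
      rw [smul_def', ← hcw]
      ring
    rw [h5, map_add, map_add]
    apply Submodule.add_mem_sup
    · apply Submodule.mem_map_of_mem
      apply Submodule.sum_mem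
      intro i _
      apply Submodule.smul_mem
      exact Submodule.subset_span ⟨i, rfl⟩
    · have h7 : N.mkQ z = 0 := by
        rw [Submodule.mkQ_apply, Submodule.Quotient.mk_eq_zero]; exact hz
      rw [h7, zero_add, map_smul]
      exact Submodule.smul_mem_smul hc trivial
  -- every element of O is an L-combination of the y i modulo I
  let φ : (Fin (finrank (ResidueField A) (Ob ⧸ S.bar I)) → L) →ₗ[L] (O ⧸ I) :=
    Fintype.linearCombination L (fun i => Ideal.Quotient.mk I ((y i : S.R) : O))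
  have hφ : Function.Surjective φ := by
    intro q
    obtain ⟨x, rfl⟩ := Ideal.Quotient.mk_surjective q
    by_cases hx0 : x = 0
    · exact ⟨0, by rw [hx0, map_zero, map_zero]⟩
    obtain ⟨c, hc, hne⟩ := S.prim x hx0
    have hc0 : c ≠ 0 := by
      rintro rfl
      apply hne
      have : (⟨(0 : L) • x, hc⟩ : S.R) = 0 := Subtype.ext (zero_smul L x)
      rw [this, map_zero]
    have h8 := htop (x := N.mkQ ⟨c • x, hc⟩) trivial
    obtain ⟨w, hw, hw'⟩ := h8
    have hw2 : w ∈ Submodule.span A (Set.range y) := hw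
    rw [Submodule.mem_span_range_iff_exists_fun] at hw2
    obtain ⟨a, ha⟩ := hw2
    have h9 : c • x - (w : O) ∈ I := by
      have : N.mkQ (⟨c • x, hc⟩ - w) = 0 := by rw [map_sub, hw', sub_self]
      rw [Submodule.mkQ_apply, Submodule.Quotient.mk_eq_zero] at this
      exact this
    have hw3 : (w : O) = ∑ i, (a i : L) • ((y i : S.R) : O) := by
      rw [← ha, AddSubmonoidClass.coe_finsetSum]
      simp_rw [smul_def']
    refine ⟨fun i => c⁻¹ * (a i : L), ?_⟩
    rw [Fintype.linearCombination_apply]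
    have h10 : (Ideal.Quotient.mk I x) = c⁻¹ • (Ideal.Quotient.mk I (c • x)) := by
      have h11 : Ideal.Quotient.mk I (c • x) = c • Ideal.Quotient.mk I x := rfl
      rw [h11, inv_smul_smul₀ hc0]
    have h12 : Ideal.Quotient.mk I (c • x) = Ideal.Quotient.mk I (w : O) := by
      rw [Ideal.Quotient.mk_eq_mk_iff_sub_mem]; exact h9
    rw [h10, h12, hw3, map_sum, Finset.smul_sum]
    refine Finset.sum_congr rfl fun i _ => ?_
    rw [mul_smul]
    rfl
  have h13 := LinearMap.finrank_le_finrank_of_surjective (f := φ) hφ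
  rw [hn.2, Module.finrank_fintype_fun_eq_card, hcard] at h13
  exact h13

section Dedekind

variable [IsDedekindDomain O] [IsDedekindDomain Ob]

/-- For a product of good rational maximal ideals, reduction is multiplicative. -/
theorem bar_prod_of_good (s : Multiset (Ideal O)) (hs : ∀ P ∈ s, IsRat L P)
    (hs0 : ∀ P ∈ s, P ≠ ⊥) (hg : ∀ P ∈ s, S.Good P) :
    S.bar s.prod = (s.map S.bar).prod := by
  have hn := hasCodim_prod (K := L) s hs hs0
  have hm := hasCodim_prod (K := ResidueField A) (s.map S.bar)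
    (by
      intro Q hQ
      obtain ⟨P, hP, rfl⟩ := Multiset.mem_map.mp hQ
      exact S.isRat_bar (hs P hP) (hg P hP))
    (by
      intro Q hQ
      obtain ⟨P, hP, rfl⟩ := Multiset.mem_map.mp hQ
      exact S.bar_ne_bot (hs0 P hP))
  rw [Multiset.card_map] at hm
  have hle := S.prod_bar_le s
  haveI := hm.1
  have hfin : Module.Finite (ResidueField A) (Ob ⧸ S.bar s.prod) :=
    Module.Finite.of_surjective (Ideal.Quotient.factorₐ (ResidueField A) hle).toLinearMap
      (Ideal.Quotient.factor_surjective hle)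
  have h2 : HasCodim (ResidueField A) (S.bar s.prod) _ := ⟨hfin, rfl⟩
  have h3 := S.codim_le_of_good s hs hg hn h2
  exact (eq_of_le_of_codim_le hle hm h2 h3).symm

theorem bar_prod (s : Multiset (Ideal O)) (hs : ∀ P ∈ s, IsRat L P)
    (hs0 : ∀ P ∈ s, P ≠ ⊥) : S.bar s.prod = (s.map S.bar).prod := by
  classical
  have h1 := Multiset.filter_add_not (fun P => S.Good P) s
  set sg := s.filter (fun P => S.Good P) with hsg
  set sb := s.filter (fun P => ¬ S.Good P) with hsb
  have hsub : ∀ P ∈ sg, P ∈ s := fun P hP => (Multiset.mem_filter.mp hP).1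
  have hgood := S.bar_prod_of_good sg (fun P hP => hs P (hsub P hP))
    (fun P hP => hs0 P (hsub P hP)) (fun P hP => (Multiset.mem_filter.mp hP).2)
  have hbad : (sb.map S.bar).prod = ⊤ := by
    have : sb.map S.bar = Multiset.replicate (Multiset.card (sb.map S.bar)) 1 := by
      rw [Multiset.eq_replicate_card]
      intro Q hQ
      obtain ⟨P, hP, rfl⟩ := Multiset.mem_map.mp hQ
      rw [S.bar_eq_top_of_not_good (Multiset.mem_filter.mp hP).2, Ideal.one_eq_top]
    rw [this, Multiset.prod_replicate, one_pow, Ideal.one_eq_top]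
  have hbad' : S.bar sb.prod = ⊤ := by
    rw [eq_top_iff, ← hbad]
    exact S.prod_bar_le sb
  apply le_antisymm
  · calc S.bar s.prod ≤ S.bar sg.prod := by
          apply S.bar_mono
          rw [← h1, Multiset.prod_add]
          exact Ideal.mul_le_right.trans' (by rw [mul_comm])
      _ = (sg.map S.bar).prod := hgood
      _ = (s.map S.bar).prod := by
          rw [← h1, Multiset.map_add, Multiset.prod_add, hbad, Ideal.mul_top]
  · exact S.prod_bar_le s

/-- **Multiplicativity of reduction of ideals.** -/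
theorem bar_mul (hrat : ∀ P : Ideal O, P.IsMaximal → P ≠ ⊥ → IsRat L P) {I J : Ideal O}
    (hI : I ≠ ⊥) (hJ : J ≠ ⊥) : S.bar (I * J) = S.bar I * S.bar J := by
  classical
  have key : ∀ I : Ideal O, I ≠ ⊥ → S.bar I =
      ((UniqueFactorizationMonoid.normalizedFactors I).map S.bar).prod := by
    intro I hI
    have hp : ∀ P ∈ UniqueFactorizationMonoid.normalizedFactors I, Prime P := fun P hP =>
      UniqueFactorizationMonoid.prime_of_normalized_factor P hP
    have h1 := S.bar_prod (UniqueFactorizationMonoid.normalizedFactors I)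
      (fun P hP => hrat P ((Ideal.isPrime_of_prime (hp P hP)).isMaximal (hp P hP).ne_zero)
        (hp P hP).ne_zero)
      (fun P hP => (hp P hP).ne_zero)
    rwa [Ideal.prod_normalizedFactors_eq_self hI] at h1
  rw [key _ (mul_ne_zero hI hJ), key _ hI, key _ hJ,
    UniqueFactorizationMonoid.normalizedFactors_mul hI hJ, Multiset.map_add, Multiset.prod_add]

end Dedekind

end RedSys

end Fermat.Agent.H28
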