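import Mathlib
import Fermat.Agent.H28.Mult
import Fermat.Agent.H28.RedSys
import Fermat.Agent.H18_Dedekind

set_option autoImplicit false
set_option linter.style.haveILetI false
set_option linter.unusedSectionVars false

/-! The reduction homomorphism on divisors attached to a chart. -/

namespace Fermat.Agent.H28

open Module IsLocalRing IsDedekindDomain AlgebraicCurve

/-- all nonzero maximal ideals are rational -/
def AllRat (K O : Type*) [Field K] [CommRing O] [Algebra K O] : Prop :=
  ∀ P : Ideal O, P.IsMaximal → P ≠ ⊥ → IsRat K P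

section Ctr

variable {L F : Type*} (O : Type*) [Field L] [Field F] [Algebra L F]
  [CommRing O] [IsDedekindDomain O] [Algebra O F] [IsFractionRing O F]
  [Algebra L O] [IsScalarTower L O F]

/-- the place `P` lies in the chart `O` -/
def InChart (P : Place L F) : Prop := ∀ r : O, algebraMap O F r ∈ P.toValuationSubring

open Classical in
/-- the center of a place on `O` (or `⊤` if there is none) -/
noncomputable def ctr (P : Place L F) : Ideal O :=
  if h : InChart O P then (H18.center P h).asIdeal else ⊤

variable {O}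

theorem ctr_of {P : Place L F} (h : InChart O P) : ctr O P = (H18.center P h).asIdeal := dif_pos h

theorem ctr_of_not {P : Place L F} (h : ¬ InChart O P) : ctr O P = ⊤ := dif_neg h

theorem ctr_ne_bot (P : Place L F) : ctr O P ≠ ⊥ := by
  by_cases h : InChart O P
  · rw [ctr_of h]; exact (H18.center P h).ne_bot
  · rw [ctr_of_not h]; exact top_ne_bot

theorem mem_ctr {P : Place L F} (h : InChart O P) {r : O} (hr : r ≠ 0) :
    r ∈ ctr O P ↔ 0 < P.ord (algebraMap O F r) := by
  rw [ctr_of h]
  exact H18.mem_centerIdeal P h hr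

theorem isRat_ctr (hrat : AllRat L O) {P : Place L F} (h : InChart O P) : IsRat L (ctr O P) := by
  rw [ctr_of h]
  exact hrat _ (H18.center P h).isMaximal (H18.center P h).ne_bot

theorem ord_eq_mlt {P : Place L F} (h : InChart O P) {r : O} (hr : r ≠ 0) :
    P.ord (algebraMap O F r) = mlt (H18.center P h) (Ideal.span {r}) := by
  conv_lhs => rw [← H18.placeOfPrime_center P h]
  rw [H18.ord_placeOfPrime, log_valuation F _ hr, neg_neg]

theorem inChart_placeOfPrime (v : HeightOneSpectrum O) :
    InChart O (H18.placeOfPrime L F v) := H18.algebraMap_mem_placeOfPrime L F v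

theorem center_placeOfPrime (v : HeightOneSpectrum O) (h : InChart O (H18.placeOfPrime L F v)) :
    H18.center (H18.placeOfPrime L F v) h = v := H18.center_placeOfPrime v h

end Ctr

section Theta

variable {L : Type*} [Field L] {A : ValuationSubring L} {O Ob F : Type*}
  [CommRing O] [CommRing Ob] [IsDedekindDomain O] [IsDedekindDomain Ob] [Algebra L O]
  [Algebra (ResidueField A) Ob]
  [Field F] [Algebra O F] [IsFractionRing O F] [Algebra L F] [IsScalarTower L O F]
variable (S : RedSys A O Ob)

/-- multiplicity in the reduction of an ideal -/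
noncomputable def RedSys.mu (v : HeightOneSpectrum Ob) (I : Ideal O) : ℕ := mlt v (S.bar I)

theorem RedSys.mu_top (v : HeightOneSpectrum Ob) : S.mu v ⊤ = 0 := by
  rw [RedSys.mu, S.bar_top, mlt_top]

theorem RedSys.mu_mul (hrat : AllRat L O) (v : HeightOneSpectrum Ob) {I J : Ideal O}
    (hI : I ≠ ⊥) (hJ : J ≠ ⊥) : S.mu v (I * J) = S.mu v I + S.mu v J := by
  rw [RedSys.mu, S.bar_mul hrat hI hJ, mlt_mul v (S.bar_ne_bot hI) (S.bar_ne_bot hJ)]
  rfl

theorem RedSys.mu_span (v : HeightOneSpectrum Ob) {a : S.R} (ha : S.ρ a ≠ 0) :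
    S.mu v (Ideal.span {(a : O)}) = mlt v (Ideal.span {S.ρ a}) := by
  rw [RedSys.mu, S.bar_span_singleton ha]

variable (L F) in
/-- the reduction of divisors, evaluated at a prime of the special fibre -/
noncomputable def RedSys.theta (v : HeightOneSpectrum Ob) : Divisor L F →+ ℤ :=
  Finsupp.liftAddHom fun P : Place L F => AddMonoidHom.mulRight (S.mu v (ctr O P) : ℤ)

theorem RedSys.theta_single (v : HeightOneSpectrum Ob) (P : Place L F) (n : ℤ) :
    S.theta L F v (Finsupp.single P n) = n * S.mu v (ctr O P) := by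
  rw [RedSys.theta, Finsupp.liftAddHom_apply_single]
  rfl

theorem RedSys.theta_apply (v : HeightOneSpectrum Ob) (D : Divisor L F) :
    S.theta L F v D = D.sum fun P n => n * (S.mu v (ctr O P) : ℤ) := by
  rw [RedSys.theta, Finsupp.liftAddHom_apply]
  rfl

theorem RedSys.theta_eq_of_ideal (hrat : AllRat L O) (v : HeightOneSpectrum Ob) (I : Ideal O) :
    I ≠ ⊥ → ∀ D : Divisor L F, (∀ P (h : InChart O P), D P = mlt (H18.center P h) I) →
      S.theta L F v D = S.mu v I := by
  classical
  induction I using UniqueFactorizationMonoid.induction_on_prime with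
  | h₁ => intro h; exact absurd rfl h
  | h₂ I hI =>
    rw [Ideal.isUnit_iff] at hI
    subst hI
    intro _ D hD
    rw [S.theta_apply, S.mu_top, Finsupp.sum]
    rw [Nat.cast_zero]
    apply Finset.sum_eq_zero
    intro P _
    by_cases h : InChart O P
    · rw [hD P h, mlt_top, Nat.cast_zero, zero_mul]
    · rw [ctr_of_not h, S.mu_top, Nat.cast_zero, mul_zero]
  | h₃ a p ha hp ih =>
    intro _ D hD
    have ha' : a ≠ ⊥ := by simpa using ha
    let v₀ : HeightOneSpectrum O := ⟨p, Ideal.isPrime_of_prime hp, by simpa using hp.ne_zero⟩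
    have hsplit : D = (D - Finsupp.single (H18.placeOfPrime L F v₀) 1) +
        Finsupp.single (H18.placeOfPrime L F v₀) 1 := by rw [sub_add_cancel]
    rw [hsplit, map_add, S.theta_single, ih ha', S.mu_mul hrat v v₀.ne_bot ha']
    · rw [ctr_of (inChart_placeOfPrime v₀), center_placeOfPrime]
      push_cast
      ring
    · intro P h
      rw [Finsupp.sub_apply, hD P h]
      change ((mlt (H18.center P h) (v₀.asIdeal * a) : ℕ) : ℤ) - _ = _
      rw [mlt_mul _ v₀.ne_bot ha']
      by_cases hP : H18.placeOfPrime L F v₀ = P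
      · subst hP
        rw [Finsupp.single_eq_same, center_placeOfPrime, mlt_self]
        push_cast
        ring
      · rw [Finsupp.single_eq_of_ne (Ne.symm hP), mlt_eq_zero_of_ne]
        · simp
        · rintro h1
          apply hP
          rw [h1, H18.placeOfPrime_center]

theorem exists_divisor_of_ideal (I : Ideal O) : I ≠ ⊥ →
    ∃ D : Divisor L F, ∀ P (h : InChart O P), D P = mlt (H18.center P h) I := by
  classical
  induction I using UniqueFactorizationMonoid.induction_on_prime with
  | h₁ => intro h; exact absurd rfl h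
  | h₂ I hI =>
    rw [Ideal.isUnit_iff] at hI
    subst hI
    intro _
    exact ⟨0, fun P h => by rw [mlt_top]; rfl⟩
  | h₃ a p ha hp ih =>
    intro _
    have ha' : a ≠ ⊥ := by simpa using ha
    let v₀ : HeightOneSpectrum O := ⟨p, Ideal.isPrime_of_prime hp, by simpa using hp.ne_zero⟩
    obtain ⟨D, hD⟩ := ih ha'
    refine ⟨D + Finsupp.single (H18.placeOfPrime L F v₀) 1, fun P h => ?_⟩
    change _ = ((mlt (H18.center P h) (v₀.asIdeal * a) : ℕ) : ℤ)
    rw [mlt_mul _ v₀.ne_bot ha', Finsupp.add_apply, hD P h]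
    by_cases hP : H18.placeOfPrime L F v₀ = P
    · subst hP
      rw [Finsupp.single_eq_same, center_placeOfPrime, mlt_self]
      push_cast
      ring
    · rw [Finsupp.single_eq_of_ne (Ne.symm hP), mlt_eq_zero_of_ne]
      · simp
      · rintro h1
        apply hP
        rw [h1, H18.placeOfPrime_center]

/-- reduction of divisors of functions -/
theorem RedSys.theta_div (hrat : AllRat L O) (v : HeightOneSpectrum Ob) {f : F}
    {D : Divisor L F} (hD : ∀ P, D P = P.ord f) {c : L} (hc : c ≠ 0) {a b : S.R}
    (ha : S.ρ a ≠ 0) (hb : S.ρ b ≠ 0)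
    (h : f * algebraMap O F b = algebraMap L F c * algebraMap O F a) :
    S.theta L F v D = (mlt v (Ideal.span {S.ρ a}) : ℤ) - mlt v (Ideal.span {S.ρ b}) := by
  have ne_of : ∀ x : S.R, S.ρ x ≠ 0 → (x : O) ≠ 0 := by
    intro x hx h0
    apply hx
    have : x = 0 := Subtype.ext h0
    rw [this, map_zero]
  have ha0 := ne_of a ha
  have hb0 := ne_of b hb
  have haF : algebraMap O F a ≠ 0 := by simpa using ha0
  have hbF : algebraMap O F b ≠ 0 := by simpa using hb0
  have hcF : algebraMap L F c ≠ 0 := by simpa using hc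
  have hf : f ≠ 0 := by
    rintro rfl
    rw [zero_mul] at h
    exact mul_ne_zero hcF haF h.symm
  obtain ⟨E, hE⟩ := exists_divisor_of_ideal (L := L) (F := F) _ (span_ne_bot hb0)
  have h1 := S.theta_eq_of_ideal (F := F) hrat v _ (span_ne_bot hb0) E hE
  have h2 := S.theta_eq_of_ideal (F := F) hrat v _ (span_ne_bot ha0) (D + E) (by
    intro P hP
    rw [Finsupp.add_apply, hE P hP, hD, ← ord_eq_mlt hP ha0, ← ord_eq_mlt hP hb0,
      ← P.ord_mul hf hbF, h, P.ord_mul hcF haF, H18.ord_algebraMap, zero_add])
  rw [map_add, h1, S.mu_span v ha, S.mu_span v hb] at h2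
  omega

end Theta

end Fermat.Agent.H28
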