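import Mathlib
import Fermat.Agent.H28.Theta

set_option autoImplicit false
set_option linter.style.haveILetI false
set_option linter.unusedSectionVars false

/-! Integral closure of `K[t]` in a field `F`. -/

namespace Fermat.Agent.H28

open Module IsLocalRing IsDedekindDomain Polynomial

section CurveRing

variable (K : Type*) {F : Type*} [Field K] [Field F] [Algebra K F] (t : F)

/-- the ring of functions integral over `K[t]` -/
abbrev CR : Subalgebra (Algebra.adjoin K {t}) F := integralClosure (Algebra.adjoin K {t}) F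

variable {K t}

theorem mem_CR {x : F} : x ∈ CR K t ↔ IsIntegral (Algebra.adjoin K {t}) x := Iff.rfl

theorem mem_adjoin_iff {x : F} : x ∈ Algebra.adjoin K {t} ↔ ∃ p : K[X], x = aeval t p := by
  rw [Algebra.adjoin_singleton_eq_range_aeval, AlgHom.mem_range]
  simp only [eq_comm]

theorem isPID_adjoin :
    IsPrincipalIdealRing (Algebra.adjoin K {t}) := by
  have hrange : (aeval t : K[X] →ₐ[K] F).range = Algebra.adjoin K {t} :=
    (Algebra.adjoin_singleton_eq_range_aeval K t).symm
  let f : K[X] →+* Algebra.adjoin K {t} :=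
    ((aeval t : K[X] →ₐ[K] F).codRestrict (Algebra.adjoin K {t}) (fun p => by
      rw [← hrange]; exact ⟨p, rfl⟩)).toRingHom
  apply IsPrincipalIdealRing.of_surjective f
  rintro ⟨x, hx⟩
  obtain ⟨p, hp⟩ := mem_adjoin_iff.mp hx
  exact ⟨p, Subtype.ext hp.symm⟩

theorem isNoetherian_CR
    [Module.Finite (Algebra.adjoin K {t}) (CR K t)] : IsNoetherianRing (CR K t) := by
  haveI := isPID_adjoin (K := K) (t := t)
  exact IsNoetherianRing.of_finite (Algebra.adjoin K {t}) (CR K t)

theorem isFractionRing_CR [Algebra.IsAlgebraic (Algebra.adjoin K {t}) F] :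
    IsFractionRing (CR K t) F :=
  integralClosure.isFractionRing_of_algebraic fun x hx => Subtype.ext hx

theorem isDedekind_CR
    [Module.Finite (Algebra.adjoin K {t}) (CR K t)]
    [Algebra.IsAlgebraic (Algebra.adjoin K {t}) F] : IsDedekindDomain (CR K t) := by
  haveI := isPID_adjoin (K := K) (t := t)
  haveI := isNoetherian_CR (K := K) (t := t)
  haveI := isFractionRing_CR (K := K) (t := t)
  haveI : IsIntegrallyClosed (CR K t) := by
    rw [isIntegrallyClosed_iff F]
    intro x hx
    have : IsIntegral (Algebra.adjoin K {t}) x := isIntegral_trans x hx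
    exact ⟨⟨x, this⟩, rfl⟩
  haveI : Ring.DimensionLEOne (CR K t) := inferInstance
  exact { toIsDomain := inferInstance, toIsDedekindRing := { } }

theorem allRat_CR [IsAlgClosed K] [Module.Finite (Algebra.adjoin K {t}) (CR K t)] :
    AllRat K (CR K t) := by
  intro P hP _
  refine ⟨hP.ne_top, fun x => ?_⟩
  letI := Ideal.Quotient.field P
  haveI h1 : Algebra.FiniteType K (Algebra.adjoin K {t}) := by
    rw [← Subalgebra.fg_iff_finiteType]
    exact ⟨{t}, by simp⟩
  haveI h2 : Algebra.FiniteType (Algebra.adjoin K {t}) (CR K t) := inferInstance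
  haveI h3 : Algebra.FiniteType K (CR K t) := Algebra.FiniteType.trans h1 h2
  haveI h4 : Algebra.FiniteType K (CR K t ⧸ P) :=
    Algebra.FiniteType.of_surjective (Ideal.Quotient.mkₐ K P) Ideal.Quotient.mk_surjective
  haveI h5 : Module.Finite K (CR K t ⧸ P) := finite_of_finite_type_of_isJacobsonRing K (CR K t ⧸ P)
  haveI h6 : Algebra.IsIntegral K (CR K t ⧸ P) := inferInstance
  obtain ⟨c, hc⟩ := IsAlgClosed.algebraMap_bijective_of_isIntegral (k := K) (K := CR K t ⧸ P) |>.2
    (Ideal.Quotient.mk P x)
  refine ⟨c, ?_⟩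
  rw [← Ideal.Quotient.mk_eq_mk_iff_sub_mem, ← hc]
  rfl

end CurveRing

end Fermat.Agent.H28
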