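import Mathlib
import Fermat.Agent.H28.CurveRing

set_option autoImplicit false
set_option linter.style.haveILetI false
set_option linter.unusedSectionVars false

/-! From good reduction data (integral closure of `A[t]`) to a reduction system. -/

namespace Fermat.Agent.H28

open Module IsLocalRing IsDedekindDomain Polynomial

/-- Integral functions and their reductions. -/
structure RedData {L : Type*} [Field L] (A : ValuationSubring L) (F Fb : Type*) [Field F]
    [Field Fb] [Algebra L F] [Algebra (ResidueField A) Fb] where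
  Z : Subring F
  ρ : Z →+* Fb
  alg_mem : ∀ a : A, algebraMap L F a ∈ Z
  ρ_alg : ∀ a : A, ρ ⟨algebraMap L F a, alg_mem a⟩ =
    algebraMap (ResidueField A) Fb (residue A a)

section IntOver

variable {L F : Type*} [Field L] [Field F] [Algebra L F] (A : ValuationSubring L)

/-- evaluation `A[X] → F`, `X ↦ t` -/
noncomputable def evA (t : F) : A[X] →+* F :=
  Polynomial.eval₂RingHom ((algebraMap L F).comp A.subtype) t

theorem evA_apply (t : F) (p : A[X]) : evA A t p = p.eval₂ ((algebraMap L F).comp A.subtype) t :=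
  rfl

theorem evA_C (t : F) (a : A) : evA A t (C a) = algebraMap L F a := by
  rw [evA_apply, eval₂_C]; rfl

theorem evA_X (t : F) : evA A t X = t := by
  rw [evA_apply, eval₂_X]

/-- `x` is integral over `A[t]` -/
def IntOver (t x : F) : Prop := (evA A t).IsIntegralElem x

variable {A}

theorem intOver_self (t : F) : IntOver A t t := by
  have := (evA A t).isIntegralElem_map (x := X)
  rwa [evA_X] at this

theorem intOver_alg (t : F) (a : A) : IntOver A t (algebraMap L F a) := by
  have := (evA A t).isIntegralElem_map (x := C a)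
  rwa [evA_C] at this

theorem intOver_ev (t : F) (p : A[X]) : IntOver A t (evA A t p) :=
  (evA A t).isIntegralElem_map

theorem IntOver.add {t x y : F} (hx : IntOver A t x) (hy : IntOver A t y) :
    IntOver A t (x + y) := RingHom.IsIntegralElem.add _ hx hy

theorem IntOver.mul {t x y : F} (hx : IntOver A t x) (hy : IntOver A t y) :
    IntOver A t (x * y) := RingHom.IsIntegralElem.mul _ hx hy

theorem IntOver.neg {t x : F} (hx : IntOver A t x) : IntOver A t (-x) :=
  RingHom.IsIntegralElem.neg _ hx

/-- the subring of functions integral over `A[t]` -/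
def intSubring (A : ValuationSubring L) (t : F) : Subring F where
  carrier := {x | IntOver A t x}
  mul_mem' := IntOver.mul
  one_mem' := RingHom.isIntegralElem_one _
  add_mem' := IntOver.add
  zero_mem' := RingHom.isIntegralElem_zero _
  neg_mem' := IntOver.neg

theorem mem_intSubring {t x : F} : x ∈ intSubring A t ↔ IntOver A t x := Iff.rfl

theorem evA_eq_aeval (t : F) (q : A[X]) : evA A t q = aeval t (q.map A.subtype) := by
  rw [evA_apply, Polynomial.aeval_def, Polynomial.eval₂_map]

theorem evA_mem_adjoin (t : F) (q : A[X]) : evA A t q ∈ Algebra.adjoin L {t} := by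
  rw [evA_eq_aeval]
  exact Polynomial.aeval_mem_adjoin_singleton L t

/-- evaluation as a ring hom to `L[t]` -/
noncomputable def evAdj (A : ValuationSubring L) (t : F) : A[X] →+* Algebra.adjoin L {t} where
  toFun q := ⟨evA A t q, evA_mem_adjoin t q⟩
  map_one' := Subtype.ext (map_one (evA A t))
  map_mul' p q := Subtype.ext (map_mul (evA A t) p q)
  map_zero' := Subtype.ext (map_zero (evA A t))
  map_add' p q := Subtype.ext (map_add (evA A t) p q)

theorem IntOver.isIntegral {t x : F} (hx : IntOver A t x) :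
    IsIntegral (Algebra.adjoin L {t}) x := by
  obtain ⟨p, hp, hpx⟩ := hx
  refine ⟨p.map (evAdj A t), hp.map _, ?_⟩
  rw [Polynomial.eval₂_map]
  exact hpx

end IntOver

section Chart

variable {L : Type*} [Field L] {A : ValuationSubring L} {F Fb : Type*} [Field F] [Field Fb]
  [Algebra L F] [Algebra (ResidueField A) Fb]

/-- Good reduction of the chart `t`. -/
structure RedData.IsChart (D : RedData A F Fb) (t : D.Z) : Prop where
  mem : ∀ x : F, IntOver A (t : F) x → x ∈ D.Z
  red_int : ∀ (x : F) (hx : IntOver A (t : F) x),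
    IsIntegral (Algebra.adjoin (ResidueField A) {D.ρ t}) (D.ρ ⟨x, mem x hx⟩)
  red_surj : ∀ y : Fb, IsIntegral (Algebra.adjoin (ResidueField A) {D.ρ t}) y →
    ∃ (x : F) (hx : IntOver A (t : F) x), D.ρ ⟨x, mem x hx⟩ = y
  prim : ∀ x : F, x ≠ 0 → IsIntegral (Algebra.adjoin L {(t : F)}) x →
    ∃ (c : L) (hc : IntOver A (t : F) (c • x)), D.ρ ⟨c • x, mem _ hc⟩ ≠ 0
  fg : ∃ (n : ℕ) (w : Fin n → F), (∀ i, IntOver A (t : F) (w i)) ∧
    ∀ x, IntOver A (t : F) x → ∃ p : Fin n → A[X], x = ∑ i, evA A (t : F) (p i) * w i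

variable {D : RedData A F Fb} {t : D.Z}

/-- the element `t` of its chart ring -/
def tO (K : Type*) {F : Type*} [Field K] [Field F] [Algebra K F] (t : F) : CR K t :=
  ⟨t, isIntegral_algebraMap (x := (⟨t, Algebra.subset_adjoin rfl⟩ : Algebra.adjoin K {t}))⟩

theorem coe_tO (K : Type*) {F : Type*} [Field K] [Field F] [Algebra K F] (t : F) :
    (tO K t : F) = t := rfl

theorem coe_algebraMap_CR (K : Type*) {F : Type*} [Field K] [Field F] [Algebra K F] (t : F)
    (c : K) : ((algebraMap K (CR K t) c : CR K t) : F) = algebraMap K F c := rfl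

theorem evA_mem_CR (t : F) (p : A[X]) : evA A t p ∈ CR L t := (intOver_ev t p).isIntegral

/-- the subring `R` of the chart ring -/
def Rsub (A : ValuationSubring L) (t : F) : Subring (CR L t) :=
  (intSubring A t).comap (CR L t).val.toRingHom

theorem mem_Rsub {t : F} {x : CR L t} : x ∈ Rsub A t ↔ IntOver A t (x : F) := Iff.rfl

theorem multiset_prod_sub_mem {O : Type*} [CommRing O] (s : Multiset (Ideal O))
    (g : Ideal O → O) (hg : ∀ P ∈ s, g P ∈ P) : (s.map g).prod ∈ s.prod := by
  induction s using Multiset.induction with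
  | empty => simp
  | cons P s ih =>
    rw [Multiset.map_cons, Multiset.prod_cons, Multiset.prod_cons]
    exact Ideal.mul_mem_mul (hg P (Multiset.mem_cons_self _ _))
      (ih fun Q hQ => hg Q (Multiset.mem_cons_of_mem hQ))

/-- the reduction system attached to a chart -/
noncomputable def RedData.IsChart.sys (h : D.IsChart t) :
    RedSys A (CR L (t : F)) (CR (ResidueField A) (D.ρ t)) where
  R := Rsub A (t : F)
  ρ :=
    { toFun := fun x => ⟨D.ρ ⟨(x : CR L (t : F)), h.mem _ x.2⟩, h.red_int _ x.2⟩
      map_one' := Subtype.ext (map_one D.ρ)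
      map_mul' := fun x y => Subtype.ext (map_mul D.ρ
        ⟨((x : CR L (t : F)) : F), h.mem _ x.2⟩ ⟨((y : CR L (t : F)) : F), h.mem _ y.2⟩)
      map_zero' := Subtype.ext (map_zero D.ρ)
      map_add' := fun x y => Subtype.ext (map_add D.ρ
        ⟨((x : CR L (t : F)) : F), h.mem _ x.2⟩ ⟨((y : CR L (t : F)) : F), h.mem _ y.2⟩) }
  alg_mem := fun a => intOver_alg _ a
  ρ_alg := fun a => Subtype.ext (D.ρ_alg a)
  surj := by
    rintro ⟨y, hy⟩
    obtain ⟨x, hx, hxy⟩ := h.red_surj y hy
    exact ⟨⟨⟨x, hx.isIntegral⟩, hx⟩, Subtype.ext hxy⟩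
  prim := by
    intro x hx
    obtain ⟨c, hc, hne⟩ := h.prim (x : F) (fun h0 => hx (Subtype.ext h0)) x.2
    exact ⟨c, hc, fun h0 => hne (congrArg Subtype.val h0)⟩
  fg := by
    intro s hs hg
    classical
    obtain ⟨n, w, hw, hspan⟩ := h.fg
    -- values of `t`
    have hval : ∀ P : Ideal (CR L (t : F)), ∃ c : A, P ∈ s →
        tO L (t : F) - algebraMap L _ (c : L) ∈ P := by
      intro P
      by_cases hP : P ∈ s
      · obtain ⟨c, hc⟩ := (hs P hP).2 (tO L (t : F))
        exact ⟨⟨c, hg P hP _ (mem_Rsub.mpr (intOver_self _)) c hc⟩, fun _ => hc⟩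
      · exact ⟨0, fun h => absurd h hP⟩
    choose val hval using hval
    let f₀ : A[X] := (s.map fun P => X - C (val P)).prod
    have hf₀ : f₀.Monic := by
      apply Polynomial.monic_multiset_prod_of_monic
      intro P _
      exact Polynomial.monic_X_sub_C _
    have hf₀mem : (⟨evA A (t : F) f₀, evA_mem_CR _ _⟩ : CR L (t : F)) ∈ s.prod := by
      have h1 : (⟨evA A (t : F) f₀, evA_mem_CR _ _⟩ : CR L (t : F)) =
          (s.map fun P => tO L (t : F) - algebraMap L _ ((val P : A) : L)).prod := by
        apply Subtype.ext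
        have h2 : (((s.map fun P => tO L (t : F) - algebraMap L (CR L (t : F)) ((val P : A) : L)).prod
          : CR L (t : F)) : F) = (s.map fun P => (t : F) - algebraMap L F ((val P : A) : L)).prod := by
          have := map_multiset_prod (CR L (t : F)).val
            (s.map fun P => tO L (t : F) - algebraMap L (CR L (t : F)) ((val P : A) : L))
          rw [Multiset.map_map] at this
          exact this
        rw [h2]
        change evA A (t : F) (s.map fun P => X - C (val P)).prod = _
        rw [map_multiset_prod, Multiset.map_map]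
        congr 1
        apply Multiset.map_congr rfl
        intro P _
        rw [Function.comp_apply, map_sub, evA_X, evA_C]
      rw [h1]
      exact multiset_prod_sub_mem s _ fun P hP => hval P hP
    refine ⟨Fin n × Fin f₀.natDegree, inferInstance,
      fun ij => ⟨⟨(t : F) ^ (ij.2 : ℕ) * w ij.1,
        (((intOver_ev (A := A) (t : F) (X ^ (ij.2 : ℕ))).mul (hw ij.1)).isIntegral) |>
          fun h => by rwa [map_pow, evA_X] at h⟩, by
        rw [mem_Rsub]
        have := (intOver_ev (A := A) (t : F) (X ^ (ij.2 : ℕ))).mul (hw ij.1)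
        rwa [map_pow, evA_X] at this⟩, ?_⟩
    intro y hy
    obtain ⟨p, hp⟩ := hspan _ hy
    change (y : F) = _ at hp
    refine ⟨fun ij => ((p ij.1) %ₘ f₀).coeff ij.2, ?_⟩
    have hq : ∀ i, IntOver A (t : F) (evA A (t : F) ((p i) /ₘ f₀) * w i) := fun i =>
      (intOver_ev _ _).mul (hw i)
    have key : y - ∑ ij : Fin n × Fin f₀.natDegree,
        ((((p ij.1) %ₘ f₀).coeff ij.2 : A) : L) • (⟨(t : F) ^ (ij.2 : ℕ) * w ij.1,
        (((intOver_ev (A := A) (t : F) (X ^ (ij.2 : ℕ))).mul (hw ij.1)).isIntegral) |>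
          fun h => by rwa [map_pow, evA_X] at h⟩ : CR L (t : F)) =
        ⟨evA A (t : F) f₀, evA_mem_CR _ _⟩ * ∑ i, (⟨_, (hq i).isIntegral⟩ : CR L (t : F)) := by
      apply Subtype.ext
      push_cast
      rw [hp, Fintype.sum_prod_type, ← Finset.sum_sub_distrib, Finset.mul_sum]
      apply Finset.sum_congr rfl
      intro i _
      have h1 : p i = (p i) %ₘ f₀ + f₀ * ((p i) /ₘ f₀) :=
        (Polynomial.modByMonic_add_div (p i) f₀).symm
      have h2 : evA A (t : F) ((p i) %ₘ f₀) =
          ∑ j : Fin f₀.natDegree, algebraMap L F ((((p i) %ₘ f₀).coeff j : A) : L) *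
            (t : F) ^ (j : ℕ) := by
        by_cases hf1 : f₀ = 1
        · have h3 : (p i) %ₘ f₀ = 0 := by rw [hf1, Polynomial.modByMonic_one]
          rw [h3, map_zero]
          symm
          apply Finset.sum_eq_zero
          intro j _
          simp
        · have hlt : ((p i) %ₘ f₀).natDegree < f₀.natDegree :=
            Polynomial.natDegree_modByMonic_lt _ hf₀ hf1
          rw [evA_apply, Polynomial.eval₂_eq_sum_range' _ hlt, Finset.sum_range]
          rfl
      conv_lhs => rw [h1]
      rw [map_add, map_mul, h2, add_mul, Finset.sum_mul]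
      have h3 : ∀ j : Fin f₀.natDegree, ((((p i) %ₘ f₀).coeff j : A) : L) • ((t : F) ^ (j : ℕ) * w i)
          = algebraMap L F ((((p i) %ₘ f₀).coeff j : A) : L) * (t : F) ^ (j : ℕ) * w i := by
        intro j
        rw [Algebra.smul_def, mul_assoc]
      simp_rw [h3]
      ring
    change y - ∑ ij : Fin n × Fin f₀.natDegree,
        ((((p ij.1) %ₘ f₀).coeff ij.2 : A) : L) • (⟨(t : F) ^ (ij.2 : ℕ) * w ij.1, _⟩ :
          CR L (t : F)) ∈ s.prod
    rw [key]
    exact Ideal.mul_mem_right _ _ hf₀mem

end Chart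

end Fermat.Agent.H28
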