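import Mathlib
import Fermat.Agent.H28.RedSys

set_option autoImplicit false
set_option linter.style.haveILetI false

namespace Fermat.Agent.H28

open Module IsLocalRing

section Gen

variable {O : Type*} [CommRing O] [IsDedekindDomain O]

theorem exists_avoid {P M₁ M₂ : Ideal O} (hP : P.IsMaximal) (hP0 : P ≠ ⊥) (h₁ : M₁.IsMaximal)
    (h₂ : M₂.IsMaximal) : ∃ a ∈ P, a ∉ P ^ 2 ∧ (M₁ ≠ P → a ∉ M₁) ∧ (M₂ ≠ P → a ∉ M₂) := by
  classical
  by_contra hcon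
  push Not at hcon
  let s : Finset (Ideal O) := insert (P ^ 2) (({M₁, M₂} : Finset (Ideal O)).erase P)
  have hsub : (P : Set O) ⊆ ⋃ i ∈ (↑s : Set (Ideal O)), ((id i : Ideal O) : Set O) := by
    intro a ha
    rw [Set.mem_iUnion₂]
    by_cases h0 : a ∈ P ^ 2
    · exact ⟨P ^ 2, by simp [s], h0⟩
    by_cases h1 : M₁ ≠ P ∧ a ∈ M₁
    · exact ⟨M₁, by simp [s, h1.1], h1.2⟩
    · obtain ⟨h3, h4⟩ := hcon a ha h0 (fun h h' => h1 ⟨h, h'⟩)
      exact ⟨M₂, by simp [s, h3], h4⟩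
  rw [Ideal.subset_union_prime (P ^ 2) (P ^ 2)] at hsub
  · obtain ⟨i, hi, hle⟩ := hsub
    rw [id] at hle
    rw [Finset.mem_insert, Finset.mem_erase, Finset.mem_insert, Finset.mem_singleton] at hi
    rcases hi with rfl | ⟨hne, rfl | rfl⟩
    · have h1 : P * ⊤ = P * P := by
        apply le_antisymm
        · rw [Ideal.mul_top, ← pow_two]; exact hle
        · exact Ideal.mul_mono_right le_top
      exact hP.ne_top (mul_left_cancel₀ (by simpa using hP0) h1).symm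
    · exact hne (hP.eq_of_le h₁.ne_top hle).symm
    · exact hne (hP.eq_of_le h₂.ne_top hle).symm
  · intro i hi hne _
    rw [Finset.mem_insert, Finset.mem_erase, Finset.mem_insert, Finset.mem_singleton] at hi
    rcases hi with h | ⟨-, rfl | rfl⟩
    · exact absurd h hne
    · exact h₁.isPrime
    · exact h₂.isPrime

/-- The ideal generated by the elements `Φ a * (Φ' a) ^ n`, `a ∈ P`, is `Φ(P) Φ'(P)^n`. -/
theorem map_mul_map_pow_le {P : Ideal O} (hP : P.IsMaximal) (hP0 : P ≠ ⊥) (Φ Φ' : O →+* O)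
    (hΦ : Function.Bijective Φ) (hΦ' : Function.Bijective Φ')
    (n : ℕ) {J : Ideal O} (hJ : ∀ a ∈ P, Φ a * (Φ' a) ^ n ∈ J) :
    P.map Φ * (P.map Φ') ^ n ≤ J := by
  set Q₁ := P.map Φ with hQ₁
  set Q₂ := P.map Φ' with hQ₂
  set J0 : Ideal O := Ideal.span {x | ∃ a ∈ P, x = Φ a * (Φ' a) ^ n} with hJ0
  have hJ0J : J0 ≤ J := by
    rw [hJ0, Ideal.span_le]
    rintro x ⟨a, ha, rfl⟩
    exact hJ a ha
  have hJ0K : J0 ≤ Q₁ * Q₂ ^ n := by
    rw [hJ0, Ideal.span_le]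
    rintro x ⟨a, ha, rfl⟩
    exact Ideal.mul_mem_mul (Ideal.mem_map_of_mem _ ha)
      (Ideal.pow_mem_pow (Ideal.mem_map_of_mem _ ha) n)
  obtain ⟨J1, hJ1⟩ := Ideal.dvd_iff_le.mpr hJ0K
  have hmap0 : ∀ Ψ : O →+* O, Function.Bijective Ψ → P.map Ψ ≠ ⊥ := by
    intro Ψ hΨ h
    obtain ⟨x, hx, hx0⟩ := Submodule.exists_mem_ne_zero_of_ne_bot hP0
    have : Ψ x ∈ P.map Ψ := Ideal.mem_map_of_mem _ hx
    rw [h, Ideal.mem_bot] at this
    exact hx0 ((map_eq_zero_iff Ψ hΨ.1).mp this)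
  have hK0 : Q₁ * Q₂ ^ n ≠ 0 := mul_ne_zero (hmap0 Φ hΦ) (pow_ne_zero _ (hmap0 Φ' hΦ'))
  suffices h : J1 = ⊤ by
    rw [h, Ideal.mul_top] at hJ1
    rw [← hJ1]; exact hJ0J
  by_contra hne
  obtain ⟨M, hM, hJM⟩ := Ideal.exists_le_maximal J1 hne
  haveI := hM
  have hM₁ : (M.comap Φ).IsMaximal := Ideal.comap_isMaximal_of_surjective Φ hΦ.2
  have hM₂ : (M.comap Φ').IsMaximal := Ideal.comap_isMaximal_of_surjective Φ' hΦ'.2
  obtain ⟨a, haP, haP2, ha1, ha2⟩ := exists_avoid hP hP0 hM₁ hM₂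
  -- factor the principal ideals
  have fac : ∀ Ψ : O →+* O, Function.Bijective Ψ → (M.comap Ψ ≠ P → a ∉ M.comap Ψ) →
      ∃ A₁ : Ideal O, Ideal.span {Ψ a} = P.map Ψ * A₁ ∧ ¬ A₁ ≤ M := by
    intro Ψ hb hΨ
    have h1 : Ideal.span {Ψ a} ≤ P.map Ψ := by
      rw [Ideal.span_singleton_le_iff_mem]
      exact Ideal.mem_map_of_mem Ψ haP
    obtain ⟨A₁, hA₁⟩ := Ideal.dvd_iff_le.mpr h1
    refine ⟨A₁, hA₁, fun hle => ?_⟩
    by_cases hc : M.comap Ψ = P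
    · -- M = Ψ(P)
      apply haP2
      have h2 : Ψ a ∈ P.map Ψ * P.map Ψ := by
        have h3 : Ψ a ∈ P.map Ψ * A₁ := by
          rw [← hA₁]; exact Ideal.mem_span_singleton_self _
        have h4 : A₁ ≤ P.map Ψ := by
          rw [← hc, Ideal.map_comap_of_surjective _ hb.2]; exact hle
        exact Ideal.mul_mono_right h4 h3
      rw [← Ideal.map_mul, Ideal.mem_map_iff_of_surjective Ψ hb.2] at h2
      obtain ⟨y, hy, hya⟩ := h2
      rw [pow_two, ← hb.1 hya]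
      exact hy
    · apply hΨ hc
      rw [Ideal.mem_comap]
      have h3 : Ψ a ∈ P.map Ψ * A₁ := by
        rw [← hA₁]; exact Ideal.mem_span_singleton_self _
      exact hle (Ideal.mul_le_right h3)
  obtain ⟨A₁, hA₁, hA₁M⟩ := fac Φ hΦ ha1
  obtain ⟨A₂, hA₂, hA₂M⟩ := fac Φ' hΦ' ha2
  have h5 : Ideal.span {Φ a * (Φ' a) ^ n} ≤ Q₁ * Q₂ ^ n * M := by
    have h6 : Ideal.span {Φ a * (Φ' a) ^ n} ≤ J0 := by
      rw [Ideal.span_singleton_le_iff_mem]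
      exact Ideal.subset_span ⟨a, haP, rfl⟩
    exact h6.trans (hJ1.le.trans (Ideal.mul_mono_right hJM))
  have h7 : Ideal.span {Φ a * (Φ' a) ^ n} = Q₁ * Q₂ ^ n * (A₁ * A₂ ^ n) := by
    rw [← Ideal.span_singleton_mul_span_singleton, ← Ideal.span_singleton_pow, hA₁, hA₂, mul_pow]
    rw [hQ₁, hQ₂]
    simp only [mul_assoc, mul_left_comm, mul_comm]
  rw [h7] at h5
  have h8 : A₁ * A₂ ^ n ≤ M := by
    have h9 := Ideal.dvd_iff_le.mpr h5
    exact Ideal.dvd_iff_le.mp ((mul_dvd_mul_iff_left hK0).mp h9)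
  rcases (hM.isPrime.mul_le).mp h8 with h | h
  · exact hA₁M h
  · exact hA₂M (hM.isPrime.le_of_pow_le h)

end Gen

end Fermat.Agent.H28
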