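import Mathlib
import Fermat.Agent.H28.Theta
import Fermat.Agent.H28.HeckeIdeal
import Fermat.Prelude.Def_AlgebraicCurve_BaseChangeGalois

set_option autoImplicit false
set_option linter.style.haveILetI false
set_option linter.unusedSectionVars false

/-! Equivariance of the reduction of divisors, and the Eichler-Shimura relation for ideals. -/

namespace Fermat.Agent.H28

open Module IsLocalRing IsDedekindDomain AlgebraicCurve

section Codim

variable {K O : Type*} [Field K] [CommRing O] [Algebra K O]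

theorem IsRat.map_equiv {P : Ideal O} (h : IsRat K P) (e : O ≃+* O) (σ : K ≃+* K)
    (he : ∀ c : K, e (algebraMap K O c) = algebraMap K O (σ c)) :
    IsRat K (P.map (e : O →+* O)) := by
  constructor
  · intro htop
    apply h.1
    rw [Ideal.eq_top_iff_one] at htop ⊢
    rw [Ideal.mem_map_iff_of_surjective (e : O →+* O) e.surjective] at htop
    obtain ⟨x, hx, hx1⟩ := htop
    have : x = 1 := e.injective (by rw [map_one]; exact hx1)
    rwa [this] at hx
  · intro x
    obtain ⟨c, hc⟩ := h.2 (e.symm x)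
    refine ⟨σ c, ?_⟩
    have := Ideal.mem_map_of_mem (e : O →+* O) hc
    have h2 : (e : O →+* O) (e.symm x - algebraMap K O c) = x - algebraMap K O (σ c) := by
      rw [map_sub]
      show e (e.symm x) - e (algebraMap K O c) = _
      rw [RingEquiv.apply_symm_apply, he]
    rwa [h2] at this

end Codim

section Equi

variable {L : Type*} [Field L] {A : ValuationSubring L} {O Ob F : Type*}
  [CommRing O] [CommRing Ob] [IsDedekindDomain O] [IsDedekindDomain Ob] [Algebra L O]
  [Algebra (ResidueField A) Ob]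
  [Field F] [Algebra O F] [IsFractionRing O F] [Algebra L F] [IsScalarTower L O F]
variable (S : RedSys A O Ob)

/-- compatibility of a semilinear automorphism with a reduction system -/
structure RedSys.Equi (g : SemilinearAut L F) (e : O ≃+* O) (eb : Ob ≃+* Ob) : Prop where
  map_e : ∀ x, algebraMap O F (e x) = g • algebraMap O F x
  mem : ∀ x ∈ S.R, e x ∈ S.R
  mem_symm : ∀ x ∈ S.R, e.symm x ∈ S.R
  red : ∀ x (hx : x ∈ S.R), S.ρ ⟨e x, mem x hx⟩ = eb (S.ρ ⟨x, hx⟩)

variable {S} {g : SemilinearAut L F} {e : O ≃+* O} {eb : Ob ≃+* Ob}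

theorem RedSys.Equi.bar_map (h : S.Equi g e eb) (I : Ideal O) :
    S.bar (I.map (e : O →+* O)) = (S.bar I).map (eb : Ob →+* Ob) := by
  ext y
  rw [S.mem_bar, Ideal.mem_map_iff_of_surjective (eb : Ob →+* Ob) eb.surjective]
  constructor
  · rintro ⟨x, hx, rfl⟩
    rw [map_eq_comap_symm', Ideal.mem_comap] at hx
    refine ⟨S.ρ ⟨e.symm x, h.mem_symm x x.2⟩, S.ρ_mem_bar hx, ?_⟩
    have h1 := h.red (e.symm x) (h.mem_symm x x.2)
    show eb _ = _
    rw [← h1]
    congr 1
    exact Subtype.ext (e.apply_symm_apply _)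
  · rintro ⟨z, hz, rfl⟩
    obtain ⟨x, hx, rfl⟩ := S.mem_bar.mp hz
    exact ⟨⟨e x, h.mem x x.2⟩, Ideal.mem_map_of_mem (e : O →+* O) hx, h.red x x.2⟩

theorem RedSys.Equi.inChart (h : S.Equi g e eb) (P : Place L F) :
    InChart O (g • P) ↔ InChart O P := by
  constructor
  · intro h1 r
    have h2 := h1 (e r)
    rw [h.map_e, SemilinearAut.smul_toValuationSubring] at h2
    exact (ValuationSubring.smul_mem_pointwise_smul_iff).mp h2
  · intro h1 r
    have h2 := h1 (e.symm r)
    rw [SemilinearAut.smul_toValuationSubring]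
    have h3 : algebraMap O F r = g • algebraMap O F (e.symm r) := by
      rw [← h.map_e, RingEquiv.apply_symm_apply]
    rw [h3]
    exact (ValuationSubring.smul_mem_pointwise_smul_iff).mpr h2

theorem RedSys.Equi.ctr_smul (h : S.Equi g e eb) (P : Place L F) :
    ctr O (g • P) = (ctr O P).map (e : O →+* O) := by
  by_cases hP : InChart O P
  · have hP' := (h.inChart P).mpr hP
    ext r
    rw [map_eq_comap_symm', Ideal.mem_comap]
    rcases eq_or_ne r 0 with rfl | hr
    · simp
    · have hr' : e.symm r ≠ 0 := by simpa using hr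
      rw [mem_ctr hP' hr]
      change _ ↔ e.symm r ∈ _
      rw [mem_ctr hP hr', ← SemilinearAut.ord_smul g P, ← h.map_e, RingEquiv.apply_symm_apply]
  · rw [ctr_of_not hP, ctr_of_not (fun h1 => hP ((h.inChart P).mp h1)), Ideal.map_top]

theorem mlt_map_symm (eb : Ob ≃+* Ob) (v : HeightOneSpectrum Ob) {I : Ideal Ob} (hI : I ≠ ⊥) :
    mlt v (I.map (eb : Ob →+* Ob)) = mlt (mapPrime eb.symm v) I := by
  have h1 := mlt_map eb (mapPrime eb.symm v) hI
  rw [← h1]
  congr 1
  apply HeightOneSpectrum.ext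
  rw [mapPrime_asIdeal, mapPrime_asIdeal, Ideal.comap_comap]
  have : ((eb.symm.symm : Ob →+* Ob).comp (eb.symm : Ob →+* Ob)) = RingHom.id Ob := by
    ext x
    simp
  rw [this, Ideal.comap_id]

theorem RedSys.Equi.theta_smul (h : S.Equi g e eb) (v : HeightOneSpectrum Ob) (D : Divisor L F) :
    S.theta L F v (g • D) = S.theta L F (mapPrime eb.symm v) D := by
  induction D using Finsupp.induction with
  | zero => rw [smul_zero, map_zero, map_zero]
  | single_add P n D _ _ ih =>
    rw [smul_add, map_add, map_add, ih, SemilinearAut.smul_single, S.theta_single, S.theta_single,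
      RedSys.mu, RedSys.mu, h.ctr_smul, h.bar_map, mlt_map_symm eb v (S.bar_ne_bot (ctr_ne_bot P))]

end Equi

section Hecke

variable {L : Type*} [Field L] {A : ValuationSubring L} {O Ob F : Type*}
  [CommRing O] [CommRing Ob] [IsDedekindDomain O] [IsDedekindDomain Ob] [Algebra L O]
  [Algebra (ResidueField A) Ob]
  [Field F] [Algebra O F] [IsFractionRing O F] [Algebra L F] [IsScalarTower L O F]
variable (S : RedSys A O Ob)

theorem mem_prod_pow {ι : Type*} (s : Finset ι) (Q : ι → Place L F) (n : ι → ℕ)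
    (hQ : ∀ i ∈ s, InChart O (Q i)) {b : O} (hb : b ≠ 0)
    (h : ∀ P : Place L F, InChart O P →
      (Finset.sum s fun i => Finsupp.single (Q i) (n i : ℤ)) P ≤
      P.ord (algebraMap O F b)) : b ∈ ∏ i ∈ s, ctr O (Q i) ^ n i := by
  classical
  rw [← Ideal.span_singleton_le_iff_mem, le_iff_mlt (span_ne_bot hb)
    (prod_ne_bot _ _ fun i _ => pow_ne_bot (ctr_ne_bot _) _)]
  intro v
  rw [mlt_prod _ _ _ fun i _ => pow_ne_bot (ctr_ne_bot _) _]
  have h1 := h (H18.placeOfPrime L F v) (inChart_placeOfPrime v)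
  have h2 : (H18.placeOfPrime L F v).ord (algebraMap O F b) = mlt v (Ideal.span {b}) := by
    rw [ord_eq_mlt (inChart_placeOfPrime v) hb, center_placeOfPrime]
  rw [h2] at h1
  have h3 : ((∑ i ∈ s, mlt v (ctr O (Q i) ^ n i) : ℕ) : ℤ) =
      (Finset.sum s fun i => Finsupp.single (Q i) (n i : ℤ)) (H18.placeOfPrime L F v) := by
    rw [Finsupp.finsetSum_apply]
    push_cast
    apply Finset.sum_congr rfl
    intro i hi
    rw [mlt_pow v (ctr_ne_bot _), Finsupp.single_apply, ctr_of (hQ i hi)]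
    by_cases hi2 : Q i = H18.placeOfPrime L F v
    · rw [if_pos hi2]
      have : H18.center (Q i) (hQ i hi) = v := by
        have h4 : ∀ (P : Place L F) (hP : InChart O P), P = H18.placeOfPrime L F v →
            H18.center P hP = v := by
          rintro P hP rfl
          exact center_placeOfPrime v hP
        exact h4 _ _ hi2
      rw [this, mlt_self, mul_one]
    · rw [if_neg hi2, mlt_eq_zero_of_ne, mul_zero, Nat.cast_zero]
      intro h4
      apply hi2
      rw [← h4, H18.placeOfPrime_center]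
  rw [← h3] at h1
  exact_mod_cast h1

theorem finset_prod_pow_eq {ι R : Type*} [CommMonoid R] (s : Finset ι) (I : ι → R) (n : ι → ℕ) :
    ∏ i ∈ s, I i ^ n i = (s.val.bind fun i => Multiset.replicate (n i) (I i)).prod := by
  classical
  induction s using Finset.induction_on with
  | empty => simp
  | insert a s ha ih =>
    rw [Finset.prod_insert ha, ih, Finset.insert_val, Multiset.ndinsert_of_notMem ha,
      Multiset.cons_bind, Multiset.prod_add, Multiset.prod_replicate]

theorem hasCodim_prod_pow {K O : Type*} [Field K] [CommRing O] [IsDedekindDomain O] [Algebra K O]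
    {ι : Type*} (s : Finset ι) (I : ι → Ideal O) (n : ι → ℕ) (hI : ∀ i ∈ s, IsRat K (I i))
    (hI0 : ∀ i ∈ s, I i ≠ ⊥) : HasCodim K (∏ i ∈ s, I i ^ n i) (∑ i ∈ s, n i) := by
  rw [finset_prod_pow_eq]
  have h := hasCodim_prod (K := K) (s.val.bind fun i => Multiset.replicate (n i) (I i))
    (by
      intro P hP
      obtain ⟨i, hi, hP⟩ := Multiset.mem_bind.mp hP
      rw [Multiset.eq_of_mem_replicate hP]
      exact hI i hi)
    (by
      intro P hP
      obtain ⟨i, hi, hP⟩ := Multiset.mem_bind.mp hP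
      rw [Multiset.eq_of_mem_replicate hP]
      exact hI0 i hi)
  have hc : Multiset.card (s.val.bind fun i => Multiset.replicate (n i) (I i)) =
      ∑ i ∈ s, n i := by
    rw [Multiset.card_bind]
    simp only [Function.comp_def, Multiset.card_replicate]
    rfl
  rwa [hc] at h

theorem RedSys.bar_prod_pow (hrat : AllRat L O) {ι : Type*} (s : Finset ι) (I : ι → Ideal O)
    (n : ι → ℕ) (hI0 : ∀ i ∈ s, I i ≠ ⊥) :
    S.bar (∏ i ∈ s, I i ^ n i) = ∏ i ∈ s, S.bar (I i) ^ n i := by
  classical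
  have hpow : ∀ (J : Ideal O), J ≠ ⊥ → ∀ m : ℕ, S.bar (J ^ m) = S.bar J ^ m := by
    intro J hJ m
    induction m with
    | zero => rw [pow_zero, pow_zero, Ideal.one_eq_top, S.bar_top, Ideal.one_eq_top]
    | succ m ih => rw [pow_succ, S.bar_mul hrat (pow_ne_bot hJ m) hJ, ih, pow_succ]
  induction s using Finset.induction_on with
  | empty => rw [Finset.prod_empty, Finset.prod_empty, Ideal.one_eq_top, S.bar_top,
      Ideal.one_eq_top]
  | insert a s ha ih =>
    rw [Finset.prod_insert ha, Finset.prod_insert ha, S.bar_mul hrat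
      (pow_ne_bot (hI0 a (Finset.mem_insert_self _ _)) _)
      (prod_ne_bot s _ fun i hi => pow_ne_bot (hI0 i (Finset.mem_insert_of_mem hi)) _),
      ih fun i hi => hI0 i (Finset.mem_insert_of_mem hi),
      hpow _ (hI0 a (Finset.mem_insert_self _ _))]

/-- **The Eichler-Shimura relation at a good point of a chart.** -/
theorem RedSys.theta_hecke (hrat : AllRat L O) {ι : Type*} (s : Finset ι) (Q : ι → Place L F)
    (n : ι → ℕ) (hQ : ∀ i ∈ s, InChart O (Q i)) (hQg : ∀ i ∈ s, S.Good (ctr O (Q i)))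
    {P : Place L F} (hP : InChart O P) (hPg : S.Good (ctr O P)) (ℓ : ℕ)
    (hn : ∑ i ∈ s, n i = ℓ + 1) (Φ Φ' : Ob ≃+* Ob) (φ φ' : ResidueField A ≃+* ResidueField A)
    (hΦ : ∀ c, Φ (algebraMap _ Ob c) = algebraMap _ Ob (φ c))
    (hΦ' : ∀ c, Φ' (algebraMap _ Ob c) = algebraMap _ Ob (φ' c))
    (h : ∀ a : S.R, (a : O) ∈ ctr O P → ∃ b : S.R, S.ρ b = Φ (S.ρ a) * Φ' (S.ρ a) ^ ℓ ∧
      (b : O) ∈ ∏ i ∈ s, ctr O (Q i) ^ n i) (v : HeightOneSpectrum Ob) :
    S.theta L F v (∑ i ∈ s, Finsupp.single (Q i) (n i : ℤ)) =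
      S.mu (mapPrime Φ.symm v) (ctr O P) + ℓ * S.mu (mapPrime Φ'.symm v) (ctr O P) := by
  set p := S.bar (ctr O P) with hp
  have hp0 : p ≠ ⊥ := S.bar_ne_bot (ctr_ne_bot P)
  have hprat : IsRat (ResidueField A) p := S.isRat_bar (isRat_ctr hrat hP) hPg
  -- the product ideal
  set J : Ideal O := ∏ i ∈ s, ctr O (Q i) ^ n i with hJ
  have hbarJ : S.bar J = ∏ i ∈ s, S.bar (ctr O (Q i)) ^ n i :=
    S.bar_prod_pow hrat s _ n fun i _ => ctr_ne_bot _
  have hcJ : HasCodim (ResidueField A) (S.bar J) (ℓ + 1) := by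
    rw [hbarJ, ← hn]
    exact hasCodim_prod_pow s _ n (fun i hi => S.isRat_bar (isRat_ctr hrat (hQ i hi)) (hQg i hi))
      fun i _ => S.bar_ne_bot (ctr_ne_bot _)
  have hle : p.map (Φ : Ob →+* Ob) * (p.map (Φ' : Ob →+* Ob)) ^ ℓ ≤ S.bar J := by
    apply map_mul_map_pow_le hprat.isMaximal hp0 (Φ : Ob →+* Ob) (Φ' : Ob →+* Ob) Φ.bijective
      Φ'.bijective ℓ
    intro a ha
    obtain ⟨x, hx, rfl⟩ := S.mem_bar.mp ha
    obtain ⟨b, hb, hbJ⟩ := h x hx
    have := S.ρ_mem_bar hbJ
    rw [hb] at this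
    exact this
  have hcK : HasCodim (ResidueField A)
      (p.map (Φ : Ob →+* Ob) * (p.map (Φ' : Ob →+* Ob)) ^ ℓ) (ℓ + 1) := by
    have h1 := hprat.map_equiv Φ φ hΦ
    have h2 := hprat.map_equiv Φ' φ' hΦ'
    have h3 := hasCodim_prod_pow (K := ResidueField A) (Finset.univ : Finset (Fin 2))
      (fun i => if i = 0 then p.map (Φ : Ob →+* Ob) else p.map (Φ' : Ob →+* Ob))
      (fun i => if i = 0 then 1 else ℓ)
      (by
        intro i _
        by_cases hi : i = 0
        · simpa [hi] using h1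
        · simpa [hi] using h2)
      (by
        intro i _
        by_cases hi : i = 0
        · simpa [hi] using map_ne_bot Φ hp0
        · simpa [hi] using map_ne_bot Φ' hp0)
    simp only [Fin.prod_univ_two, Fin.sum_univ_two, if_true, one_ne_zero, if_false, pow_one] at h3
    rwa [add_comm 1 ℓ] at h3
  have heq := eq_of_le_of_codim_le hle hcK hcJ le_rfl
  -- compute
  have h4 : (S.theta L F v (∑ i ∈ s, Finsupp.single (Q i) (n i : ℤ))) =
      mlt v (S.bar J) := by
    rw [map_sum, hbarJ, mlt_prod v s _ fun i _ => pow_ne_bot (S.bar_ne_bot (ctr_ne_bot _)) _]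
    push_cast
    apply Finset.sum_congr rfl
    intro i _
    rw [S.theta_single, mlt_pow v (S.bar_ne_bot (ctr_ne_bot _))]
    push_cast
    rfl
  rw [h4, ← heq, mlt_mul v (map_ne_bot Φ hp0) (pow_ne_bot (map_ne_bot Φ' hp0) ℓ),
    mlt_pow v (map_ne_bot Φ' hp0), mlt_map_symm Φ v hp0, mlt_map_symm Φ' v hp0]
  push_cast
  rfl

end Hecke

end Fermat.Agent.H28
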