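import Mathlib
import Fermat.Agent.H28.ChartMk
import Fermat.Agent.H28.Equi

set_option autoImplicit false
set_option linter.style.haveILetI false
set_option linter.unusedSectionVars false

/-! Facts on charts. -/

namespace Fermat.Agent.H28

open Module IsLocalRing IsDedekindDomain Polynomial AlgebraicCurve

section Field

variable {L : Type*} [Field L] {F : Type*} [Field F] [Algebra L F]

/-- integral elements lie in valuation rings containing the base -/
theorem mem_valuationSubring_of_isIntegral {K : Type*} [Field K] [Algebra K F] {t x : F}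
    (V : ValuationSubring F) (hK : ∀ c : K, algebraMap K F c ∈ V) (ht : t ∈ V)
    (hx : IsIntegral (Algebra.adjoin K {t}) x) : x ∈ V := by
  have hsub : ∀ y : Algebra.adjoin K {t}, (y : F) ∈ V := by
    rintro ⟨y, hy⟩
    obtain ⟨p, rfl⟩ := mem_adjoin_iff.mp hy
    change aeval t p ∈ V
    rw [Polynomial.aeval_eq_sum_range]
    refine sum_mem fun i _ => ?_
    rw [Algebra.smul_def]
    exact mul_mem (hK _) (pow_mem ht _)
  obtain ⟨p, hp, hpx⟩ := hx
  let f : Algebra.adjoin K {t} →+* V :=
    { toFun := fun y => ⟨y, hsub y⟩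
      map_one' := rfl
      map_mul' := fun _ _ => rfl
      map_zero' := rfl
      map_add' := fun _ _ => rfl }
  have hint : IsIntegral V x := by
    refine ⟨p.map f, hp.map f, ?_⟩
    rw [Polynomial.eval₂_map]
    exact hpx
  obtain ⟨y, hy⟩ := IsIntegrallyClosed.isIntegral_iff.mp hint
  rw [← hy]
  exact y.2

theorem inChart_iff {t : F} [IsDedekindDomain (CR L t)] [IsFractionRing (CR L t) F]
    (P : Place L F) : InChart (CR L t) P ↔ t ∈ P.toValuationSubring := by
  constructor
  · intro h
    exact h (tO L t)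
  · intro h r
    exact mem_valuationSubring_of_isIntegral P.toValuationSubring P.algebraMap_mem' h r.2

end Field

section Chart

variable {L : Type*} [Field L] {A : ValuationSubring L} {F Fb : Type*} [Field F] [Field Fb]
  [Algebra L F] [Algebra (ResidueField A) Fb]

variable {D : RedData A F Fb} {t : D.Z}

theorem RedData.IsChart.finite_CR (h : D.IsChart t) :
    Module.Finite (Algebra.adjoin L {(t : F)}) (CR L (t : F)) := by
  classical
  obtain ⟨n, w, hw, hspan⟩ := h.fg
  refine ⟨⟨Finset.univ.image fun i => (⟨w i, (hw i).isIntegral⟩ : CR L (t : F)), ?_⟩⟩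
  rw [eq_top_iff]
  rintro x -
  by_cases hx : x = 0
  · rw [hx]; exact zero_mem _
  obtain ⟨c, hc, hne⟩ := h.prim (x : F) (fun h0 => hx (Subtype.ext h0)) x.2
  obtain ⟨p, hp⟩ := hspan _ hc
  have hc0 : c ≠ 0 := by
    rintro rfl
    apply hne
    have : (⟨(0 : L) • (x : F), h.mem _ hc⟩ : D.Z) = 0 := Subtype.ext (zero_smul L (x : F))
    rw [this, map_zero]
  have key : x = ∑ i, ((⟨algebraMap L F c⁻¹ * evA A (t : F) (p i), mul_mem
      ((Algebra.adjoin L {(t : F)}).algebraMap_mem _) (evA_mem_adjoin _ _)⟩ :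
      Algebra.adjoin L {(t : F)})) • (⟨w i, (hw i).isIntegral⟩ : CR L (t : F)) := by
    apply Subtype.ext
    change (x : F) = (CR L (t : F)).val (∑ i, _)
    have h1 : (x : F) = algebraMap L F c⁻¹ * (c • (x : F)) := by
      rw [Algebra.smul_def, ← mul_assoc, ← map_mul, inv_mul_cancel₀ hc0, map_one, one_mul]
    rw [map_sum, h1, hp, Finset.mul_sum]
    apply Finset.sum_congr rfl
    intro i _
    change _ = (algebraMap L F c⁻¹ * evA A (t : F) (p i)) * w i
    ring
  rw [key]
  refine Submodule.sum_mem _ fun i _ => Submodule.smul_mem _ _ (Submodule.subset_span ?_)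
  simp

theorem ρ_evA (t : D.Z) (p : A[X]) (hm : evA A (t : F) p ∈ D.Z) :
    D.ρ ⟨evA A (t : F) p, hm⟩ = aeval (D.ρ t) (p.map (residue A)) := by
  have h1 : (⟨evA A (t : F) p, hm⟩ : D.Z) =
      p.eval₂ (((algebraMap L F).comp A.subtype).codRestrict D.Z D.alg_mem) t := by
    apply Subtype.ext
    change evA A (t : F) p = D.Z.subtype _
    rw [Polynomial.hom_eval₂]
    rfl
  rw [h1, Polynomial.hom_eval₂, Polynomial.aeval_def, Polynomial.eval₂_map]
  congr 1
  ext a
  exact D.ρ_alg a

theorem evA_mem_Z (t : D.Z) (p : A[X]) : evA A (t : F) p ∈ D.Z := by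
  have h1 : evA A (t : F) p = D.Z.subtype
      (p.eval₂ (((algebraMap L F).comp A.subtype).codRestrict D.Z D.alg_mem) t) := by
    rw [Polynomial.hom_eval₂]
    rfl
  rw [h1]
  exact Subtype.property _

theorem RedData.IsChart.finite_CRb (h : D.IsChart t) :
    Module.Finite (Algebra.adjoin (ResidueField A) {D.ρ t}) (CR (ResidueField A) (D.ρ t)) := by
  classical
  obtain ⟨n, w, hw, hspan⟩ := h.fg
  refine ⟨⟨Finset.univ.image fun i => (⟨D.ρ ⟨w i, h.mem _ (hw i)⟩, h.red_int _ (hw i)⟩ :
    CR (ResidueField A) (D.ρ t)), ?_⟩⟩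
  rw [eq_top_iff]
  rintro ⟨y, hy⟩ -
  obtain ⟨x, hx, rfl⟩ := h.red_surj y hy
  obtain ⟨p, hp⟩ := hspan _ hx
  have key : (⟨D.ρ ⟨x, h.mem x hx⟩, hy⟩ : CR (ResidueField A) (D.ρ t)) =
      ∑ i, ((⟨aeval (D.ρ t) ((p i).map (residue A)), Polynomial.aeval_mem_adjoin_singleton _ _⟩ :
      Algebra.adjoin (ResidueField A) {D.ρ t})) • (⟨D.ρ ⟨w i, h.mem _ (hw i)⟩,
        h.red_int _ (hw i)⟩ : CR (ResidueField A) (D.ρ t)) := by
    apply Subtype.ext
    have h1 : (⟨x, h.mem x hx⟩ : D.Z) =
        ∑ i, (⟨evA A (t : F) (p i), evA_mem_Z t (p i)⟩ : D.Z) * ⟨w i, h.mem _ (hw i)⟩ := by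
      apply Subtype.ext
      push_cast
      exact hp
    change D.ρ ⟨x, h.mem x hx⟩ = (CR (ResidueField A) (D.ρ t)).val (∑ i, _)
    rw [h1, map_sum, map_sum]
    apply Finset.sum_congr rfl
    intro i _
    rw [map_mul, ρ_evA]
    rfl
  rw [key]
  refine Submodule.sum_mem _ fun i _ => Submodule.smul_mem _ _ (Submodule.subset_span ?_)
  simp

/-- elements integral over `A[t]` have integral values where `t` has -/
theorem good_of_val {t : F} {P : Ideal (CR L t)} (hP : IsRat L P) {c : L} (hcA : c ∈ A)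
    (hc : tO L t - algebraMap L _ c ∈ P) {y : CR L t} (hy : IntOver A t (y : F)) {d : L}
    (hd : y - algebraMap L _ d ∈ P) : d ∈ A := by
  haveI : Nontrivial (CR L t ⧸ P) := Ideal.Quotient.nontrivial_iff.mpr hP.1
  obtain ⟨p, hp, hpy⟩ := hy
  -- the evaluation morphism `A[X] → O / P` is evaluation at `c`
  let q : A[X] := p.map (Polynomial.evalRingHom (⟨c, hcA⟩ : A))
  have hq : q.Monic := hp.map _
  have hq0 : q.eval₂ A.subtype d = 0 := by
    apply (algebraMap L (CR L t ⧸ P)).injective
    rw [Polynomial.hom_eval₂, map_zero, Polynomial.eval₂_map]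
    -- compare
    let ev : A[X] →+* CR L t :=
      { toFun := fun r => ⟨evA A t r, evA_mem_CR t r⟩
        map_one' := Subtype.ext (map_one (evA A t))
        map_mul' := fun a b => Subtype.ext (map_mul (evA A t) a b)
        map_zero' := Subtype.ext (map_zero (evA A t))
        map_add' := fun a b => Subtype.ext (map_add (evA A t) a b) }
    have hval : p.eval₂ ev y = 0 := by
      apply Subtype.ext
      change (CR L t).val.toRingHom _ = _
      rw [Polynomial.hom_eval₂]
      exact hpy
    have h1 := congrArg (Ideal.Quotient.mk P) hval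
    rw [Polynomial.hom_eval₂, map_zero] at h1
    have h2 : Ideal.Quotient.mk P y = algebraMap L (CR L t ⧸ P) d := by
      have : Ideal.Quotient.mk P y = Ideal.Quotient.mk P (algebraMap L _ d) :=
        (Ideal.Quotient.mk_eq_mk_iff_sub_mem _ _).mpr hd
      rw [this]; rfl
    have h3 : (Ideal.Quotient.mk P).comp ev =
        (((algebraMap L (CR L t ⧸ P)).comp A.subtype).comp
          (Polynomial.evalRingHom (⟨c, hcA⟩ : A))) := by
      apply Polynomial.ringHom_ext
      · intro a
        rw [RingHom.comp_apply, RingHom.comp_apply, Polynomial.coe_evalRingHom,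
          Polynomial.eval_C]
        have : ev (C a) = algebraMap L _ (a : L) := Subtype.ext (evA_C A t a)
        rw [this]; rfl
      · rw [RingHom.comp_apply, RingHom.comp_apply, Polynomial.coe_evalRingHom,
          Polynomial.eval_X]
        have : ev X = tO L t := Subtype.ext (evA_X A t)
        rw [this]
        have : Ideal.Quotient.mk P (tO L t) = Ideal.Quotient.mk P (algebraMap L _ c) :=
          (Ideal.Quotient.mk_eq_mk_iff_sub_mem _ _).mpr hc
        rw [this]; rfl
    rw [h2, h3] at h1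
    exact h1
  have hint : IsIntegral A d := ⟨q, hq, hq0⟩
  obtain ⟨a, ha⟩ := IsIntegrallyClosed.isIntegral_iff.mp hint
  rw [← ha]
  exact a.2

theorem RedData.IsChart.good_iff (h : D.IsChart t) {P : Ideal (CR L (t : F))} (hP : IsRat L P)
    {c : L} (hc : tO L (t : F) - algebraMap L _ c ∈ P) : h.sys.Good P ↔ c ∈ A := by
  constructor
  · intro hg
    exact hg (tO L (t : F)) (intOver_self _) c hc
  · intro hcA y hy d hd
    exact good_of_val hP hcA hc hy hd

end Chart

end Fermat.Agent.H28
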