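import Mathlib
import Fermat.Agent.H28.ChartFacts

set_option autoImplicit false
set_option linter.style.haveILetI false
set_option linter.unusedSectionVars false

/-! Functions without poles are constant. -/

namespace Fermat.Agent.H28

open Module IsLocalRing IsDedekindDomain Polynomial AlgebraicCurve

variable {k Fb : Type*} [Field k] [IsAlgClosed k] [Field Fb] [Algebra k Fb]

theorem exists_const_of_isAlgebraic {x : Fb} (hx : IsAlgebraic k x) :
    ∃ c : k, algebraMap k Fb c = x := by
  have h1 : x ∈ (algebraicClosure k Fb) := by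
    rwa [mem_algebraicClosure_iff]
  have h2 : algebraicClosure k Fb = ⊥ :=
    IntermediateField.eq_bot_of_isAlgClosed_of_isAlgebraic (algebraicClosure k Fb)
  rw [h2] at h1
  exact IntermediateField.mem_bot.mp h1

theorem exists_valuationSubring {u : Fb} (hu : ¬ ∃ c : k, algebraMap k Fb c = u) :
    ∃ V : ValuationSubring Fb, (∀ c : k, algebraMap k Fb c ∈ V) ∧ u ∉ V := by
  have huR : u ∉ (algebraMap k Fb).range := fun h => hu h
  haveI : IsIntegrallyClosedIn (algebraMap k Fb).range Fb := by
    rw [Subring.isIntegrallyClosedIn_iff]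
    intro x hx
    have hx' : IsIntegral k x := by
      obtain ⟨p, hp, hpx⟩ := hx
      have hsurj : Function.Surjective (algebraMap k Fb).rangeRestrict :=
        (algebraMap k Fb).rangeRestrict_surjective
      obtain ⟨q, hq, -, hqm⟩ := Polynomial.lifts_and_natDegree_eq_and_monic
        (f := (algebraMap k Fb).rangeRestrict) (p := p)
        ((Polynomial.mem_lifts p).mpr (Polynomial.map_surjective _ hsurj p)) hp
      refine ⟨q, hqm, ?_⟩
      rw [← hq, Polynomial.eval₂_map] at hpx
      exact hpx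
    obtain ⟨c, hc⟩ := exists_const_of_isAlgebraic hx'.isAlgebraic
    exact ⟨c, hc⟩
  obtain ⟨V, hV, huV⟩ := Subring.exists_le_valuationSubring_of_isIntegrallyClosedIn huR
  exact ⟨V, fun c => hV ⟨c, rfl⟩, huV⟩

theorem isConst_of_valuations {t₁ t₂ : Fb} (ht : t₁ * t₂ = 1)
    [IsDedekindDomain (CR k t₁)] [IsFractionRing (CR k t₁) Fb]
    [IsDedekindDomain (CR k t₂)] [IsFractionRing (CR k t₂) Fb] {u : Fb}
    (h₁ : ∀ v : HeightOneSpectrum (CR k t₁), v.valuation Fb u ≤ 1)
    (h₂ : ∀ v : HeightOneSpectrum (CR k t₂), tO k t₂ ∈ v.asIdeal → v.valuation Fb u ≤ 1) :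
    ∃ c : k, algebraMap k Fb c = u := by
  by_contra hcon
  obtain ⟨V, hkV, huV⟩ := exists_valuationSubring hcon
  obtain ⟨u', hu'⟩ := HeightOneSpectrum.mem_integers_of_valuation_le_one (R := CR k t₁) Fb u h₁
  have hint : IsIntegral (Algebra.adjoin k {t₁}) u := by
    rw [← hu']; exact u'.2
  by_cases ht₁ : t₁ ∈ V
  · exact huV (mem_valuationSubring_of_isIntegral V hkV ht₁ hint)
  have ht₂0 : t₂ ≠ 0 := right_ne_zero_of_mul_eq_one ht
  have ht₂ : t₂ = t₁⁻¹ := eq_inv_of_mul_eq_one_right ht
  have ht₂V : t₂ ∈ V := by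
    rw [ht₂]
    exact (V.mem_or_inv_mem t₁).resolve_left ht₁
  have hsub : ∀ x : CR k t₂, (x : Fb) ∈ V := fun x =>
    mem_valuationSubring_of_isIntegral V hkV ht₂V x.2
  let f : CR k t₂ →+* V :=
    { toFun := fun x => ⟨x, hsub x⟩
      map_one' := rfl
      map_mul' := fun _ _ => rfl
      map_zero' := rfl
      map_add' := fun _ _ => rfl }
  have htmem : tO k t₂ ∈ (maximalIdeal V).comap f := by
    rw [Ideal.mem_comap, mem_maximalIdeal, mem_nonunits_iff]
    intro hu
    obtain ⟨b, hb⟩ := isUnit_iff_exists_inv.mp hu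
    have hb' : t₂ * (b : Fb) = 1 := congrArg Subtype.val hb
    apply ht₁
    have : t₁ = (b : Fb) := by
      apply mul_right_cancel₀ ht₂0
      rw [ht, mul_comm, hb']
    rw [this]
    exact b.2
  let v : HeightOneSpectrum (CR k t₂) :=
    { asIdeal := (maximalIdeal V).comap f
      isPrime := by
        have := (inferInstance : (maximalIdeal V).IsPrime)
        exact Ideal.IsPrime.comap _
      ne_bot := by
        intro hbot
        rw [hbot, Ideal.mem_bot] at htmem
        exact ht₂0 (congrArg Subtype.val htmem) }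
  obtain ⟨n, d, hnd⟩ := v.exists_primeCompl_mul_eq_of_integer u (h₂ v htmem)
  have hd : f d ∉ maximalIdeal V := fun h => d.2 h
  rw [mem_maximalIdeal, mem_nonunits_iff, not_not] at hd
  obtain ⟨b, hb⟩ := isUnit_iff_exists_inv.mp hd
  have hb' : ((d : CR k t₂) : Fb) * (b : Fb) = 1 := congrArg Subtype.val hb
  apply huV
  have : u = (n : Fb) * b := by
    have h3 : u * ((d : CR k t₂) : Fb) = (n : Fb) := hnd
    rw [← h3, mul_assoc, hb', mul_one]
  rw [this]
  exact mul_mem (hsub n) b.2

end Fermat.Agent.H28
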