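import Mathlib
import Fermat.Agent.H28.Equi

set_option autoImplicit false
set_option linter.style.haveILetI false
set_option linter.unusedSectionVars false

/-! Moving lemma: functions with prescribed orders on the residue discs of the zeros of `t`. -/

namespace Fermat.Agent.H28

open Module IsLocalRing IsDedekindDomain AlgebraicCurve

variable {L : Type*} [Field L] {A : ValuationSubring L} {O Ob F : Type*}
  [CommRing O] [CommRing Ob] [IsDedekindDomain O] [IsDedekindDomain Ob] [Algebra L O]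
  [Algebra (ResidueField A) Ob]
  [Field F] [Algebra O F] [IsFractionRing O F] [Algebra L F] [IsScalarTower L O F]
variable (S : RedSys A O Ob)

/-- places at which `t` takes a value in the maximal ideal -/
def TVal (t : O) (P : Place L F) : Prop :=
  InChart O P ∧ ∃ c : A, c ∈ maximalIdeal A ∧ t - algebraMap L O c ∈ ctr O P

theorem RedSys.rho_mem_bar_of_tVal {t : S.R} {P : Place L F} (h : TVal (A := A) (t : O) P) :
    S.ρ t ∈ S.bar (ctr O P) := by
  obtain ⟨hP, c, hc, hct⟩ := h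
  have h1 : S.ρ (t - S.incl c) ∈ S.bar (ctr O P) := S.ρ_mem_bar hct
  rw [map_sub, S.ρ_incl, algebraMap_residue_eq_zero hc, sub_zero] at h1
  exact h1

theorem RedSys.mu_eq_zero_of_not_tVal (hrat : AllRat L O) {t : S.R}
    {v : HeightOneSpectrum Ob} (hv : S.ρ t ∈ v.asIdeal) {P : Place L F}
    (h : ¬ TVal (A := A) (t : O) P) : S.mu v (ctr O P) = 0 := by
  by_cases hP : InChart O P
  · by_contra hne
    have hle : S.bar (ctr O P) ≤ v.asIdeal :=
      (one_le_mlt_iff v (S.bar_ne_bot (ctr_ne_bot P))).mp (by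
        unfold RedSys.mu at hne; omega)
    have hg : S.Good (ctr O P) := by
      by_contra hg
      rw [S.bar_eq_top_of_not_good hg, top_le_iff] at hle
      exact v.isPrime.ne_top hle
    obtain ⟨c, hc⟩ := (isRat_ctr hrat hP).2 (t : O)
    have hcA := hg t t.2 c hc
    apply h
    refine ⟨hP, ⟨c, hcA⟩, ?_, hc⟩
    have h1 : S.ρ (t - S.incl ⟨c, hcA⟩) ∈ v.asIdeal := hle (S.ρ_mem_bar hc)
    rw [map_sub, S.ρ_incl] at h1
    have h2 := v.asIdeal.sub_mem hv h1
    rw [sub_sub_cancel] at h2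
    by_contra hcm
    have hu : residue A ⟨c, hcA⟩ ≠ 0 := by
      rw [ne_eq, IsLocalRing.residue_eq_zero_iff]
      exact hcm
    apply v.isPrime.ne_top
    rw [Ideal.eq_top_iff_one]
    have h3 := v.asIdeal.mul_mem_left (algebraMap _ Ob (residue A ⟨c, hcA⟩)⁻¹) h2
    rwa [← map_mul, inv_mul_cancel₀ hu, map_one] at h3
  · rw [ctr_of_not hP, S.mu_top]

open Classical in
theorem RedSys.exists_single (hrat : AllRat L O) {t : S.R} (ht : S.ρ t ≠ 0)
    (hgood : ∀ P : Place L F, TVal (A := A) (t : O) P → S.Good (ctr O P))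
    (P₀ : Place L F) (hP₀ : TVal (A := A) (t : O) P₀) :
    ∃ g : F, g ≠ 0 ∧ ∀ P, TVal (A := A) (t : O) P → P.ord g = if P = P₀ then 1 else 0 := by
  classical
  set I := ctr O P₀ with hI
  have hI0 : I ≠ ⊥ := ctr_ne_bot P₀
  have hIb0 : S.bar I ≠ ⊥ := S.bar_ne_bot hI0
  set C : Ideal Ob := Ideal.span {S.ρ t} with hC
  have hC0 : C ≠ ⊥ := span_ne_bot ht
  have hIb : S.bar I ≠ ⊤ := (S.isRat_bar (isRat_ctr hrat hP₀.1) (hgood P₀ hP₀)).1
  have hCI : C ≤ S.bar I := by
    rw [hC, Ideal.span_singleton_le_iff_mem]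
    exact S.rho_mem_bar_of_tVal hP₀
  obtain ⟨ab, hab⟩ := IsDedekindDomain.exists_sup_span_eq
    (show S.bar I * C ≤ S.bar I from Ideal.mul_le_left) (mul_ne_bot hIb0 hC0)
  have habI : ab ∈ S.bar I := by
    rw [← hab]; exact Ideal.mem_sup_right (Ideal.mem_span_singleton_self _)
  obtain ⟨a, haI, rfl⟩ := S.mem_bar.mp habI
  have ha0 : S.ρ a ≠ 0 := by
    intro h0
    rw [h0, Ideal.span_singleton_eq_bot.mpr rfl, sup_bot_eq] at hab
    have h1 : S.bar I * C = S.bar I * ⊤ := by rw [hab, Ideal.mul_top]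
    have h2 : C = ⊤ := mul_left_cancel₀ (by simpa using hIb0) h1
    rw [h2] at hCI
    exact hIb (top_le_iff.mp hCI)
  have ha0' : (a : O) ≠ 0 := by
    intro h0
    apply ha0
    have : a = 0 := Subtype.ext h0
    rw [this, map_zero]
  obtain ⟨J, hJ⟩ := Ideal.dvd_iff_le.mpr ((Ideal.span_singleton_le_iff_mem I).mpr haI)
  have hJ0 : J ≠ ⊥ := by
    rintro rfl
    rw [Ideal.mul_bot] at hJ
    exact span_ne_bot ha0' hJ
  have hbar : Ideal.span {S.ρ a} = S.bar I * S.bar J := by
    rw [← S.bar_mul hrat hI0 hJ0, ← hJ, S.bar_span_singleton ha0]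
  have hcop : C ⊔ S.bar J = ⊤ := by
    rw [hbar, ← Ideal.mul_sup] at hab
    have : S.bar I * (C ⊔ S.bar J) = S.bar I * ⊤ := by rw [hab, Ideal.mul_top]
    exact mul_left_cancel₀ (by simpa using hIb0) this
  refine ⟨algebraMap O F a, by simpa using ha0', fun P hP => ?_⟩
  rw [ord_eq_mlt hP.1 ha0', hJ, mlt_mul _ hI0 hJ0]
  have h1 : mlt (H18.center P hP.1) J = 0 := by
    by_contra hne
    have hle : J ≤ ctr O P := by
      rw [ctr_of hP.1]
      exact (one_le_mlt_iff _ hJ0).mp (by omega)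
    have h2 : C ⊔ S.bar J ≤ S.bar (ctr O P) := by
      apply sup_le _ (S.bar_mono hle)
      rw [hC, Ideal.span_singleton_le_iff_mem]
      exact S.rho_mem_bar_of_tVal hP
    rw [hcop, top_le_iff] at h2
    exact (S.isRat_bar (isRat_ctr hrat hP.1) (hgood P hP)).1 h2
  rw [h1, add_zero]
  have h3 : I = (H18.center P₀ hP₀.1).asIdeal := ctr_of hP₀.1
  rw [h3]
  by_cases hPP : P = P₀
  · subst hPP
    rw [if_pos rfl, mlt_self]
    rfl
  · rw [if_neg hPP, mlt_eq_zero_of_ne]
    · rfl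
    · intro h4
      apply hPP
      have h5 := H18.placeOfPrime_center P₀ hP₀.1
      rw [h4, H18.placeOfPrime_center] at h5
      exact h5

/-- **Moving lemma.** -/
theorem RedSys.exists_moving (hrat : AllRat L O) {t : S.R} (ht : S.ρ t ≠ 0)
    (hgood : ∀ P : Place L F, TVal (A := A) (t : O) P → S.Good (ctr O P))
    (D : Divisor L F) :
    ∃ g : F, g ≠ 0 ∧ ∀ P, TVal (A := A) (t : O) P → D P = P.ord g := by
  classical
  induction D using Finsupp.induction with
  | zero => exact ⟨1, one_ne_zero, fun P _ => by rw [P.ord_one]; rfl⟩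
  | single_add P₀ n D _ _ ih =>
    obtain ⟨g, hg, hgP⟩ := ih
    by_cases hP₀ : TVal (A := A) (t : O) P₀
    · obtain ⟨a, ha, haP⟩ := S.exists_single hrat ht hgood P₀ hP₀
      refine ⟨a ^ n * g, mul_ne_zero (zpow_ne_zero _ ha) hg, fun P hP => ?_⟩
      rw [P.ord_mul (zpow_ne_zero _ ha) hg, P.ord_zpow, haP P hP, ← hgP P hP, Finsupp.add_apply,
        Finsupp.single_apply]
      by_cases h : P = P₀
      · rw [if_pos h, if_pos h.symm, mul_one]
      · rw [if_neg h, if_neg (Ne.symm h), mul_zero]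
    · refine ⟨g, hg, fun P hP => ?_⟩
      rw [Finsupp.add_apply, Finsupp.single_apply, if_neg, zero_add, hgP P hP]
      rintro rfl
      exact hP₀ hP

end Fermat.Agent.H28
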