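import Mathlib
import Fermat.Agent.H28.Const
import Fermat.Agent.H28.Moving

set_option autoImplicit false
set_option linter.style.haveILetI false
set_option linter.unusedSectionVars false

/-! The kernel of the reduction map on divisor classes. -/

namespace Fermat.Agent.H28

open Module IsLocalRing IsDedekindDomain Polynomial AlgebraicCurve

section Ordv

variable {O : Type*} [CommRing O] [IsDedekindDomain O] {F : Type*} [Field F] [Algebra O F]
  [IsFractionRing O F]

/-- additive valuation attached to a prime -/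
noncomputable def ordv (F : Type*) [Field F] [Algebra O F] [IsFractionRing O F]
    (v : HeightOneSpectrum O) (y : F) : ℤ := -(WithZero.log (v.valuation F y))

theorem ordv_mul (v : HeightOneSpectrum O) {x y : F} (hx : x ≠ 0) (hy : y ≠ 0) :
    ordv F v (x * y) = ordv F v x + ordv F v y := by
  rw [ordv, ordv, ordv, map_mul, WithZero.log_mul ((Valuation.ne_zero_iff _).mpr hx)
    ((Valuation.ne_zero_iff _).mpr hy)]
  ring

theorem ordv_one (v : HeightOneSpectrum O) : ordv F v 1 = 0 := by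
  rw [ordv, map_one, WithZero.log_one, neg_zero]

theorem ordv_inv (v : HeightOneSpectrum O) (x : F) : ordv F v x⁻¹ = -ordv F v x := by
  rw [ordv, ordv, map_inv₀, WithZero.log_inv]

theorem ordv_pow (v : HeightOneSpectrum O) {x : F} (hx : x ≠ 0) (n : ℕ) :
    ordv F v (x ^ n) = n * ordv F v x := by
  induction n with
  | zero => rw [pow_zero, ordv_one]; simp
  | succ n ih => rw [pow_succ, ordv_mul v (pow_ne_zero n hx) hx, ih]; push_cast; ring

theorem ordv_algebraMap (v : HeightOneSpectrum O) {a : O} (ha : a ≠ 0) :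
    ordv F v (algebraMap O F a) = mlt v (Ideal.span {a}) := by
  rw [ordv, log_valuation F v ha, neg_neg]

theorem ordv_nonneg_of_mem (v : HeightOneSpectrum O) {a : O} (ha : a ≠ 0) :
    0 ≤ ordv F v (algebraMap O F a) := by
  rw [ordv_algebraMap v ha]
  exact Int.natCast_nonneg _

theorem valuation_le_one_iff_ordv (v : HeightOneSpectrum O) {x : F} (hx : x ≠ 0) :
    v.valuation F x ≤ 1 ↔ 0 ≤ ordv F v x := by
  have hne := (Valuation.ne_zero_iff (v.valuation F)).mpr hx
  rw [← WithZero.log_le_log hne one_ne_zero, WithZero.log_one, ordv]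
  omega

theorem ordv_const {K : Type*} [Field K] [Algebra K O] [Algebra K F] [IsScalarTower K O F]
    (v : HeightOneSpectrum O) {c : K} (hc : c ≠ 0) : ordv F v (algebraMap K F c) = 0 := by
  have h1 : (algebraMap K O c) ≠ 0 := by
    intro h0
    have : algebraMap K F c = 0 := by rw [IsScalarTower.algebraMap_apply K O F, h0, map_zero]
    exact hc ((map_eq_zero _).mp this)
  have h2 : (algebraMap K O c⁻¹) ≠ 0 := by
    intro h0
    have : algebraMap K F c⁻¹ = 0 := by rw [IsScalarTower.algebraMap_apply K O F, h0, map_zero]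
    exact (inv_ne_zero hc) ((map_eq_zero _).mp this)
  have h3 := ordv_nonneg_of_mem (F := F) v h1
  have h4 := ordv_nonneg_of_mem (F := F) v h2
  rw [← IsScalarTower.algebraMap_apply K O F] at h3 h4
  rw [map_inv₀, ordv_inv] at h4
  omega

end Ordv

section Frac

variable {L : Type*} [Field L] {A : ValuationSubring L} {F Fb : Type*} [Field F] [Field Fb]
  [Algebra L F] [Algebra (ResidueField A) Fb] {D : RedData A F Fb}

theorem RedData.smul_mem_ρ {c : L} (hc : c ∈ A) {z : D.Z} (h : algebraMap L F c * z ∈ D.Z) :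
    D.ρ ⟨algebraMap L F c * z, h⟩ = algebraMap (ResidueField A) Fb (residue A ⟨c, hc⟩) * D.ρ z := by
  rw [← D.ρ_alg, ← map_mul]
  rfl

/-- Gauss: two primitive elements differing by a constant -/
theorem RedData.const_unit {z z' : D.Z} (hz : D.ρ z ≠ 0) (hz' : D.ρ z' ≠ 0) {c : L}
    (h : algebraMap L F c * (z : F) = z') : ∃ hc : c ∈ A,
      D.ρ z' = algebraMap (ResidueField A) Fb (residue A ⟨c, hc⟩) * D.ρ z ∧
      residue A ⟨c, hc⟩ ≠ 0 := by
  have hc0 : c ≠ 0 := by
    rintro rfl
    rw [map_zero, zero_mul] at h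
    apply hz'
    have : z' = 0 := Subtype.ext h.symm
    rw [this, map_zero]
  have hcA : c ∈ A := by
    by_contra hc
    obtain ⟨h1, h2⟩ := RedSys.inv_mem_maximalIdeal hc
    have h3 : (z : F) = algebraMap L F c⁻¹ * z' := by
      rw [← h, ← mul_assoc, ← map_mul, inv_mul_cancel₀ hc0, map_one, one_mul]
    have h4 : algebraMap L F c⁻¹ * (z' : F) ∈ D.Z := by rw [← h3]; exact z.2
    have h5 : z = ⟨algebraMap L F c⁻¹ * z', h4⟩ := Subtype.ext h3
    apply hz
    rw [h5, D.smul_mem_ρ h1, (residue_eq_zero_iff _).mpr h2, map_zero, zero_mul]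
  have h6 : z' = ⟨algebraMap L F c * z, by rw [h]; exact z'.2⟩ := Subtype.ext h.symm
  have h7 : D.ρ z' = algebraMap (ResidueField A) Fb (residue A ⟨c, hcA⟩) * D.ρ z := by
    conv_lhs => rw [h6]
    exact D.smul_mem_ρ hcA _
  refine ⟨hcA, h7, fun h0 => hz' ?_⟩
  rw [h7, h0, map_zero, zero_mul]

/-- every function is a constant times a quotient of primitive elements of `R` -/
theorem RedData.IsChart.exists_frac {t : D.Z} (h : D.IsChart t)
    [IsFractionRing (CR L (t : F)) F] {f : F} (hf : f ≠ 0) :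
    ∃ (c : L) (a b : h.sys.R), c ≠ 0 ∧ h.sys.ρ a ≠ 0 ∧ h.sys.ρ b ≠ 0 ∧
      f * ((b : CR L (t : F)) : F) = algebraMap L F c * ((a : CR L (t : F)) : F) := by
  obtain ⟨x, y, hy, hxy⟩ := IsFractionRing.div_surjective (A := CR L (t : F)) f
  have hy0 : y ≠ 0 := nonZeroDivisors.ne_zero hy
  have hyF : algebraMap (CR L (t : F)) F y ≠ 0 := by simpa using hy0
  have hx0 : x ≠ 0 := by
    rintro rfl
    rw [map_zero, zero_div] at hxy
    exact hf hxy.symm
  obtain ⟨c₁, hc₁, hne₁⟩ := h.sys.prim x hx0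
  obtain ⟨c₂, hc₂, hne₂⟩ := h.sys.prim y hy0
  have ne0 : ∀ (c : L) (z : CR L (t : F)) (hc : c • z ∈ h.sys.R), h.sys.ρ ⟨c • z, hc⟩ ≠ 0 →
      c ≠ 0 := by
    rintro c z hc hne rfl
    apply hne
    have : (⟨(0 : L) • z, hc⟩ : h.sys.R) = 0 := Subtype.ext (zero_smul L z)
    rw [this, map_zero]
  have h1 := ne0 _ _ _ hne₁
  have h2 := ne0 _ _ _ hne₂
  refine ⟨c₂ * c₁⁻¹, ⟨c₁ • x, hc₁⟩, ⟨c₂ • y, hc₂⟩, mul_ne_zero h2 (inv_ne_zero h1), hne₁, hne₂, ?_⟩
  change f * (c₂ • (y : F)) = algebraMap L F (c₂ * c₁⁻¹) * (c₁ • (x : F))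
  have h3 : f * (y : F) = x := by
    have h4 : (algebraMap (CR L (t : F)) F x) / (algebraMap (CR L (t : F)) F y) = f := hxy
    rw [div_eq_iff hyF] at h4
    exact h4.symm
  have h5 : algebraMap L F c₁ ≠ 0 := by simpa using h1
  rw [Algebra.smul_def, Algebra.smul_def, map_mul, map_inv₀, mul_left_comm, h3]
  field_simp

end Frac

end Fermat.Agent.H28
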