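import Mathlib
import Fermat.Agent.H28.KDiv

set_option autoImplicit false
set_option linter.style.haveILetI false
set_option linter.unusedSectionVars false

/-! Two charts covering the curve: the kernel of reduction. -/

noncomputable section

namespace Fermat.Agent.H28

open Module IsLocalRing IsDedekindDomain Polynomial AlgebraicCurve

variable {L : Type*} [Field L] [IsAlgClosed L] {A : ValuationSubring L} {F Fb : Type*}
  [Field F] [Field Fb] [Algebra L F] [Algebra (ResidueField A) Fb]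

/-- an element of the ring `R` of a chart as an integral function -/
def RedData.IsChart.toZ {D : RedData A F Fb} {t : D.Z} (h : D.IsChart t) (a : h.sys.R) : D.Z :=
  ⟨((a : CR L (t : F)) : F), h.mem _ a.2⟩

theorem RedData.IsChart.coe_toZ {D : RedData A F Fb} {t : D.Z} (h : D.IsChart t)
    (a : h.sys.R) : ((h.toZ a : D.Z) : F) = ((a : CR L (t : F)) : F) := rfl

theorem RedData.IsChart.coe_sys_ρ {D : RedData A F Fb} {t : D.Z} (h : D.IsChart t)
    (a : h.sys.R) : ((h.sys.ρ a : CR (ResidueField A) (D.ρ t)) : Fb) = D.ρ (h.toZ a) := rfl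

theorem RedData.IsChart.ρ_toZ_ne {D : RedData A F Fb} {t : D.Z} (h : D.IsChart t)
    {a : h.sys.R} (ha : h.sys.ρ a ≠ 0) : D.ρ (h.toZ a) ≠ 0 :=
  fun h0 => ha (Subtype.ext h0)

/-- two complementary charts with good reduction -/
structure TwoCharts (D : RedData A F Fb) where
  t₁ : D.Z
  t₂ : D.Z
  mul_eq : (t₁ : F) * (t₂ : F) = 1
  h₁ : D.IsChart t₁
  h₂ : D.IsChart t₂
  a₁ : Algebra.IsAlgebraic (Algebra.adjoin L {(t₁ : F)}) F
  a₂ : Algebra.IsAlgebraic (Algebra.adjoin L {(t₂ : F)}) F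
  b₁ : Algebra.IsAlgebraic (Algebra.adjoin (ResidueField A) {D.ρ t₁}) Fb
  b₂ : Algebra.IsAlgebraic (Algebra.adjoin (ResidueField A) {D.ρ t₂}) Fb

namespace TwoCharts

variable {D : RedData A F Fb} (C : TwoCharts D)

instance dedO₁ : IsDedekindDomain (CR L (C.t₁ : F)) := by
  haveI := C.a₁
  haveI := C.h₁.finite_CR
  exact isDedekind_CR

instance dedO₂ : IsDedekindDomain (CR L (C.t₂ : F)) := by
  haveI := C.a₂
  haveI := C.h₂.finite_CR
  exact isDedekind_CR

instance fracO₁ : IsFractionRing (CR L (C.t₁ : F)) F := by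
  haveI := C.a₁
  exact isFractionRing_CR

instance fracO₂ : IsFractionRing (CR L (C.t₂ : F)) F := by
  haveI := C.a₂
  exact isFractionRing_CR

instance dedB₁ : IsDedekindDomain (CR (ResidueField A) (D.ρ C.t₁)) := by
  haveI := C.b₁
  haveI := C.h₁.finite_CRb
  exact isDedekind_CR

instance dedB₂ : IsDedekindDomain (CR (ResidueField A) (D.ρ C.t₂)) := by
  haveI := C.b₂
  haveI := C.h₂.finite_CRb
  exact isDedekind_CR

instance fracB₁ : IsFractionRing (CR (ResidueField A) (D.ρ C.t₁)) Fb := by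
  haveI := C.b₁
  exact isFractionRing_CR

instance fracB₂ : IsFractionRing (CR (ResidueField A) (D.ρ C.t₂)) Fb := by
  haveI := C.b₂
  exact isFractionRing_CR

theorem rat₁ : AllRat L (CR L (C.t₁ : F)) := by
  haveI := C.h₁.finite_CR
  exact allRat_CR

theorem rat₂ : AllRat L (CR L (C.t₂ : F)) := by
  haveI := C.h₂.finite_CR
  exact allRat_CR

theorem ρ_mul_eq : D.ρ C.t₁ * D.ρ C.t₂ = 1 := by
  rw [← map_mul]
  have : C.t₁ * C.t₂ = 1 := Subtype.ext C.mul_eq
  rw [this, map_one]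

/-- primes of the first special chart -/
abbrev V₁ : Type _ := HeightOneSpectrum (CR (ResidueField A) (D.ρ C.t₁))

/-- primes of the second special chart -/
abbrev V₂ : Type _ := HeightOneSpectrum (CR (ResidueField A) (D.ρ C.t₂))

/-- the element `t₂` of the special chart -/
abbrev tb₂ : CR (ResidueField A) (D.ρ C.t₂) := tO (ResidueField A) (D.ρ C.t₂)

/-- the element `t₂` of `R` -/
def tR₂ : C.h₂.sys.R := ⟨tO L (C.t₂ : F), intOver_self _⟩

theorem sys_ρ_tR₂ : C.h₂.sys.ρ C.tR₂ = C.tb₂ := Subtype.ext rfl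

theorem tb₂_ne_zero : C.tb₂ ≠ 0 := by
  intro h
  have : D.ρ C.t₂ = 0 := congrArg Subtype.val h
  have h2 := C.ρ_mul_eq
  rw [this, mul_zero] at h2
  exact zero_ne_one h2

/-- `D` reduces to the divisor of `g` -/
def RedTo (E : Divisor L F) (g : Fb) : Prop :=
  (∀ v : C.V₁, C.h₁.sys.theta L F v E = ordv Fb v g) ∧
    ∀ v : C.V₂, C.tb₂ ∈ v.asIdeal → C.h₂.sys.theta L F v E = ordv Fb v g

theorem RedTo.add {E E' : Divisor L F} {g g' : Fb} (hg : g ≠ 0) (hg' : g' ≠ 0)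
    (h : C.RedTo E g) (h' : C.RedTo E' g') : C.RedTo (E + E') (g * g') := by
  refine ⟨fun v => ?_, fun v hv => ?_⟩
  · rw [map_add, h.1 v, h'.1 v, ordv_mul v hg hg']
  · rw [map_add, h.2 v hv, h'.2 v hv, ordv_mul v hg hg']

theorem RedTo.neg {E : Divisor L F} {g : Fb} (h : C.RedTo E g) : C.RedTo (-E) g⁻¹ := by
  refine ⟨fun v => ?_, fun v hv => ?_⟩
  · rw [map_neg, h.1 v, ordv_inv v]
  · rw [map_neg, h.2 v hv, ordv_inv v]

theorem redTo_zero : C.RedTo 0 1 :=
  ⟨fun v => by rw [map_zero, ordv_one], fun v _ => by rw [map_zero, ordv_one]⟩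

/-- divisors reducing to principal divisors -/
def KDiv : AddSubgroup (Divisor L F) where
  carrier := {E | ∃ g : Fb, g ≠ 0 ∧ C.RedTo E g}
  add_mem' := by
    rintro E E' ⟨g, hg, h⟩ ⟨g', hg', h'⟩
    exact ⟨g * g', mul_ne_zero hg hg', RedTo.add C hg hg' h h'⟩
  zero_mem' := ⟨1, one_ne_zero, C.redTo_zero⟩
  neg_mem' := by
    rintro E ⟨g, hg, h⟩
    exact ⟨g⁻¹, inv_ne_zero hg, RedTo.neg C h⟩

theorem mem_KDiv {E : Divisor L F} : E ∈ C.KDiv ↔ ∃ g : Fb, g ≠ 0 ∧ C.RedTo E g := Iff.rfl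

theorem ordv_sys₁ (v : C.V₁) {a : C.h₁.sys.R} (ha : C.h₁.sys.ρ a ≠ 0) :
    (mlt v (Ideal.span {C.h₁.sys.ρ a}) : ℤ) =
      ordv Fb v (D.ρ (C.h₁.toZ a)) :=
  (ordv_algebraMap (F := Fb) v ha).symm

theorem ordv_sys₂ (v : C.V₂) {a : C.h₂.sys.R} (ha : C.h₂.sys.ρ a ≠ 0) :
    (mlt v (Ideal.span {C.h₂.sys.ρ a}) : ℤ) =
      ordv Fb v (D.ρ (C.h₂.toZ a)) :=
  (ordv_algebraMap (F := Fb) v ha).symm

/-- divisors of functions reduce to the divisors of their reductions -/
theorem redTo_div {f : F} {E : Divisor L F} (hE : ∀ P, E P = P.ord f) {c : L} (hc : c ≠ 0)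
    {a b : D.Z} (ha : D.ρ a ≠ 0) (hb : D.ρ b ≠ 0)
    (h : f * (b : F) = algebraMap L F c * (a : F)) : C.RedTo E (D.ρ a * (D.ρ b)⁻¹) := by
  have ne_of : ∀ x : D.Z, D.ρ x ≠ 0 → (x : F) ≠ 0 := by
    intro x hx h0
    apply hx
    have : x = 0 := Subtype.ext h0
    rw [this, map_zero]
  have haF := ne_of a ha
  have hbF := ne_of b hb
  have hcF : algebraMap L F c ≠ 0 := by simpa using hc
  have hf : f ≠ 0 := by
    rintro rfl
    rw [zero_mul] at h
    exact mul_ne_zero hcF haF h.symm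
  -- comparison of the two representations
  have key : ∀ (c' : L) (a' b' : D.Z), c' ≠ 0 → D.ρ a' ≠ 0 → D.ρ b' ≠ 0 →
      f * (b' : F) = algebraMap L F c' * (a' : F) →
      ∃ ε : ResidueField A, ε ≠ 0 ∧
        D.ρ a * D.ρ b' = algebraMap _ Fb ε * (D.ρ a' * D.ρ b) := by
    intro c' a' b' hc' ha' hb' h'
    have h1 : algebraMap L F (c' * c⁻¹) * ((a' * b : D.Z) : F) = ((a * b' : D.Z) : F) := by
      change algebraMap L F (c' * c⁻¹) * ((a' : F) * (b : F)) = (a : F) * (b' : F)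
      apply mul_left_cancel₀ (mul_ne_zero hf hcF)
      have e1 : f * (algebraMap L F c) * (algebraMap L F (c' * c⁻¹) * ((a' : F) * (b : F))) =
          (f * (b : F)) * (algebraMap L F c' * (a' : F)) *
            (algebraMap L F c * algebraMap L F c⁻¹) := by
        rw [map_mul]; ring
      rw [e1, h, ← h', ← map_mul, mul_inv_cancel₀ hc, map_one]
      ring
    obtain ⟨hm, h2, h3⟩ := RedData.const_unit (D := D)
      (by rw [map_mul]; exact mul_ne_zero ha' hb) (by rw [map_mul]; exact mul_ne_zero ha hb') h1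
    exact ⟨_, h3, by rw [← map_mul, h2, map_mul]⟩
  constructor
  · intro v
    obtain ⟨c', a', b', hc', ha', hb', h'⟩ := C.h₁.exists_frac hf
    rw [C.h₁.sys.theta_div C.rat₁ v hE hc' ha' hb' h', C.ordv_sys₁ v ha', C.ordv_sys₁ v hb']
    have ha'' := C.h₁.ρ_toZ_ne ha'
    have hb'' := C.h₁.ρ_toZ_ne hb'
    obtain ⟨ε, hε, he⟩ := key c' (C.h₁.toZ a') (C.h₁.toZ b') hc' ha'' hb'' h'
    have h1 := congrArg (ordv Fb v) he
    have hεF : algebraMap (ResidueField A) Fb ε ≠ 0 := by simpa using hε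
    rw [ordv_mul v ha hb'', ordv_mul v hεF (mul_ne_zero ha'' hb), ordv_mul v ha'' hb,
      ordv_const v hε] at h1
    rw [ordv_mul v ha (inv_ne_zero hb), ordv_inv]
    omega
  · intro v _
    obtain ⟨c', a', b', hc', ha', hb', h'⟩ := C.h₂.exists_frac hf
    rw [C.h₂.sys.theta_div C.rat₂ v hE hc' ha' hb' h', C.ordv_sys₂ v ha', C.ordv_sys₂ v hb']
    have ha'' := C.h₂.ρ_toZ_ne ha'
    have hb'' := C.h₂.ρ_toZ_ne hb'
    obtain ⟨ε, hε, he⟩ := key c' (C.h₂.toZ a') (C.h₂.toZ b') hc' ha'' hb'' h'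
    have h1 := congrArg (ordv Fb v) he
    have hεF : algebraMap (ResidueField A) Fb ε ≠ 0 := by simpa using hε
    rw [ordv_mul v ha hb'', ordv_mul v hεF (mul_ne_zero ha'' hb), ordv_mul v ha'' hb,
      ordv_const v hε] at h1
    rw [ordv_mul v ha (inv_ne_zero hb), ordv_inv]
    omega

theorem principal_le_KDiv : Divisor.principal (K := L) (F := F) ≤ C.KDiv := by
  rintro E ⟨f, hf, hE⟩
  obtain ⟨c, a, b, hc, ha, hb, h⟩ := C.h₁.exists_frac hf
  have ha'' := C.h₁.ρ_toZ_ne ha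
  have hb'' := C.h₁.ρ_toZ_ne hb
  exact ⟨_, mul_ne_zero ha'' (inv_ne_zero hb''), C.redTo_div hE hc ha'' hb'' h⟩

end TwoCharts

end Fermat.Agent.H28
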