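import Mathlib
import Fermat.Agent.H28.TwoCharts

set_option autoImplicit false
set_option linter.style.haveILetI false
set_option linter.unusedSectionVars false

/-! Galois equivariance of reduction for two charts. -/

noncomputable section

namespace Fermat.Agent.H28

open Module IsLocalRing IsDedekindDomain Polynomial AlgebraicCurve

section CRequiv

variable {K F : Type*} [Field K] [Field F] [Algebra K F] {t : F}

theorem map_mem_adjoin (G : F →+* F) (σ : K →+* K)
    (hG : ∀ c, G (algebraMap K F c) = algebraMap K F (σ c)) (ht : G t = t) {y : F}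
    (hy : y ∈ Algebra.adjoin K {t}) : G y ∈ Algebra.adjoin K {t} := by
  obtain ⟨q, rfl⟩ := mem_adjoin_iff.mp hy
  rw [Polynomial.aeval_def, Polynomial.hom_eval₂, ht]
  have h1 : G.comp (algebraMap K F) = (algebraMap K F).comp σ := RingHom.ext hG
  rw [h1, ← Polynomial.eval₂_map, ← Polynomial.aeval_def]
  exact Polynomial.aeval_mem_adjoin_singleton K t

theorem isIntegral_map_of_semilinear (G : F →+* F) (σ : K →+* K)
    (hG : ∀ c, G (algebraMap K F c) = algebraMap K F (σ c)) (ht : G t = t) {x : F}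
    (hx : IsIntegral (Algebra.adjoin K {t}) x) : IsIntegral (Algebra.adjoin K {t}) (G x) := by
  obtain ⟨p, hp, hpx⟩ := hx
  let G' : Algebra.adjoin K {t} →+* Algebra.adjoin K {t} :=
    { toFun := fun y => ⟨G y, map_mem_adjoin G σ hG ht y.2⟩
      map_one' := Subtype.ext (map_one G)
      map_mul' := fun a b => Subtype.ext (map_mul G (a : F) b)
      map_zero' := Subtype.ext (map_zero G)
      map_add' := fun a b => Subtype.ext (map_add G (a : F) b) }
  refine ⟨p.map G', hp.map G', ?_⟩
  rw [Polynomial.eval₂_map]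
  have h1 := congrArg G hpx
  rw [Polynomial.hom_eval₂, map_zero] at h1
  exact h1

/-- a semilinear automorphism of `F` fixing `t` induces an automorphism of the chart ring -/
def crEquiv (t : F) (G : F ≃+* F) (σ : K ≃+* K)
    (hG : ∀ c, G (algebraMap K F c) = algebraMap K F (σ c)) (ht : G t = t) :
    CR K t ≃+* CR K t where
  toFun x := ⟨G x, isIntegral_map_of_semilinear (G : F →+* F) (σ : K →+* K) hG ht x.2⟩
  invFun x := ⟨G.symm x, isIntegral_map_of_semilinear (G.symm : F →+* F) (σ.symm : K →+* K)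
    (fun c => by
      change G.symm (algebraMap K F c) = algebraMap K F (σ.symm c)
      rw [RingEquiv.symm_apply_eq, hG, RingEquiv.apply_symm_apply])
    (by
      change G.symm t = t
      rw [RingEquiv.symm_apply_eq, ht]) x.2⟩
  left_inv x := Subtype.ext (G.symm_apply_apply (x : F))
  right_inv x := Subtype.ext (G.apply_symm_apply (x : F))
  map_mul' x y := Subtype.ext (map_mul G (x : F) (y : F))
  map_add' x y := Subtype.ext (map_add G (x : F) (y : F))

theorem coe_crEquiv (G : F ≃+* F) (σ : K ≃+* K)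
    (hG : ∀ c, G (algebraMap K F c) = algebraMap K F (σ c)) (ht : G t = t) (x : CR K t) :
    ((crEquiv t G σ hG ht x : CR K t) : F) = G x := rfl

theorem coe_crEquiv_symm (G : F ≃+* F) (σ : K ≃+* K)
    (hG : ∀ c, G (algebraMap K F c) = algebraMap K F (σ c)) (ht : G t = t) (x : CR K t) :
    (((crEquiv t G σ hG ht).symm x : CR K t) : F) = G.symm x := rfl

theorem crEquiv_tO (G : F ≃+* F) (σ : K ≃+* K)
    (hG : ∀ c, G (algebraMap K F c) = algebraMap K F (σ c)) (ht : G t = t) :
    crEquiv t G σ hG ht (tO K t) = tO K t := Subtype.ext ht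

theorem crEquiv_algebraMap (G : F ≃+* F) (σ : K ≃+* K)
    (hG : ∀ c, G (algebraMap K F c) = algebraMap K F (σ c)) (ht : G t = t) (c : K) :
    crEquiv t G σ hG ht (algebraMap K (CR K t) c) = algebraMap K (CR K t) (σ c) :=
  Subtype.ext (hG c)

theorem ordv_mapPrime [IsDedekindDomain (CR K t)] [IsFractionRing (CR K t) F]
    (G : F ≃+* F) (σ : K ≃+* K)
    (hG : ∀ c, G (algebraMap K F c) = algebraMap K F (σ c)) (ht : G t = t)
    (v : HeightOneSpectrum (CR K t)) {y : F} (hy : y ≠ 0) :
    ordv F (mapPrime (crEquiv t G σ hG ht).symm v) y = ordv F v (G y) := by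
  have key : ∀ z : CR K t, z ≠ 0 →
      ordv F (mapPrime (crEquiv t G σ hG ht).symm v) (algebraMap (CR K t) F z) =
        ordv F v (G (algebraMap (CR K t) F z)) := by
    intro z hz
    have h1 : G (algebraMap (CR K t) F z) = algebraMap (CR K t) F (crEquiv t G σ hG ht z) := rfl
    have h2 : crEquiv t G σ hG ht z ≠ 0 := by simpa using hz
    rw [h1, ordv_algebraMap _ hz, ordv_algebraMap _ h2, ← mlt_map_symm _ _ (span_ne_bot hz),
      Ideal.map_span, Set.image_singleton]
    rfl
  obtain ⟨a, b, hb, hab⟩ := IsFractionRing.div_surjective (A := CR K t) y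
  have hb0 : b ≠ 0 := nonZeroDivisors.ne_zero hb
  have ha0 : a ≠ 0 := by
    rintro rfl
    rw [map_zero, zero_div] at hab
    exact hy hab.symm
  have haF : algebraMap (CR K t) F a ≠ 0 := by simpa using ha0
  have hbF : algebraMap (CR K t) F b ≠ 0 := by simpa using hb0
  rw [← hab, div_eq_mul_inv, ordv_mul _ haF (inv_ne_zero hbF), ordv_inv, key a ha0, key b hb0,
    map_mul, map_inv₀, ordv_mul _ (by simpa using ha0) (by simpa using hb0), ordv_inv]

end CRequiv

section

variable {L : Type*} [Field L] [IsAlgClosed L] {A : ValuationSubring L} {F Fb : Type*}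
  [Field F] [Field Fb] [Algebra L F] [Algebra (ResidueField A) Fb]

theorem IntOver.smul {t x : F} (g : SemilinearAut L F)
    (hA : ∀ c ∈ A, SemilinearAut.baseAut g c ∈ A) (ht : g • t = t) (hx : IntOver A t x) :
    IntOver A t (g • x) := by
  obtain ⟨p, hp, hpx⟩ := hx
  let σA : A →+* A :=
    { toFun := fun c => ⟨SemilinearAut.baseAut g c, hA c c.2⟩
      map_one' := Subtype.ext (map_one _)
      map_mul' := fun a b => Subtype.ext (map_mul _ _ _)
      map_zero' := Subtype.ext (map_zero _)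
      map_add' := fun a b => Subtype.ext (map_add _ _ _) }
  refine ⟨p.map (Polynomial.mapRingHom σA), hp.map _, ?_⟩
  rw [Polynomial.eval₂_map]
  let G : F →+* F := (SemilinearAut.toRingAut g : F →+* F)
  have h1 := congrArg G hpx
  rw [Polynomial.hom_eval₂, map_zero] at h1
  have h2 : G.comp (evA A t) = (evA A t).comp (Polynomial.mapRingHom σA) := by
    apply Polynomial.ringHom_ext
    · intro a
      rw [RingHom.comp_apply, RingHom.comp_apply, evA_C, Polynomial.coe_mapRingHom,
        Polynomial.map_C, evA_C]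
      exact SemilinearAut.commutes g a
    · rw [RingHom.comp_apply, RingHom.comp_apply, evA_X, Polynomial.coe_mapRingHom,
        Polynomial.map_X, evA_X]
      exact ht
  rw [h2] at h1
  exact h1

variable {D : RedData A F Fb} (C : TwoCharts D)

/-- a semilinear automorphism compatible with reduction -/
structure TwoCharts.RedAut (g : SemilinearAut L F) (gb : Fb ≃+* Fb)
    (σb : ResidueField A ≃+* ResidueField A) : Prop where
  memA : ∀ c ∈ A, SemilinearAut.baseAut g c ∈ A
  memA' : ∀ c ∈ A, SemilinearAut.baseAut g⁻¹ c ∈ A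
  memZ : ∀ x ∈ D.Z, g • x ∈ D.Z
  fix₁ : g • (C.t₁ : F) = C.t₁
  fix₂ : g • (C.t₂ : F) = C.t₂
  red : ∀ x (hx : x ∈ D.Z), D.ρ ⟨g • x, memZ x hx⟩ = gb (D.ρ ⟨x, hx⟩)
  alg : ∀ c, gb (algebraMap _ Fb c) = algebraMap _ Fb (σb c)

namespace TwoCharts.RedAut

variable {C} {g : SemilinearAut L F} {gb : Fb ≃+* Fb} {σb : ResidueField A ≃+* ResidueField A}

theorem fixb₁ (h : C.RedAut g gb σb) : gb (D.ρ C.t₁) = D.ρ C.t₁ := by
  have h1 := h.red _ C.t₁.2
  rw [← h1]
  congr 1
  exact Subtype.ext h.fix₁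

theorem fixb₂ (h : C.RedAut g gb σb) : gb (D.ρ C.t₂) = D.ρ C.t₂ := by
  have h1 := h.red _ C.t₂.2
  rw [← h1]
  congr 1
  exact Subtype.ext h.fix₂

theorem inv_fix {t : F} (ht : g • t = t) : g⁻¹ • t = t := by
  rw [inv_smul_eq_iff, ht]

/-- automorphism of the first chart -/
def e₁ (h : C.RedAut g gb σb) : CR L (C.t₁ : F) ≃+* CR L (C.t₁ : F) :=
  crEquiv _ (SemilinearAut.toRingAut g) (SemilinearAut.baseAut g) (SemilinearAut.commutes g) h.fix₁

/-- automorphism of the second chart -/
def e₂ (h : C.RedAut g gb σb) : CR L (C.t₂ : F) ≃+* CR L (C.t₂ : F) :=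
  crEquiv _ (SemilinearAut.toRingAut g) (SemilinearAut.baseAut g) (SemilinearAut.commutes g) h.fix₂

/-- automorphism of the first special chart -/
def eb₁ (h : C.RedAut g gb σb) :
    CR (ResidueField A) (D.ρ C.t₁) ≃+* CR (ResidueField A) (D.ρ C.t₁) :=
  crEquiv _ gb σb h.alg h.fixb₁

/-- automorphism of the second special chart -/
def eb₂ (h : C.RedAut g gb σb) :
    CR (ResidueField A) (D.ρ C.t₂) ≃+* CR (ResidueField A) (D.ρ C.t₂) :=
  crEquiv _ gb σb h.alg h.fixb₂

theorem equi₁ (h : C.RedAut g gb σb) : C.h₁.sys.Equi g h.e₁ h.eb₁ where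
  map_e _ := rfl
  mem _ hx := IntOver.smul g h.memA h.fix₁ hx
  mem_symm _ hx := IntOver.smul g⁻¹ h.memA' (inv_fix h.fix₁) hx
  red x hx := Subtype.ext (h.red (x : F) (C.h₁.mem _ hx))

theorem equi₂ (h : C.RedAut g gb σb) : C.h₂.sys.Equi g h.e₂ h.eb₂ where
  map_e _ := rfl
  mem _ hx := IntOver.smul g h.memA h.fix₂ hx
  mem_symm _ hx := IntOver.smul g⁻¹ h.memA' (inv_fix h.fix₂) hx
  red x hx := Subtype.ext (h.red (x : F) (C.h₂.mem _ hx))

theorem redTo (h : C.RedAut g gb σb) {E : Divisor L F} {y : Fb} (hy : y ≠ 0)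
    (hE : C.RedTo E y) : C.RedTo (g • E) (gb y) := by
  refine ⟨fun v => ?_, fun v hv => ?_⟩
  · rw [h.equi₁.theta_smul v E, hE.1]
    exact ordv_mapPrime gb σb h.alg h.fixb₁ v hy
  · rw [h.equi₂.theta_smul v E, hE.2]
    · exact ordv_mapPrime gb σb h.alg h.fixb₂ v hy
    · change h.eb₂.symm.symm C.tb₂ ∈ v.asIdeal
      have h1 : h.eb₂.symm.symm C.tb₂ = C.tb₂ := crEquiv_tO gb σb h.alg h.fixb₂
      rw [h1]
      exact hv

theorem smul_mem_KDiv (h : C.RedAut g gb σb) {E : Divisor L F} (hE : E ∈ C.KDiv) :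
    g • E ∈ C.KDiv := by
  obtain ⟨y, hy, hE⟩ := hE
  exact ⟨gb y, by simpa using hy, h.redTo hy hE⟩

/-- if `g` acts trivially on the special fibre then `g E - E` lies in the kernel -/
theorem smul_sub_mem_KDiv (h : C.RedAut g gb σb) (htriv : ∀ y, gb y = y) (E : Divisor L F) :
    g • E - E ∈ C.KDiv := by
  refine ⟨1, one_ne_zero, fun v => ?_, fun v _ => ?_⟩
  · rw [map_sub, h.equi₁.theta_smul v E, ordv_one, sub_eq_zero]
    congr 1
    congr 1
    apply HeightOneSpectrum.ext
    ext x
    change h.eb₁.symm.symm x ∈ v.asIdeal ↔ x ∈ v.asIdeal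
    have h1 : h.eb₁.symm.symm x = x := Subtype.ext (htriv _)
    rw [h1]
  · rw [map_sub, h.equi₂.theta_smul v E, ordv_one, sub_eq_zero]
    congr 1
    congr 1
    apply HeightOneSpectrum.ext
    ext x
    change h.eb₂.symm.symm x ∈ v.asIdeal ↔ x ∈ v.asIdeal
    have h1 : h.eb₂.symm.symm x = x := Subtype.ext (htriv _)
    rw [h1]

end TwoCharts.RedAut

end

end Fermat.Agent.H28
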