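import Mathlib
import Fermat.Agent.H28.TwoCharts

set_option autoImplicit false
set_option linter.style.haveILetI false
set_option linter.unusedSectionVars false

/-! Injectivity of reduction on prime-to-`ℓ` torsion. -/

noncomputable section

namespace Fermat.Agent.H28

open Module IsLocalRing IsDedekindDomain Polynomial AlgebraicCurve

variable {L : Type*} [Field L] [IsAlgClosed L] {A : ValuationSubring L} {F Fb : Type*}
  [Field F] [Field Fb] [Algebra L F] [Algebra (ResidueField A) Fb]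

theorem intOver_pow {t x : F} (hx : IntOver A t x) (n : ℕ) : IntOver A t (x ^ n) := by
  induction n with
  | zero => rw [pow_zero]; exact (intSubring A t).one_mem
  | succ n ih => rw [pow_succ]; exact ih.mul hx

/-- The key lemma: functions reducing to `1` whose divisor is divisible by `m` are `m`-th powers
up to constants. -/
def KeyLemma (D : RedData A F Fb) (t : D.Z) (m : ℕ) : Prop :=
  ∀ a b : D.Z, IntOver A (t : F) (a : F) → IntOver A (t : F) (b : F) → D.ρ a = D.ρ b →
    D.ρ a ≠ 0 → (∀ P : Place L F, (m : ℤ) ∣ P.ord ((a : F) / (b : F))) →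
    ∃ (c : L) (w : F), (a : F) / (b : F) = algebraMap L F c * w ^ m

theorem TwoCharts.injective {D : RedData A F Fb} (C : TwoCharts D)
    [IsAlgClosed (ResidueField A)] {m : ℕ} (hm : m ≠ 0) (hKey : KeyLemma D C.t₁ m)
    {E : Divisor L F} (hE : E ∈ C.KDiv)
    (hmE : m • E ∈ Divisor.principal (K := L) (F := F)) :
    E ∈ Divisor.principal (K := L) (F := F) := by
  obtain ⟨f, hf, hfE⟩ := hmE
  obtain ⟨g, hg, hgE⟩ := hE
  obtain ⟨c, a, b, hc, ha, hb, h⟩ := C.h₁.exists_frac hf
  have ha' := C.h₁.ρ_toZ_ne ha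
  have hb' := C.h₁.ρ_toZ_ne hb
  set α := C.h₁.toZ a with hα
  set β := C.h₁.toZ b with hβ
  have hfab : f * (β : F) = algebraMap L F c * (α : F) := h
  have hαi : IntOver A (C.t₁ : F) (α : F) := a.2
  have hβi : IntOver A (C.t₁ : F) (β : F) := b.2
  have hred := C.redTo_div hfE hc ha' hb' hfab
  set u : Fb := D.ρ α * (D.ρ β)⁻¹ with hu
  have hu0 : u ≠ 0 := mul_ne_zero ha' (inv_ne_zero hb')
  -- the unit `u / g ^ m` is constant
  have hgm : g ^ m ≠ 0 := pow_ne_zero _ hg
  have hconst : ∃ ε : ResidueField A, algebraMap _ Fb ε = u * (g ^ m)⁻¹ := by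
    apply isConst_of_valuations (t₁ := D.ρ C.t₁) (t₂ := D.ρ C.t₂) C.ρ_mul_eq
    · intro v
      rw [valuation_le_one_iff_ordv v (mul_ne_zero hu0 (inv_ne_zero hgm)),
        ordv_mul v hu0 (inv_ne_zero hgm), ordv_inv, ordv_pow v hg, ← hgE.1 v, ← hred.1 v,
        map_nsmul, nsmul_eq_mul]
      omega
    · intro v hv
      rw [valuation_le_one_iff_ordv v (mul_ne_zero hu0 (inv_ne_zero hgm)),
        ordv_mul v hu0 (inv_ne_zero hgm), ordv_inv, ordv_pow v hg, ← hgE.2 v hv, ← hred.2 v hv,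
        map_nsmul, nsmul_eq_mul]
      omega
  obtain ⟨ε, hε⟩ := hconst
  have hε0 : ε ≠ 0 := by
    rintro rfl
    rw [map_zero] at hε
    exact mul_ne_zero hu0 (inv_ne_zero hgm) hε.symm
  obtain ⟨e, rfl⟩ := residue_surjective ε
  -- write `g` as a quotient
  obtain ⟨x', y', hy', hxy⟩ := IsFractionRing.div_surjective
    (A := CR (ResidueField A) (D.ρ C.t₁)) g
  have hy'0 : y' ≠ 0 := nonZeroDivisors.ne_zero hy'
  have hx'0 : x' ≠ 0 := by
    rintro rfl
    rw [map_zero, zero_div] at hxy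
    exact hg hxy.symm
  obtain ⟨x, rfl⟩ := C.h₁.sys.surj x'
  obtain ⟨y, rfl⟩ := C.h₁.sys.surj y'
  set X := C.h₁.toZ x with hX
  set Y := C.h₁.toZ y with hY
  have hXi : IntOver A (C.t₁ : F) (X : F) := x.2
  have hYi : IntOver A (C.t₁ : F) (Y : F) := y.2
  have hX0 : D.ρ X ≠ 0 := C.h₁.ρ_toZ_ne hx'0
  have hY0 : D.ρ Y ≠ 0 := C.h₁.ρ_toZ_ne hy'0
  have hgXY : g = D.ρ X / D.ρ Y := hxy.symm
  have ne_of : ∀ x : D.Z, D.ρ x ≠ 0 → (x : F) ≠ 0 := by
    intro x hx h0
    apply hx
    have : x = 0 := Subtype.ext h0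
    rw [this, map_zero]
  have hαF := ne_of α ha'
  have hβF := ne_of β hb'
  have hXF := ne_of X hX0
  have hYF := ne_of Y hY0
  have hcF : algebraMap L F c ≠ 0 := by simpa using hc
  have he0 : (e : L) ≠ 0 := by
    intro h0
    apply hε0
    have : e = 0 := Subtype.ext h0
    rw [this, map_zero]
  have heF : algebraMap L F (e : L) ≠ 0 := by simpa using he0
  -- apply the key lemma
  obtain ⟨c₀, w, hw⟩ := hKey (α * Y ^ m) (⟨algebraMap L F e, D.alg_mem e⟩ * (X ^ m * β))
    (by
      change IntOver A (C.t₁ : F) ((α : F) * (Y : F) ^ m)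
      exact hαi.mul (intOver_pow hYi m))
    (by
      change IntOver A (C.t₁ : F) (algebraMap L F (e : L) * ((X : F) ^ m * (β : F)))
      exact (intOver_alg _ e).mul ((intOver_pow hXi m).mul hβi))
    (by
      rw [map_mul, map_pow, map_mul, map_mul, map_pow, D.ρ_alg, hε, hu, hgXY, div_pow]
      field_simp)
    (by
      rw [map_mul, map_pow]
      exact mul_ne_zero ha' (pow_ne_zero _ hY0))
    (by
      intro P
      change (m : ℤ) ∣ P.ord (((α : F) * (Y : F) ^ m) /
        (algebraMap L F (e : L) * ((X : F) ^ m * (β : F))))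
      have hαf : (α : F) = f * (β : F) * (algebraMap L F c)⁻¹ := by
        rw [hfab]; field_simp
      have h1 : ((α : F) * (Y : F) ^ m) / (algebraMap L F (e : L) * ((X : F) ^ m * (β : F))) =
          f * ((Y : F) / X) ^ (m : ℤ) * (algebraMap L F (c * e))⁻¹ := by
        rw [hαf, map_mul, zpow_natCast, div_pow]
        field_simp
      have hYX : (Y : F) / X ≠ 0 := div_ne_zero hYF hXF
      have hce : algebraMap L F (c * e) ≠ 0 := by
        rw [map_mul]; exact mul_ne_zero hcF heF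
      rw [h1, P.ord_mul (mul_ne_zero hf (zpow_ne_zero _ hYX)) (inv_ne_zero hce),
        P.ord_mul hf (zpow_ne_zero _ hYX), P.ord_zpow, P.ord_inv, H18.ord_algebraMap, ← hfE P,
        Finsupp.smul_apply, nsmul_eq_mul, neg_zero, add_zero, ← mul_add]
      exact dvd_mul_right _ _)
  change ((α : F) * (Y : F) ^ m) / (algebraMap L F (e : L) * ((X : F) ^ m * (β : F))) =
    algebraMap L F c₀ * w ^ m at hw
  have hw0 : w ≠ 0 := by
    rintro rfl
    rw [zero_pow hm, mul_zero, div_eq_zero_iff] at hw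
    rcases hw with hw | hw
    · exact mul_ne_zero hαF (pow_ne_zero _ hYF) hw
    · exact mul_ne_zero heF (mul_ne_zero (pow_ne_zero _ hXF) hβF) hw
  have hc₀ : algebraMap L F c₀ ≠ 0 := by
    intro h0
    rw [h0, zero_mul, div_eq_zero_iff] at hw
    rcases hw with hw | hw
    · exact mul_ne_zero hαF (pow_ne_zero _ hYF) hw
    · exact mul_ne_zero heF (mul_ne_zero (pow_ne_zero _ hXF) hβF) hw
  have hc₀' : c₀ ≠ 0 := by
    rintro rfl
    exact hc₀ (map_zero _)
  refine ⟨w * (X : F) / Y, div_ne_zero (mul_ne_zero hw0 hXF) hYF, fun P => ?_⟩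
  have hz : w * (X : F) / Y ≠ 0 := div_ne_zero (mul_ne_zero hw0 hXF) hYF
  have hfw : f = algebraMap L F (c * e * c₀) * (w * (X : F) / Y) ^ (m : ℤ) := by
    have hαf : (α : F) = f * (β : F) * (algebraMap L F c)⁻¹ := by
      rw [hfab]; field_simp
    rw [hαf] at hw
    rw [map_mul, map_mul, zpow_natCast, div_pow, mul_pow]
    field_simp at hw ⊢
    rw [hw]
  have hcc : algebraMap L F (c * e * c₀) ≠ 0 := by
    rw [map_mul, map_mul]; exact mul_ne_zero (mul_ne_zero hcF heF) hc₀
  have h2 := hfE P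
  rw [hfw, P.ord_mul hcc (zpow_ne_zero _ hz), H18.ord_algebraMap, zero_add, P.ord_zpow,
    Finsupp.smul_apply, nsmul_eq_mul] at h2
  exact mul_left_cancel₀ (by exact_mod_cast hm) h2

end Fermat.Agent.H28
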