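import Mathlib
import Fermat.Agent.H28.Auto
import Fermat.Agent.H28.Inj

set_option autoImplicit false
set_option linter.style.haveILetI false
set_option linter.unusedSectionVars false

/-! The Eichler-Shimura relation modulo the kernel of reduction. -/

noncomputable section

namespace Fermat.Agent.H28

open Module IsLocalRing IsDedekindDomain Polynomial AlgebraicCurve

variable {L : Type*} [Field L] [IsAlgClosed L] {A : ValuationSubring L} {F Fb : Type*}
  [Field F] [Field Fb] [Algebra L F] [Algebra (ResidueField A) Fb]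

/-- the function `x` takes the value `c` at `P` -/
def HasVal (P : Place L F) (x : F) (c : L) : Prop :=
  x - algebraMap L F c = 0 ∨ 0 < P.ord (x - algebraMap L F c)

theorem sub_mem_ctr_iff {t : F} [IsDedekindDomain (CR L t)] [IsFractionRing (CR L t) F]
    {P : Place L F} (hP : InChart (CR L t) P) (x : CR L t) (c : L) :
    x - algebraMap L _ c ∈ ctr (CR L t) P ↔ HasVal P (x : F) c := by
  by_cases h0 : x - algebraMap L (CR L t) c = 0
  · have h1 : (x : F) - algebraMap L F c = 0 := congrArg Subtype.val h0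
    rw [h0]
    exact ⟨fun _ => Or.inl h1, fun _ => zero_mem _⟩
  · have h1 : (x : F) - algebraMap L F c ≠ 0 := fun h => h0 (Subtype.ext h)
    rw [mem_ctr hP h0]
    exact ⟨fun h => Or.inr h, fun h => h.resolve_left h1⟩

theorem ord_pos_add {P : Place L F} {x y : F} (hx : x = 0 ∨ 0 < P.ord x)
    (hy : y = 0 ∨ 0 < P.ord y) : x + y = 0 ∨ 0 < P.ord (x + y) := by
  by_cases h : x + y = 0
  · exact Or.inl h
  · right
    have := H18.le_ord_add P (n := 1) h (hx.imp_right (by omega)) (hy.imp_right (by omega))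
    omega

theorem ord_pos_mul {P : Place L F} {x y : F} (hx : x ∈ P.toValuationSubring)
    (hy : y = 0 ∨ 0 < P.ord y) : x * y = 0 ∨ 0 < P.ord (x * y) := by
  by_cases h : x * y = 0
  · exact Or.inl h
  · right
    have hx0 := left_ne_zero_of_mul h
    have hy0 := right_ne_zero_of_mul h
    rw [P.ord_mul hx0 hy0]
    have h1 := H18.ord_nonneg_of_mem P hx
    have h2 := hy.resolve_left hy0
    omega

theorem const_eq_zero {P : Place L F} {c : L}
    (h : algebraMap L F c = 0 ∨ 0 < P.ord (algebraMap L F c)) : c = 0 := by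
  rcases h with h | h
  · exact (map_eq_zero _).mp h
  · rw [H18.ord_algebraMap] at h
    exact absurd h (lt_irrefl _)

namespace TwoCharts

variable {D : RedData A F Fb} (C : TwoCharts D)

/-- places at which `t₁` takes a value in `A` -/
def GoodPl (P : Place L F) : Prop :=
  (C.t₁ : F) ∈ P.toValuationSubring ∧ ∃ c ∈ A, HasVal P (C.t₁ : F) c

theorem t₂_eq : (C.t₂ : F) = (C.t₁ : F)⁻¹ := eq_inv_of_mul_eq_one_right C.mul_eq

theorem t₁_ne : (C.t₁ : F) ≠ 0 := left_ne_zero_of_mul_eq_one C.mul_eq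

theorem t₂_ne : (C.t₂ : F) ≠ 0 := right_ne_zero_of_mul_eq_one C.mul_eq

theorem good_of_not_tVal {P : Place L F} (h : ¬ TVal (A := A) (tO L (C.t₂ : F)) P) :
    C.GoodPl P := by
  by_cases h1 : (C.t₁ : F) ∈ P.toValuationSubring
  · refine ⟨h1, ?_⟩
    have hch : InChart (CR L (C.t₁ : F)) P := (inChart_iff P).mpr h1
    obtain ⟨c, hc⟩ := (isRat_ctr C.rat₁ hch).2 (tO L (C.t₁ : F))
    have hv := (sub_mem_ctr_iff hch _ c).mp hc
    change HasVal P (C.t₁ : F) c at hv
    by_cases hcA : c ∈ A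
    · exact ⟨c, hcA, hv⟩
    exfalso
    obtain ⟨h3, h4⟩ := RedSys.inv_mem_maximalIdeal hcA
    have hc0 : c ≠ 0 := by
      rintro rfl
      exact hcA A.zero_mem
    -- `t₁` is a unit at `P`
    have hcF : algebraMap L F c ≠ 0 := by simpa using hc0
    have hord : P.ord (C.t₁ : F) = 0 := by
      have h5 : (C.t₁ : F) = algebraMap L F c + ((C.t₁ : F) - algebraMap L F c) := by ring
      rw [h5, (H18.ord_add_eq_of_lt P hcF (by rw [H18.ord_algebraMap]; exact hv)).1,
        H18.ord_algebraMap]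
    have hord2 : P.ord (C.t₂ : F) = 0 := by rw [C.t₂_eq, P.ord_inv, hord, neg_zero]
    have h2m : (C.t₂ : F) ∈ P.toValuationSubring := H18.mem_of_ord_nonneg P hord2.ge
    have hch2 : InChart (CR L (C.t₂ : F)) P := (inChart_iff P).mpr h2m
    apply h
    refine ⟨hch2, ⟨c⁻¹, h3⟩, h4, ?_⟩
    rw [sub_mem_ctr_iff hch2]
    change HasVal P (C.t₂ : F) c⁻¹
    have h6 : (C.t₂ : F) - algebraMap L F c⁻¹ =
        (-(algebraMap L F c⁻¹) * (C.t₂ : F)) * ((C.t₁ : F) - algebraMap L F c) := by
      have h7 : algebraMap L F c⁻¹ * algebraMap L F c = 1 := by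
        rw [← map_mul, inv_mul_cancel₀ hc0, map_one]
      have h8 := C.mul_eq
      linear_combination (algebraMap L F c⁻¹) * h8 - (C.t₂ : F) * h7
    unfold HasVal
    rw [h6]
    exact ord_pos_mul (mul_mem (neg_mem (P.algebraMap_mem' _)) h2m) hv
  · exfalso
    apply h
    have h2 : P.ord (C.t₁ : F) < 0 := by
      by_contra hlt
      exact h1 (H18.mem_of_ord_nonneg P (by omega))
    have h3 : 0 < P.ord (C.t₂ : F) := by
      rw [C.t₂_eq, P.ord_inv]; omega
    have h2m : (C.t₂ : F) ∈ P.toValuationSubring := H18.mem_of_ord_nonneg P h3.le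
    have hch2 : InChart (CR L (C.t₂ : F)) P := (inChart_iff P).mpr h2m
    refine ⟨hch2, 0, zero_mem _, ?_⟩
    rw [sub_mem_ctr_iff hch2]
    change HasVal P (C.t₂ : F) ((0 : A) : L)
    right
    rw [ZeroMemClass.coe_zero, map_zero, sub_zero]
    exact h3

theorem not_tVal_of_good {P : Place L F} (h : C.GoodPl P) :
    ¬ TVal (A := A) (tO L (C.t₂ : F)) P := by
  rintro ⟨hch, c, hc, hcm⟩
  obtain ⟨h1, c₁, hc₁, hv₁⟩ := h
  rw [sub_mem_ctr_iff hch] at hcm
  change HasVal P (C.t₂ : F) (c : L) at hcm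
  have h2m : (C.t₂ : F) ∈ P.toValuationSubring := (inChart_iff P).mp hch
  have h3 := ord_pos_add (ord_pos_mul h2m hv₁) (ord_pos_mul (P.algebraMap_mem' c₁) hcm)
  have h4 : (C.t₂ : F) * ((C.t₁ : F) - algebraMap L F c₁) +
      algebraMap L F c₁ * ((C.t₂ : F) - algebraMap L F c) = algebraMap L F (1 - c₁ * c) := by
    rw [map_sub, map_one, map_mul]
    linear_combination C.mul_eq
  rw [h4] at h3
  have h5 := const_eq_zero h3
  have h6 : (⟨c₁, hc₁⟩ : A) * c = 1 := Subtype.ext (sub_eq_zero.mp h5).symm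
  have h7 : (1 : A) ∈ maximalIdeal A := by
    rw [← h6]; exact Ideal.mul_mem_left _ _ hc
  exact (Ideal.ne_top_iff_one _).mp (maximalIdeal.isMaximal A).ne_top h7

theorem GoodPl.inChart {P : Place L F} (h : C.GoodPl P) : InChart (CR L (C.t₁ : F)) P :=
  (inChart_iff P).mpr h.1

theorem GoodPl.good {P : Place L F} (h : C.GoodPl P) :
    C.h₁.sys.Good (ctr (CR L (C.t₁ : F)) P) := by
  obtain ⟨c, hc, hv⟩ := h.2
  have hch := GoodPl.inChart C h
  rw [C.h₁.good_iff (isRat_ctr C.rat₁ hch) ((sub_mem_ctr_iff hch (tO L (C.t₁ : F)) c).mpr hv)]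
  exact hc

/-- divisors supported on good places -/
def GDiv : AddSubgroup (Divisor L F) where
  carrier := {E | ∀ P, ¬ C.GoodPl P → E P = 0}
  add_mem' := fun {E E'} h h' P hP => by rw [Finsupp.add_apply, h P hP, h' P hP, add_zero]
  zero_mem' := fun _ _ => rfl
  neg_mem' := fun {E} h P hP => by rw [Finsupp.neg_apply, h P hP, neg_zero]

theorem mem_GDiv {E : Divisor L F} : E ∈ C.GDiv ↔ ∀ P, ¬ C.GoodPl P → E P = 0 := Iff.rfl

theorem single_mem_GDiv {P : Place L F} (h : C.GoodPl P) (n : ℤ) :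
    Finsupp.single P n ∈ C.GDiv := by
  classical
  intro Q hQ
  rw [Finsupp.single_apply, if_neg]
  rintro rfl
  exact hQ h

theorem GDiv_induction {p : Divisor L F → Prop} (h0 : p 0)
    (hadd : ∀ E E', p E → p E' → p (E + E'))
    (hs : ∀ P n, C.GoodPl P → p (Finsupp.single P n)) {E : Divisor L F} (hE : E ∈ C.GDiv) :
    p E := by
  classical
  revert hE
  induction E using Finsupp.induction with
  | zero => exact fun _ => h0
  | single_add P n E hP hn ih =>
    intro hE
    have hPg : C.GoodPl P := by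
      by_contra hP'
      have := hE P hP'
      rw [Finsupp.add_apply, Finsupp.single_eq_same, Finsupp.notMem_support_iff.mp hP,
        add_zero] at this
      exact hn this
    apply hadd _ _ (hs P n hPg)
    apply ih
    have : E = (Finsupp.single P n + E) - Finsupp.single P n := by abel
    rw [this]
    exact C.GDiv.sub_mem hE (C.single_mem_GDiv hPg n)

theorem theta₂_eq_zero {E : Divisor L F} (hE : E ∈ C.GDiv) {v : C.V₂}
    (hv : C.tb₂ ∈ v.asIdeal) : C.h₂.sys.theta L F v E = 0 := by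
  refine C.GDiv_induction (p := fun E => C.h₂.sys.theta L F v E = 0) (map_zero _)
    (fun E E' h h' => by rw [map_add, h, h', add_zero]) (fun P n hP => ?_) hE
  rw [C.h₂.sys.theta_single, C.h₂.sys.mu_eq_zero_of_not_tVal C.rat₂ (t := C.tR₂)
    (by rw [C.sys_ρ_tR₂]; exact hv) (C.not_tVal_of_good hP), Nat.cast_zero, mul_zero]

theorem exists_move [HasPrincipalDivisors L F] (E : Divisor L F) :
    ∃ E' : Divisor L F, E' ∈ C.GDiv ∧ E - E' ∈ Divisor.principal (K := L) (F := F) ∧
      Divisor.degree (E - E') = 0 := by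
  obtain ⟨g, hg, hgP⟩ := C.h₂.sys.exists_moving C.rat₂ (t := C.tR₂)
    (by rw [C.sys_ρ_tR₂]; exact C.tb₂_ne_zero)
    (by
      intro P hP
      obtain ⟨hch, c, hc, hcm⟩ := hP
      exact (C.h₂.good_iff (isRat_ctr C.rat₂ hch) hcm).mpr c.2) E
  obtain ⟨G, hG, hG0⟩ := HasPrincipalDivisors.exists_divisor (K := L) g hg
  refine ⟨E - G, ?_, ?_, ?_⟩
  · intro P hP
    by_contra h
    apply hP
    apply C.good_of_not_tVal
    intro hT
    apply h
    rw [Finsupp.sub_apply, hgP P hT, hG P, sub_self]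
  · rw [sub_sub_cancel]
    exact ⟨g, hg, hG⟩
  · rw [sub_sub_cancel]
    exact hG0

end TwoCharts

end Fermat.Agent.H28
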