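import Mathlib
import Fermat.Agent.H28.HeckeRel

set_option autoImplicit false
set_option linter.style.haveILetI false
set_option linter.unusedSectionVars false

/-! The kernel of reduction on divisor classes of degree zero. -/

noncomputable section

namespace Fermat.Agent.H28

open Module IsLocalRing IsDedekindDomain Polynomial AlgebraicCurve

variable {L : Type*} [Field L] [IsAlgClosed L] {A : ValuationSubring L} {F Fb : Type*}
  [Field F] [Field Fb] [Algebra L F] [Algebra (ResidueField A) Fb]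

namespace TwoCharts

variable {D : RedData A F Fb} (C : TwoCharts D)

/-- the input on the Hecke correspondence at a good place -/
structure HeckeAt (gb : Fb ≃+* Fb) (ℓ : ℕ) (T : Divisor L F →+ Divisor L F)
    (P : Place L F) : Prop where
  exists_fam : ∃ (ι : Type) (s : Finset ι) (Q : ι → Place L F) (n : ι → ℕ),
    T (Finsupp.single P 1) = ∑ i ∈ s, Finsupp.single (Q i) (n i : ℤ) ∧
    ∑ i ∈ s, n i = ℓ + 1 ∧ ∀ i ∈ s, C.GoodPl (Q i)
  norm : ∀ a : D.Z, IntOver A (C.t₁ : F) (a : F) → (a : F) ≠ 0 → 0 < P.ord (a : F) →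
    ∃ b : D.Z, IntOver A (C.t₁ : F) (b : F) ∧ (b : F) ≠ 0 ∧
      D.ρ b = gb (D.ρ a) * gb.symm (D.ρ a) ^ ℓ ∧
      ∀ P' : Place L F, (C.t₁ : F) ∈ P'.toValuationSubring →
        T (Finsupp.single P 1) P' ≤ P'.ord (b : F)

variable {C}

theorem HeckeAt.theta {g : SemilinearAut L F} {gb : Fb ≃+* Fb}
    {σb : ResidueField A ≃+* ResidueField A} (h : C.RedAut g gb σb) {ℓ : ℕ}
    {T : Divisor L F →+ Divisor L F} {P : Place L F} (hP : C.GoodPl P)
    (hT : C.HeckeAt gb ℓ T P) (v : C.V₁) :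
    T (Finsupp.single P 1) ∈ C.GDiv ∧ C.h₁.sys.theta L F v (T (Finsupp.single P 1)) =
      C.h₁.sys.theta L F (mapPrime h.eb₁.symm v) (Finsupp.single P 1) +
        ℓ * C.h₁.sys.theta L F (mapPrime h.eb₁ v) (Finsupp.single P 1) := by
  obtain ⟨ι, s, Q, n, hTP, hn, hQ⟩ := hT.exists_fam
  constructor
  · rw [hTP]
    exact C.GDiv.sum_mem fun i hi => C.single_mem_GDiv (hQ i hi) _
  have hch := GoodPl.inChart C hP
  have hαalg : ∀ c, h.eb₁.symm (algebraMap _ _ c) =
      algebraMap (ResidueField A) (CR (ResidueField A) (D.ρ C.t₁)) (σb.symm c) := by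
    intro c
    rw [RingEquiv.symm_apply_eq]
    have := crEquiv_algebraMap gb σb h.alg h.fixb₁ (σb.symm c)
    rw [RingEquiv.apply_symm_apply] at this
    exact this.symm
  have key := C.h₁.sys.theta_hecke (F := F) C.rat₁ s Q n (fun i hi => GoodPl.inChart C (hQ i hi))
    (fun i hi => GoodPl.good C (hQ i hi)) hch (GoodPl.good C hP) ℓ hn h.eb₁ h.eb₁.symm σb σb.symm
    (crEquiv_algebraMap gb σb h.alg h.fixb₁) hαalg
    (by
      intro a ha
      by_cases ha0 : (a : CR L (C.t₁ : F)) = 0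
      · have ha0' : a = 0 := Subtype.ext ha0
        refine ⟨0, ?_, zero_mem _⟩
        rw [ha0', map_zero, map_zero, zero_mul]
      have haF : (((a : CR L (C.t₁ : F)) : F)) ≠ 0 := fun h0 => ha0 (Subtype.ext h0)
      rw [mem_ctr hch ha0] at ha
      obtain ⟨b, hbi, hb0, hbρ, hbT⟩ := hT.norm (C.h₁.toZ a) a.2 haF ha
      refine ⟨⟨⟨(b : F), hbi.isIntegral⟩, hbi⟩, Subtype.ext hbρ, ?_⟩
      apply mem_prod_pow s Q n (fun i hi => GoodPl.inChart C (hQ i hi))
      · intro h0
        exact hb0 (congrArg Subtype.val h0)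
      · intro P' hP'
        rw [← hTP]
        exact hbT P' ((inChart_iff P').mp hP')) v
  rw [hTP, key, C.h₁.sys.theta_single, C.h₁.sys.theta_single, one_mul, one_mul]
  rfl

theorem theta_hecke {g : SemilinearAut L F} {gb : Fb ≃+* Fb}
    {σb : ResidueField A ≃+* ResidueField A} (h : C.RedAut g gb σb) {ℓ : ℕ}
    {T : Divisor L F →+ Divisor L F} (hT : ∀ P, C.GoodPl P → C.HeckeAt gb ℓ T P)
    {E : Divisor L F} (hE : E ∈ C.GDiv) (v : C.V₁) :
    T E ∈ C.GDiv ∧ C.h₁.sys.theta L F v (T E) =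
      C.h₁.sys.theta L F (mapPrime h.eb₁.symm v) E +
        ℓ * C.h₁.sys.theta L F (mapPrime h.eb₁ v) E := by
  refine C.GDiv_induction (p := fun E => T E ∈ C.GDiv ∧ C.h₁.sys.theta L F v (T E) =
      C.h₁.sys.theta L F (mapPrime h.eb₁.symm v) E +
        ℓ * C.h₁.sys.theta L F (mapPrime h.eb₁ v) E) ?_ ?_ ?_ hE
  · rw [map_zero, map_zero, map_zero, map_zero, mul_zero, add_zero]
    exact ⟨zero_mem _, rfl⟩
  · rintro E E' ⟨h1, h2⟩ ⟨h1', h2'⟩
    rw [map_add, map_add, map_add, map_add, h2, h2']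
    exact ⟨add_mem h1 h1', by ring⟩
  · intro P n hP
    obtain ⟨h1, h2⟩ := HeckeAt.theta h hP (hT P hP) v
    have h3 : (Finsupp.single P n : Divisor L F) = n • Finsupp.single P 1 := by
      rw [Finsupp.smul_single, smul_eq_mul, mul_one]
    rw [h3, map_zsmul, map_zsmul, map_zsmul, map_zsmul, h2]
    exact ⟨C.GDiv.zsmul_mem h1 n, by rw [smul_eq_mul, smul_eq_mul, smul_eq_mul]; ring⟩

theorem smul_mem_GDiv {g : SemilinearAut L F} {gb : Fb ≃+* Fb}
    {σb : ResidueField A ≃+* ResidueField A} (h : C.RedAut g gb σb)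
    {E : Divisor L F} (hE : E ∈ C.GDiv) : g • E ∈ C.GDiv := by
  intro P hP
  rw [SemilinearAut.divisor_smul_apply]
  apply hE
  intro hg
  apply hP
  obtain ⟨h1, c, hc, hv⟩ := hg
  have h2 : ∀ x : F, x ∈ (g⁻¹ • P).toValuationSubring ↔ g • x ∈ P.toValuationSubring := by
    intro x
    rw [SemilinearAut.smul_toValuationSubring]
    rw [ValuationSubring.mem_pointwise_smul_iff_inv_smul_mem, inv_inv]
  refine ⟨?_, SemilinearAut.baseAut g c, h.memA c hc, ?_⟩
  · rw [h2, h.fix₁] at h1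
    exact h1
  · have h3 : (C.t₁ : F) - algebraMap L F (SemilinearAut.baseAut g c) =
        g • ((C.t₁ : F) - algebraMap L F c) := by
      rw [smul_sub, h.fix₁, SemilinearAut.smul_algebraMap]
    unfold HasVal
    rw [h3]
    rcases hv with hv | hv
    · left; rw [hv, smul_zero]
    · right
      have h4 := SemilinearAut.ord_smul g (g⁻¹ • P) ((C.t₁ : F) - algebraMap L F c)
      rw [smul_inv_smul] at h4
      rw [h4]
      exact hv

theorem mapPrime_comp (e : CR (ResidueField A) (D.ρ C.t₁) ≃+* CR (ResidueField A) (D.ρ C.t₁))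
    (v : C.V₁) : mapPrime e.symm (mapPrime e v) = v := by
  apply HeightOneSpectrum.ext
  ext x
  change e.symm (e.symm.symm x) ∈ v.asIdeal ↔ _
  have : e.symm (e.symm.symm x) = x := e.symm_apply_apply x
  rw [this]

/-- **The Eichler-Shimura relation modulo the kernel of reduction** -/
theorem relation_mem_KDiv {g : SemilinearAut L F} {gb : Fb ≃+* Fb}
    {σb : ResidueField A ≃+* ResidueField A} (h : C.RedAut g gb σb) {ℓ : ℕ}
    {T : Divisor L F →+ Divisor L F} (hT : ∀ P, C.GoodPl P → C.HeckeAt gb ℓ T P)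
    {E : Divisor L F} (hE : E ∈ C.GDiv) : g • g • E - T (g • E) + ℓ • E ∈ C.KDiv := by
  have hgE := smul_mem_GDiv h hE
  have hggE := smul_mem_GDiv h hgE
  refine ⟨1, one_ne_zero, fun v => ?_, fun v hv => ?_⟩
  · obtain ⟨h1, h2⟩ := theta_hecke h hT hgE v
    rw [ordv_one, map_add, map_sub, h2, h.equi₁.theta_smul v, h.equi₁.theta_smul,
      h.equi₁.theta_smul, map_nsmul, mapPrime_comp, nsmul_eq_mul]
    ring
  · have hTE : ∀ w : C.V₁, T (g • E) ∈ C.GDiv := fun w => (theta_hecke h hT hgE w).1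
    rw [ordv_one]
    apply C.theta₂_eq_zero _ hv
    have hT' : T (g • E) ∈ C.GDiv := by
      refine C.GDiv_induction (p := fun E => T E ∈ C.GDiv) ?_ ?_ ?_ hgE
      · rw [map_zero]; exact zero_mem _
      · intro E E' h h'; rw [map_add]; exact add_mem h h'
      · intro P n hP
        obtain ⟨ι, s, Q, m, hTP, -, hQ⟩ := (hT P hP).exists_fam
        have h3 : (Finsupp.single P n : Divisor L F) = n • Finsupp.single P 1 := by
          rw [Finsupp.smul_single, smul_eq_mul, mul_one]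
        rw [h3, map_zsmul, hTP]
        exact C.GDiv.zsmul_mem (C.GDiv.sum_mem fun i hi => C.single_mem_GDiv (hQ i hi) _) n
    exact add_mem (sub_mem hggE hT') (C.GDiv.nsmul_mem hE ℓ)

variable (C)

/-- the kernel of reduction on `Pic⁰` -/
def kernel : AddSubgroup (Pic0 L F) :=
  (C.KDiv.addSubgroupOf (Divisor.degZero (K := L) (F := F))).map (QuotientAddGroup.mk' _)

theorem mk_mem_kernel {E : Divisor.degZero (K := L) (F := F)} :
    Pic0.mk E ∈ C.kernel ↔ (E : Divisor L F) ∈ C.KDiv := by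
  constructor
  · rintro ⟨E', hE', h⟩
    have h1 : (QuotientAddGroup.mk E' : Pic0 L F) = QuotientAddGroup.mk E := h
    rw [QuotientAddGroup.eq, AddSubgroup.mem_addSubgroupOf] at h1
    have h2 := C.principal_le_KDiv h1
    have h3 : (E' : Divisor L F) ∈ C.KDiv := hE'
    have h4 : (E : Divisor L F) = (E' : Divisor L F) +
        ((-E' + E : Divisor.degZero (K := L) (F := F)) : Divisor L F) := by
      push_cast
      abel
    rw [h4]
    exact add_mem h3 h2
  · intro h
    exact ⟨E, h, rfl⟩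

theorem smul_sub_mem_kernel {g : SemilinearAut L F} {gb : Fb ≃+* Fb}
    {σb : ResidueField A ≃+* ResidueField A} (h : C.RedAut g gb σb) (htriv : ∀ y, gb y = y)
    (x : Pic0 L F) : g • x - x ∈ C.kernel := by
  obtain ⟨E, rfl⟩ := Pic0.mk_surjective x
  have h1 : g • Pic0.mk E - Pic0.mk E = Pic0.mk (SemilinearAut.degZeroSMulHom g E - E) := rfl
  rw [h1, mk_mem_kernel]
  exact h.smul_sub_mem_KDiv htriv E

theorem smul_mem_kernel {g : SemilinearAut L F} {gb : Fb ≃+* Fb}
    {σb : ResidueField A ≃+* ResidueField A} (h : C.RedAut g gb σb)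
    {x : Pic0 L F} (hx : x ∈ C.kernel) : g • x ∈ C.kernel := by
  obtain ⟨E, rfl⟩ := Pic0.mk_surjective x
  rw [SemilinearAut.pic0_smul_mk, mk_mem_kernel]
  exact h.smul_mem_KDiv ((C.mk_mem_kernel).mp hx)

theorem relation_mem_kernel [HasPrincipalDivisors L F] {g : SemilinearAut L F} {gb : Fb ≃+* Fb}
    {σb : ResidueField A ≃+* ResidueField A} (h : C.RedAut g gb σb) {ℓ : ℕ}
    {T : Divisor L F →+ Divisor L F} (hT : ∀ P, C.GoodPl P → C.HeckeAt gb ℓ T P)
    {T0 : Pic0 L F →+ Pic0 L F}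
    (hT0 : ∀ E : Divisor.degZero (K := L) (F := F), ∃ E' : Divisor.degZero (K := L) (F := F),
      T0 (Pic0.mk E) = Pic0.mk E' ∧ (E' : Divisor L F) = T E)
    (x : Pic0 L F) : g • g • x - T0 (g • x) + ℓ • x ∈ C.kernel := by
  obtain ⟨E, rfl⟩ := Pic0.mk_surjective x
  obtain ⟨E', hE', hp, hd⟩ := C.exists_move (E : Divisor L F)
  have hdE' : E' ∈ Divisor.degZero (K := L) (F := F) := by
    have h1 := E.2
    rw [Divisor.mem_degZero] at h1 ⊢
    rw [map_sub, h1, zero_sub, neg_eq_zero] at hd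
    exact hd
  have hmk : (Pic0.mk E : Pic0 L F) = Pic0.mk ⟨E', hdE'⟩ := by
    symm
    apply QuotientAddGroup.eq.mpr
    rw [AddSubgroup.mem_addSubgroupOf]
    have : ((-(⟨E', hdE'⟩ : Divisor.degZero (K := L) (F := F)) + E :
      Divisor.degZero (K := L) (F := F)) : Divisor L F) = (E : Divisor L F) - E' := by
      push_cast
      abel
    rw [this]
    exact hp
  rw [hmk]
  obtain ⟨G, hG, hGT⟩ := hT0 (SemilinearAut.degZeroSMulHom g ⟨E', hdE'⟩)
  have h1 : g • g • (Pic0.mk ⟨E', hdE'⟩ : Pic0 L F) - T0 (g • Pic0.mk ⟨E', hdE'⟩) +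
      ℓ • Pic0.mk ⟨E', hdE'⟩ = Pic0.mk (SemilinearAut.degZeroSMulHom g
        (SemilinearAut.degZeroSMulHom g ⟨E', hdE'⟩) - G + ℓ • ⟨E', hdE'⟩) := by
    rw [SemilinearAut.pic0_smul_mk, SemilinearAut.pic0_smul_mk, hG]
    rfl
  rw [h1, mk_mem_kernel]
  have h2 := relation_mem_KDiv h hT hE'
  push_cast
  rw [hGT]
  exact h2

theorem eq_zero_of_mem_kernel [IsAlgClosed (ResidueField A)] {m : ℕ} (hm : m ≠ 0)
    (hKey : KeyLemma D C.t₁ m) {x : Pic0 L F} (hx : x ∈ C.kernel) (hmx : m • x = 0) : x = 0 := by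
  obtain ⟨E, rfl⟩ := Pic0.mk_surjective x
  have h1 : (Pic0.mk (m • E) : Pic0 L F) = 0 := hmx
  have h2 : ((m • E : Divisor.degZero (K := L) (F := F)) : Divisor L F) ∈
      Divisor.principal (K := L) (F := F) := by
    have h3 : (QuotientAddGroup.mk (m • E) : Pic0 L F) = 0 := h1
    rw [QuotientAddGroup.eq_zero_iff, AddSubgroup.mem_addSubgroupOf] at h3
    exact h3
  have h4 := C.injective hm hKey ((C.mk_mem_kernel).mp hx) h2
  apply (QuotientAddGroup.eq_zero_iff _).mpr
  rw [AddSubgroup.mem_addSubgroupOf]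
  exact h4

end TwoCharts

end Fermat.Agent.H28
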