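import Mathlib
import Fermat.Agent.H28.KernelAbs
import Fermat.Agent.H05.GalHecke

set_option autoImplicit false
set_option linter.style.haveILetI false
set_option linter.unusedSectionVars false

/-! The input on the Hecke correspondence, from two finite maps `α β : F → F'`. -/

noncomputable section

namespace Fermat.Agent.H28

open Module IsLocalRing IsDedekindDomain Polynomial AlgebraicCurve

section Val

variable {L F : Type*} [Field L] [Field F] [Algebra L F] {A : ValuationSubring L}

theorem HasVal.residue_eq {W : Place L F} {x : F} {c : L} (hx : x ∈ W.toValuationSubring)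
    (h : HasVal W x c) : residue W.toValuationSubring ⟨x, hx⟩ =
      residue W.toValuationSubring (algebraMap L W.toValuationSubring c) := by
  rw [← sub_eq_zero, ← map_sub, residue_eq_zero_iff, mem_maximalIdeal, mem_nonunits_iff]
  intro hu
  have h1 := W.ord_coe_unit hu.unit
  rw [IsUnit.unit_spec] at h1
  have h2 : (((⟨x, hx⟩ : W.toValuationSubring) - algebraMap L W.toValuationSubring c :
    W.toValuationSubring) : F) = x - algebraMap L F c := rfl
  rw [h2] at h1
  rcases h with h | h
  · apply hu.ne_zero
    exact Subtype.ext h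
  · omega

theorem IntOver.mem_place {W : Place L F} {t x : F} (hx : IntOver A t x)
    (ht : t ∈ W.toValuationSubring) : x ∈ W.toValuationSubring :=
  mem_valuationSubring_of_isIntegral W.toValuationSubring W.algebraMap_mem' ht hx.isIntegral

theorem IntOver.val_mem {W : Place L F} {t x : F} (hx : IntOver A t x)
    (ht : t ∈ W.toValuationSubring) {c₀ c : L} (hc₀ : c₀ ∈ A) (hv₀ : HasVal W t c₀)
    (hv : HasVal W x c) : c ∈ A := by
  have hxm := hx.mem_place ht
  obtain ⟨p, hp, hpx⟩ := hx
  let κ : W.toValuationSubring →+* IsLocalRing.ResidueField W.toValuationSubring :=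
    residue W.toValuationSubring
  let ι : L →+* W.toValuationSubring := algebraMap L W.toValuationSubring
  let evW : A[X] →+* W.toValuationSubring := eval₂RingHom (ι.comp A.subtype) ⟨t, ht⟩
  let ev : A[X] →+* A := evalRingHom ⟨c₀, hc₀⟩
  have h1 : W.toValuationSubring.subtype.comp evW = evA A t := by
    apply Polynomial.ringHom_ext
    · intro a
      change (W.toValuationSubring.subtype (evW (C a)) : F) = _
      rw [evA_C]
      change (W.toValuationSubring.subtype (eval₂ (ι.comp A.subtype) _ (C a)) : F) = _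
      rw [eval₂_C]
      rfl
    · change (W.toValuationSubring.subtype (eval₂ (ι.comp A.subtype) ⟨t, ht⟩ X) : F) = _
      rw [eval₂_X, evA_X]
      rfl
  have h2 : p.eval₂ evW ⟨x, hxm⟩ = 0 := by
    apply Subtype.val_injective
    change W.toValuationSubring.subtype _ = _
    rw [Polynomial.hom_eval₂, h1]
    exact hpx
  have h3 := congrArg κ h2
  rw [Polynomial.hom_eval₂, map_zero] at h3
  have h4 : κ.comp evW = ((κ.comp ι).comp (algebraMap A L)).comp ev := by
    apply Polynomial.ringHom_ext
    · intro a
      change κ (eval₂ (ι.comp A.subtype) _ (C a)) = κ (ι (algebraMap A L (eval _ (C a))))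
      rw [eval₂_C, eval_C]
      rfl
    · change κ (eval₂ (ι.comp A.subtype) ⟨t, ht⟩ X) = κ (ι (algebraMap A L (eval _ X)))
      rw [eval₂_X, eval_X]
      exact hv₀.residue_eq ht
  have h5 : κ ⟨x, hxm⟩ = (κ.comp ι) c := hv.residue_eq hxm
  rw [h4, h5, RingHom.comp_assoc, ← Polynomial.hom_eval₂] at h3
  have h6 := (map_eq_zero_iff _ (κ.comp ι).injective).mp h3
  have h7 : IsIntegral A c := by
    refine ⟨p.map ev, hp.map ev, ?_⟩
    rw [Polynomial.eval₂_map]
    exact h6
  obtain ⟨y, hy⟩ := IsIntegrallyClosed.isIntegral_iff.mp h7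
  rw [← hy]
  exact y.2

theorem IntOver.trans {t s x : F} (hs : IntOver A t s) (hx : IntOver A s x) : IntOver A t x := by
  letI : Algebra A[X] F := (evA A t).toAlgebra
  obtain ⟨p, hp, hpx⟩ := hx
  let B := integralClosure A[X] F
  have hsB : s ∈ B := hs
  have hAB : ∀ a : A, algebraMap L F a ∈ B := fun a => intOver_alg t a
  let iA : A →+* B :=
    { toFun := fun a => ⟨algebraMap L F a, hAB a⟩
      map_one' := Subtype.ext (map_one (algebraMap L F))
      map_mul' := fun a b => Subtype.ext (map_mul (algebraMap L F) (a : L) b)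
      map_zero' := Subtype.ext (map_zero (algebraMap L F))
      map_add' := fun a b => Subtype.ext (map_add (algebraMap L F) (a : L) b) }
  let e : A[X] →+* B := eval₂RingHom iA ⟨s, hsB⟩
  have h1 : (algebraMap B F).comp e = evA A s := by
    apply Polynomial.ringHom_ext
    · intro a
      change (algebraMap B F (eval₂ iA ⟨s, hsB⟩ (C a))) = _
      rw [eval₂_C, evA_C]
      rfl
    · change (algebraMap B F (eval₂ iA ⟨s, hsB⟩ X)) = _
      rw [eval₂_X, evA_X]
      rfl
  have h2 : IsIntegral B x := by
    refine ⟨p.map e, hp.map e, ?_⟩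
    rw [Polynomial.eval₂_map, h1]
    exact hpx
  have h3 : IsIntegral A[X] x := isIntegral_trans x h2
  exact h3

theorem IntOver.map {F' : Type*} [Field F'] [Algebra L F'] (φ : F →ₐ[L] F') {t x : F}
    (hx : IntOver A t x) : IntOver A (φ t) (φ x) := by
  obtain ⟨p, hp, hpx⟩ := hx
  refine ⟨p, hp, ?_⟩
  have h1 : evA A (φ t) = (φ : F →+* F').comp (evA A t) := by
    apply Polynomial.ringHom_ext
    · intro a
      rw [RingHom.comp_apply, evA_C, evA_C]
      exact (φ.commutes _).symm
    · rw [RingHom.comp_apply, evA_X, evA_X]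
      rfl
  have h2 := congrArg (φ : F →+* F') hpx
  rw [Polynomial.hom_eval₂, map_zero, ← h1] at h2
  exact h2

theorem IntOver.normAlong {F' : Type*} [Field F'] [Algebra L F'] [CharZero F]
    (α : F →ₐ[L] F') (hfin : FiniteAlong L α) {t : F} {x : F'}
    (hx : IntOver A (α t) x) : IntOver A t (H05.normAlong α x) := by
  letI := algebraAlong α
  haveI : Module.Finite F F' := hfin
  letI : Algebra A[X] F := (evA A t).toAlgebra
  letI : Algebra A[X] F' := ((α : F →+* F').comp (evA A t)).toAlgebra
  haveI : IsScalarTower A[X] F F' := IsScalarTower.of_algebraMap_eq fun _ => rfl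
  have h1 : evA A (α t) = (α : F →+* F').comp (evA A t) := by
    apply Polynomial.ringHom_ext
    · intro a
      rw [RingHom.comp_apply, evA_C, evA_C]
      exact (α.commutes _).symm
    · rw [RingHom.comp_apply, evA_X, evA_X]
      rfl
  have h2 : IsIntegral A[X] x := by
    change ((α : F →+* F').comp (evA A t)).IsIntegralElem x
    rw [← h1]
    exact hx
  have h3 : IsIntegral A[X] (Algebra.norm F x) := Algebra.isIntegral_norm F h2
  exact h3

end Val

section Corr

variable {L : Type*} [Field L] [IsAlgClosed L] {A : ValuationSubring L} {F Fb : Type*}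
  {F' : Type} [Field F] [Field F'] [Field Fb] [Algebra L F] [Algebra L F']
  [Algebra (ResidueField A) Fb] [CharZero F]
  {D : RedData A F Fb} {C : TwoCharts D}
  (α β : F →ₐ[L] F') (hα : α.toRingHom.IsIntegral) (hβ : β.toRingHom.IsIntegral)
  [HasPrincipalDivisors L F'] (hdeg : ∀ P : Place L F, P.deg = 1)
  (hdeg' : ∀ W : Place L F', W.deg = 1)

include hβ in
theorem ram_pos (W : Place L F') : 0 < Place.ramificationIndexAlong β W := by
  letI := algebraAlong β
  haveI := isScalarTower_along β
  haveI := isIntegral_along β hβ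
  exact W.ramificationIndex_pos (F := F)

include hdeg' in
theorem corr_single (P : Place L F) :
    Divisor.correspondence β α hβ hα (Finsupp.single P 1) =
      ∑ W ∈ Place.fiberAlong β hβ P, Finsupp.single (W.restrictAlong α hα)
        ((Place.ramificationIndexAlong β W : ℕ) : ℤ) := by
  haveI : ∀ w : Place L F', Fact (w.deg = 1) := fun w => ⟨hdeg' w⟩
  rw [Divisor.correspondence_apply, Divisor.pullbackAlong_single, map_sum]
  refine Finset.sum_congr rfl fun W _ => ?_
  rw [Divisor.pushforwardAlong_single, H05.inertiaDegAlong_eq_one, Nat.cast_one, mul_one,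
    one_mul]

include hdeg hdeg' in
theorem sum_ram (hFI : FundamentalIdentityAlong L β hβ) (P : Place L F) :
    ∑ W ∈ Place.fiberAlong β hβ P, Place.ramificationIndexAlong β W = finrankAlong L β := by
  have h1 := Divisor.degree_pullbackAlong β hβ hFI (Finsupp.single P 1)
  rw [Divisor.pullbackAlong_single, map_sum, Divisor.degree_single, hdeg] at h1
  simp only [Divisor.degree_single, hdeg', one_mul, Nat.cast_one, mul_one] at h1
  exact_mod_cast h1

theorem hasVal_restrict {W : Place L F'} {x : F} {c : L} :
    HasVal W (β x) c ↔ HasVal (W.restrictAlong β hβ) x c := by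
  have h1 : β x - algebraMap L F' c = β (x - algebraMap L F c) := by
    rw [map_sub, β.commutes]
  unfold HasVal
  rw [h1, Place.ord_restrictAlong β hβ]
  have h2 : (0 : ℤ) < Place.ramificationIndexAlong β W := by
    exact_mod_cast ram_pos β hβ W
  have h3 : β (x - algebraMap L F c) = 0 ↔ x - algebraMap L F c = 0 :=
    map_eq_zero_iff β β.toRingHom.injective
  rw [h3, mul_pos_iff_of_pos_left h2]

theorem mem_restrictAlong_iff {W : Place L F'} {x : F} :
    x ∈ (W.restrictAlong β hβ).toValuationSubring ↔ β x ∈ W.toValuationSubring := Iff.rfl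

theorem goodPl_restrict (hαβ : IntOver A (β (C.t₁ : F)) (α (C.t₁ : F))) {W : Place L F'}
    (hW : C.GoodPl (W.restrictAlong β hβ)) : C.GoodPl (W.restrictAlong α hα) := by
  obtain ⟨h1, c, hc, hv⟩ := hW
  have h2 : β (C.t₁ : F) ∈ W.toValuationSubring := h1
  have h3 : α (C.t₁ : F) ∈ W.toValuationSubring := hαβ.mem_place h2
  refine ⟨h3, ?_⟩
  have hch : InChart (CR L (C.t₁ : F)) (W.restrictAlong α hα) := (inChart_iff _).mpr h3
  obtain ⟨c', hc'⟩ := (isRat_ctr C.rat₁ hch).2 (tO L (C.t₁ : F))
  have hv' := (sub_mem_ctr_iff hch _ c').mp hc'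
  change HasVal (W.restrictAlong α hα) (C.t₁ : F) c' at hv'
  refine ⟨c', ?_, hv'⟩
  exact hαβ.val_mem h2 hc ((hasVal_restrict β hβ).mpr hv) ((hasVal_restrict α hα).mpr hv')

theorem normAlong_ne_zero (hfin : FiniteAlong L α) {x : F'} (hx : x ≠ 0) :
    H05.normAlong α x ≠ 0 := by
  letI := algebraAlong α
  haveI : Module.Finite F F' := hfin
  exact Algebra.norm_ne_zero_iff.mpr hx

theorem norm_ord (hfin : FiniteAlong L α) (hN : NormFormulaAlong L α hfin)
    (hβα : IntOver A (α (C.t₁ : F)) (β (C.t₁ : F)))
    {a : F} (ha : IntOver A (C.t₁ : F) a) (ha0 : a ≠ 0) {P : Place L F} (hP : 0 < P.ord a)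
    {v : Place L F} (hv : (C.t₁ : F) ∈ v.toValuationSubring) :
    Divisor.correspondence β α hβ hα (Finsupp.single P 1) v ≤
      v.ord (H05.normAlong α (β a)) := by
  have hβa : β a ≠ 0 := (map_ne_zero_iff _ β.toRingHom.injective).mpr ha0
  obtain ⟨G, hG, -⟩ := HasPrincipalDivisors.exists_divisor (K := L) (β a) hβa
  have h1 : Divisor.pushforwardAlong α hα G v = v.ord (H05.normAlong α (β a)) := by
    letI := algebraAlong α
    haveI := isScalarTower_along α
    haveI := isIntegral_along α hα
    haveI : Module.Finite F F' := hfin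
    exact hN (β a) hβa G hG v
  rw [← h1, Divisor.correspondence_apply, ← sub_nonneg]
  have h2 : Divisor.pushforwardAlong α hα G v -
      Divisor.pushforwardAlong α hα (Divisor.pullbackAlong β hβ (Finsupp.single P 1)) v =
      Divisor.pushforwardAlong α hα (G - Divisor.pullbackAlong β hβ (Finsupp.single P 1)) v := by
    rw [map_sub, Finsupp.sub_apply]
  rw [h2]
  have h3 : ∀ W : Place L F', W.restrictAlong α hα = v →
      0 ≤ (G - Divisor.pullbackAlong β hβ (Finsupp.single P 1)) W := by
    classical
    rintro W rfl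
    rw [Finsupp.sub_apply, hG, Divisor.pullbackAlong_apply, Place.ord_restrictAlong β hβ,
      ← mul_sub]
    have hram := ram_pos β hβ W
    apply mul_nonneg (by omega)
    have h4 : α (C.t₁ : F) ∈ W.toValuationSubring := hv
    have h5 : β (C.t₁ : F) ∈ W.toValuationSubring := hβα.mem_place h4
    have h6 : a ∈ (W.restrictAlong β hβ).toValuationSubring := ha.mem_place h5
    have h7 := H18.ord_nonneg_of_mem _ h6
    rw [Finsupp.single_apply]
    split_ifs with h8
    · rw [← h8] at h7 ⊢
      omega
    · omega
  classical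
  letI := algebraAlong α
  haveI := isScalarTower_along α
  haveI := isIntegral_along α hα
  change 0 ≤ Divisor.pushforward F (G - Divisor.pullbackAlong β hβ (Finsupp.single P 1)) v
  rw [Divisor.pushforward_apply]
  refine Finset.sum_nonneg fun W _ => ?_
  split_ifs with h8
  · exact mul_nonneg (h3 W h8) (Nat.cast_nonneg _)
  · exact le_refl _

include hdeg hdeg' in
/-- the Hecke correspondence satisfies the hypotheses of the Eichler-Shimura relation -/
theorem heckeAt_of (hfin : FiniteAlong L α) (hN : NormFormulaAlong L α hfin)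
    (hFI : FundamentalIdentityAlong L β hβ) {ℓ : ℕ} (hrank : finrankAlong L β = ℓ + 1)
    (hαβ : IntOver A (β (C.t₁ : F)) (α (C.t₁ : F)))
    (hβα : IntOver A (α (C.t₁ : F)) (β (C.t₁ : F))) (gb : Fb ≃+* Fb)
    (hred : ∀ a b : D.Z, (b : F) = H05.normAlong α (β (a : F)) →
      D.ρ b = gb (D.ρ a) * gb.symm (D.ρ a) ^ ℓ)
    {P : Place L F} (hP : C.GoodPl P) :
    C.HeckeAt gb ℓ (Divisor.correspondence β α hβ hα) P where
  exists_fam := by
    refine ⟨Place L F', Place.fiberAlong β hβ P, fun W => W.restrictAlong α hα,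
      fun W => Place.ramificationIndexAlong β W, corr_single α β hα hβ hdeg' P, ?_, ?_⟩
    · rw [sum_ram β hβ hdeg hdeg' hFI P, hrank]
    · intro W hW
      rw [Place.mem_fiberAlong] at hW
      rw [← hW] at hP
      exact goodPl_restrict α β hα hβ hαβ hP
  norm := by
    intro a ha ha0 hPa
    have h1 : IntOver A (C.t₁ : F) (H05.normAlong α (β (a : F))) :=
      ((hβα.trans (ha.map β))).normAlong α hfin
    refine ⟨⟨_, C.h₁.mem _ h1⟩, h1, ?_, hred _ _ rfl, ?_⟩
    · exact normAlong_ne_zero α hfin ((map_ne_zero_iff _ β.toRingHom.injective).mpr ha0)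
    · intro v hv
      exact norm_ord α β hα hβ hfin hN hβα ha ha0 hPa hv

end Corr

end Fermat.Agent.H28
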