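import Mathlib
import Fermat.Agent.H28.HeckeGen

set_option autoImplicit false
set_option linter.style.haveILetI false
set_option linter.unusedSectionVars false

/-! The reduction map on places. -/

noncomputable section

namespace Fermat.Agent.H28

open Module IsLocalRing IsDedekindDomain Polynomial AlgebraicCurve

section Ded

variable {K O F : Type*} [Field K] [CommRing O] [IsDedekindDomain O] [Algebra K O]
  [Field F] [Algebra O F] [IsFractionRing O F] [Algebra K F] [IsScalarTower K O F]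

theorem ordv_eq_ord (v : HeightOneSpectrum O) (f : F) :
    ordv F v f = (H18.placeOfPrime K F v).ord f := by
  rw [H18.ord_placeOfPrime, ordv]

theorem place_ext_ord {P Q : Place K F} (h : ∀ f, P.ord f = Q.ord f) : P = Q := by
  apply Place.ext
  ext f
  rw [H18.mem_iff, H18.mem_iff, h]

theorem deg_placeOfPrime {v : HeightOneSpectrum O} (hv : IsRat K v.asIdeal) :
    (H18.placeOfPrime K F v).deg = 1 := by
  have hw := H18.algebraMap_mem_placeOfPrime K F v
  have hc : H18.centerIdeal (H18.placeOfPrime K F v) hw = v.asIdeal := by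
    rw [← H18.center_asIdeal, H18.center_placeOfPrime]
  have h1 : Function.Surjective (algebraMap K (H18.placeOfPrime K F v).ResidueField) := by
    intro y
    obtain ⟨x, rfl⟩ := H18.residueMap_surjective (H18.placeOfPrime K F v) hw y
    obtain ⟨c, hc'⟩ := hv.2 x
    refine ⟨c, ?_⟩
    have h2 : H18.residueMap (H18.placeOfPrime K F v) hw (x - algebraMap K O c) = 0 := by
      rw [← RingHom.mem_ker, H18.residueMap_ker, hc]
      exact hc'
    rw [map_sub, sub_eq_zero, AlgHom.commutes] at h2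
    exact h2.symm
  change Module.finrank K (H18.placeOfPrime K F v).ResidueField = 1
  rw [finrank_eq_one_iff_of_nonzero' (1 : (H18.placeOfPrime K F v).ResidueField) one_ne_zero]
  intro w
  obtain ⟨c, hc⟩ := h1 w
  exact ⟨c, by rw [← hc, Algebra.algebraMap_eq_smul_one]⟩

theorem eq_placeOfPrime {Q : Place K F} (hQ : InChart O Q) :
    Q = H18.placeOfPrime K F (H18.center Q hQ) := (H18.placeOfPrime_center Q hQ).symm

end Ded

section Sub

variable {K F : Type*} [Field K] [Field F] [Algebra K F]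

theorem sub_mem_ctr_iff' {t : F} [IsDedekindDomain (CR K t)] [IsFractionRing (CR K t) F]
    {P : Place K F} (hP : InChart (CR K t) P) (x : CR K t) (c : K) :
    x - algebraMap K _ c ∈ ctr (CR K t) P ↔ (x : F) - algebraMap K F c = 0 ∨
      0 < P.ord ((x : F) - algebraMap K F c) := by
  by_cases h0 : x - algebraMap K (CR K t) c = 0
  · have h1 : (x : F) - algebraMap K F c = 0 := congrArg Subtype.val h0
    rw [h0]
    exact ⟨fun _ => Or.inl h1, fun _ => zero_mem _⟩
  · have h1 : (x : F) - algebraMap K F c ≠ 0 := fun h => h0 (Subtype.ext h)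
    rw [mem_ctr hP h0]
    exact ⟨fun h => Or.inr h, fun h => h.resolve_left h1⟩

end Sub

section Sys

variable {L : Type*} [Field L] {A : ValuationSubring L} {O Ob F : Type*}
  [CommRing O] [CommRing Ob] [IsDedekindDomain O] [IsDedekindDomain Ob] [Algebra L O]
  [Algebra (ResidueField A) Ob]
  [Field F] [Algebra O F] [IsFractionRing O F] [Algebra L F] [IsScalarTower L O F]
variable (S : RedSys A O Ob)

/-- the prime of the special fibre attached to a good place -/
def RedSys.primeOf (hrat : AllRat L O) {P : Place L F} (hP : InChart O P)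
    (hg : S.Good (ctr O P)) : HeightOneSpectrum Ob where
  asIdeal := S.bar (ctr O P)
  isPrime := (S.isRat_bar (isRat_ctr hrat hP) hg).isMaximal.isPrime
  ne_bot := S.bar_ne_bot (ctr_ne_bot P)

theorem RedSys.primeOf_asIdeal (hrat : AllRat L O) {P : Place L F} (hP : InChart O P)
    (hg : S.Good (ctr O P)) : (S.primeOf hrat hP hg).asIdeal = S.bar (ctr O P) := rfl

theorem RedSys.isRat_primeOf (hrat : AllRat L O) {P : Place L F} (hP : InChart O P)
    (hg : S.Good (ctr O P)) : IsRat (ResidueField A) (S.primeOf hrat hP hg).asIdeal :=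
  S.isRat_bar (isRat_ctr hrat hP) hg

theorem RedSys.mu_ctr (hrat : AllRat L O) {P : Place L F} (hP : InChart O P)
    (hg : S.Good (ctr O P)) (v : HeightOneSpectrum Ob) [Decidable (S.primeOf hrat hP hg = v)] :
    S.mu v (ctr O P) = if S.primeOf hrat hP hg = v then 1 else 0 := by
  rw [RedSys.mu, ← S.primeOf_asIdeal hrat hP hg]
  split_ifs with h
  · rw [h, mlt_self]
  · exact mlt_eq_zero_of_ne h

theorem RedSys.mu_ctr_of_not {P : Place L F} (h : ¬ (InChart O P ∧ S.Good (ctr O P)))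
    (v : HeightOneSpectrum Ob) : S.mu v (ctr O P) = 0 := by
  by_cases hP : InChart O P
  · have hg : ¬ S.Good (ctr O P) := fun hg => h ⟨hP, hg⟩
    rw [RedSys.mu, S.bar_eq_top_of_not_good hg, mlt_top]
  · rw [ctr_of_not hP, S.mu_top]

end Sys

variable {L : Type*} [Field L] [IsAlgClosed L] {A : ValuationSubring L} {F Fb : Type*}
  [Field F] [Field Fb] [Algebra L F] [Algebra (ResidueField A) Fb]

namespace TwoCharts

variable {D : RedData A F Fb} (C : TwoCharts D)

theorem tVal_of_not_good {P : Place L F} (h : ¬ C.GoodPl P) :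
    TVal (A := A) (tO L (C.t₂ : F)) P := by
  by_contra h'
  exact h (C.good_of_not_tVal h')

theorem good₂_of_not_good {P : Place L F} (h : ¬ C.GoodPl P) :
    C.h₂.sys.Good (ctr (CR L (C.t₂ : F)) P) := by
  obtain ⟨hch, c, hc, hcm⟩ := C.tVal_of_not_good h
  exact (C.h₂.good_iff (isRat_ctr C.rat₂ hch) hcm).mpr c.2

/-- the place attached to a prime of the first special chart -/
abbrev pl₁ (v : C.V₁) : Place (ResidueField A) Fb := H18.placeOfPrime (ResidueField A) Fb v

/-- the place attached to a prime of the second special chart -/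
abbrev pl₂ (v : C.V₂) : Place (ResidueField A) Fb := H18.placeOfPrime (ResidueField A) Fb v

open Classical in
/-- **The reduction map on places.** -/
def redPl (P : Place L F) : Place (ResidueField A) Fb :=
  if h : C.GoodPl P then
    C.pl₁ (C.h₁.sys.primeOf C.rat₁ (GoodPl.inChart C h) (GoodPl.good C h))
  else
    C.pl₂ (C.h₂.sys.primeOf C.rat₂ (C.tVal_of_not_good h).1 (C.good₂_of_not_good h))

theorem redPl_of_good {P : Place L F} (h : C.GoodPl P) : C.redPl P =
    C.pl₁ (C.h₁.sys.primeOf C.rat₁ (GoodPl.inChart C h) (GoodPl.good C h)) := dif_pos h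

theorem redPl_of_not {P : Place L F} (h : ¬ C.GoodPl P) : C.redPl P =
    C.pl₂ (C.h₂.sys.primeOf C.rat₂ (C.tVal_of_not_good h).1 (C.good₂_of_not_good h)) :=
  dif_neg h

theorem deg_redPl (P : Place L F) : (C.redPl P).deg = 1 := by
  by_cases h : C.GoodPl P
  · rw [C.redPl_of_good h]
    exact deg_placeOfPrime (C.h₁.sys.isRat_primeOf C.rat₁ _ _)
  · rw [C.redPl_of_not h]
    exact deg_placeOfPrime (C.h₂.sys.isRat_primeOf C.rat₂ _ _)

theorem ρt₁_mem_pl₁ (v : C.V₁) : D.ρ C.t₁ ∈ (C.pl₁ v).toValuationSubring :=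
  H18.algebraMap_mem_placeOfPrime (ResidueField A) Fb v (tO (ResidueField A) (D.ρ C.t₁))

theorem ρt₂_ne : D.ρ C.t₂ ≠ 0 := right_ne_zero_of_mul_eq_one C.ρ_mul_eq

theorem ρt₁_ne : D.ρ C.t₁ ≠ 0 := left_ne_zero_of_mul_eq_one C.ρ_mul_eq

theorem ord_ρt (Q : Place (ResidueField A) Fb) : Q.ord (D.ρ C.t₁) = - Q.ord (D.ρ C.t₂) := by
  have h := congrArg Q.ord C.ρ_mul_eq
  rw [Q.ord_mul C.ρt₁_ne C.ρt₂_ne, Q.ord_one] at h
  omega

theorem ord_ρt₂_pl₂ {v : C.V₂} (hv : C.tb₂ ∈ v.asIdeal) : 0 < (C.pl₂ v).ord (D.ρ C.t₂) :=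
  (H18.ord_placeOfPrime_pos_iff (ResidueField A) Fb v C.tb₂_ne_zero).mpr hv

theorem ρt₁_notMem_pl₂ {v : C.V₂} (hv : C.tb₂ ∈ v.asIdeal) :
    D.ρ C.t₁ ∉ (C.pl₂ v).toValuationSubring := by
  intro h
  have h1 := H18.ord_nonneg_of_mem _ h
  rw [C.ord_ρt] at h1
  have := C.ord_ρt₂_pl₂ hv
  omega

theorem pl₁_injective {v w : C.V₁} (h : C.pl₁ v = C.pl₁ w) : v = w :=
  H18.placeOfPrime_injective (K := ResidueField A) (F := Fb) (R := CR (ResidueField A) (D.ρ C.t₁)) h

theorem pl₂_injective {v w : C.V₂} (h : C.pl₂ v = C.pl₂ w) : v = w :=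
  H18.placeOfPrime_injective (K := ResidueField A) (F := Fb) (R := CR (ResidueField A) (D.ρ C.t₂)) h

theorem pl₁_ne_pl₂ {v : C.V₁} {w : C.V₂} (hw : C.tb₂ ∈ w.asIdeal) : C.pl₁ v ≠ C.pl₂ w := by
  intro h
  apply C.ρt₁_notMem_pl₂ hw
  rw [← h]
  exact C.ρt₁_mem_pl₁ v

/-- every place of the special fibre comes from one of the two charts -/
theorem exists_pl (Q : Place (ResidueField A) Fb) :
    (∃ v : C.V₁, Q = C.pl₁ v) ∨ ∃ v : C.V₂, C.tb₂ ∈ v.asIdeal ∧ Q = C.pl₂ v := by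
  by_cases h : D.ρ C.t₁ ∈ Q.toValuationSubring
  · left
    exact ⟨_, eq_placeOfPrime ((inChart_iff (t := D.ρ C.t₁) Q).mpr h)⟩
  · right
    have h1 : Q.ord (D.ρ C.t₁) < 0 := by
      by_contra h'
      exact h (H18.mem_of_ord_nonneg Q (by omega))
    have h2 : 0 < Q.ord (D.ρ C.t₂) := by
      have := C.ord_ρt Q
      omega
    have h3 : D.ρ C.t₂ ∈ Q.toValuationSubring := H18.mem_of_ord_nonneg Q h2.le
    have hch : InChart (CR (ResidueField A) (D.ρ C.t₂)) Q := (inChart_iff (t := D.ρ C.t₂) Q).mpr h3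
    refine ⟨H18.center Q hch, ?_, eq_placeOfPrime hch⟩
    rw [← ctr_of hch, mem_ctr hch C.tb₂_ne_zero]
    exact h2

theorem tb₂_mem_primeOf {P : Place L F} (h : ¬ C.GoodPl P) :
    C.tb₂ ∈ (C.h₂.sys.primeOf C.rat₂ (C.tVal_of_not_good h).1
      (C.good₂_of_not_good h)).asIdeal := by
  rw [RedSys.primeOf_asIdeal, ← C.sys_ρ_tR₂]
  exact C.h₂.sys.rho_mem_bar_of_tVal (t := C.tR₂) (C.tVal_of_not_good h)

theorem goodPl_of_good₁ {P : Place L F} (hch : InChart (CR L (C.t₁ : F)) P)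
    (hg : C.h₁.sys.Good (ctr (CR L (C.t₁ : F)) P)) : C.GoodPl P := by
  refine ⟨(inChart_iff P).mp hch, ?_⟩
  obtain ⟨c, hc⟩ := (isRat_ctr C.rat₁ hch).2 (tO L (C.t₁ : F))
  exact ⟨c, (C.h₁.good_iff (isRat_ctr C.rat₁ hch) hc).mp hg, (sub_mem_ctr_iff hch _ c).mp hc⟩

theorem mapDomain_pl₁ (v : C.V₁) (E : Divisor L F) :
    Finsupp.mapDomain C.redPl E (C.pl₁ v) = C.h₁.sys.theta L F v E := by
  classical
  induction E using Finsupp.induction with
  | zero => rw [Finsupp.mapDomain_zero, map_zero]; rfl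
  | single_add P n E _ _ ih =>
    rw [Finsupp.mapDomain_add, Finsupp.add_apply, ih, map_add, Finsupp.mapDomain_single,
      C.h₁.sys.theta_single]
    congr 1
    by_cases h : C.GoodPl P
    · rw [C.h₁.sys.mu_ctr C.rat₁ (GoodPl.inChart C h) (GoodPl.good C h), C.redPl_of_good h,
        Finsupp.single_apply]
      by_cases h2 : C.h₁.sys.primeOf C.rat₁ (GoodPl.inChart C h) (GoodPl.good C h) = v
      · rw [if_pos (by rw [h2]), if_pos h2, Nat.cast_one, mul_one]
      · rw [if_neg (fun h3 => h2 (C.pl₁_injective h3)), if_neg h2, Nat.cast_zero, mul_zero]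
    · rw [C.h₁.sys.mu_ctr_of_not (fun h' => h (C.goodPl_of_good₁ h'.1 h'.2)), Nat.cast_zero,
        mul_zero, Finsupp.single_apply, if_neg]
      rw [C.redPl_of_not h]
      exact (C.pl₁_ne_pl₂ (C.tb₂_mem_primeOf h)).symm

theorem mapDomain_pl₂ {v : C.V₂} (hv : C.tb₂ ∈ v.asIdeal) (E : Divisor L F) :
    Finsupp.mapDomain C.redPl E (C.pl₂ v) = C.h₂.sys.theta L F v E := by
  classical
  induction E using Finsupp.induction with
  | zero => rw [Finsupp.mapDomain_zero, map_zero]; rfl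
  | single_add P n E _ _ ih =>
    rw [Finsupp.mapDomain_add, Finsupp.add_apply, ih, map_add, Finsupp.mapDomain_single,
      C.h₂.sys.theta_single]
    congr 1
    by_cases h : C.GoodPl P
    · rw [C.h₂.sys.mu_eq_zero_of_not_tVal C.rat₂ (t := C.tR₂)
        (by rw [C.sys_ρ_tR₂]; exact hv) (C.not_tVal_of_good h), Nat.cast_zero, mul_zero,
        Finsupp.single_apply, if_neg]
      rw [C.redPl_of_good h]
      exact C.pl₁_ne_pl₂ hv
    · rw [C.h₂.sys.mu_ctr C.rat₂ (C.tVal_of_not_good h).1 (C.good₂_of_not_good h),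
        C.redPl_of_not h, Finsupp.single_apply]
      by_cases h2 : C.h₂.sys.primeOf C.rat₂ (C.tVal_of_not_good h).1 (C.good₂_of_not_good h) = v
      · rw [if_pos (by rw [h2]), if_pos h2, Nat.cast_one, mul_one]
      · rw [if_neg (fun h3 => h2 (C.pl₂_injective h3)), if_neg h2, Nat.cast_zero, mul_zero]

/-- `E` reduces to the divisor of `g` iff its image under the place map is the divisor of `g` -/
theorem redTo_iff {E : Divisor L F} {g : Fb} :
    C.RedTo E g ↔ ∀ Q, Finsupp.mapDomain C.redPl E Q = Q.ord g := by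
  constructor
  · rintro ⟨h1, h2⟩ Q
    rcases C.exists_pl Q with ⟨v, rfl⟩ | ⟨v, hv, rfl⟩
    · rw [C.mapDomain_pl₁, h1 v, ordv_eq_ord (K := ResidueField A)]
    · rw [C.mapDomain_pl₂ hv, h2 v hv, ordv_eq_ord (K := ResidueField A)]
  · intro h
    refine ⟨fun v => ?_, fun v hv => ?_⟩
    · rw [← C.mapDomain_pl₁, h, ordv_eq_ord (K := ResidueField A)]
    · rw [← C.mapDomain_pl₂ hv, h, ordv_eq_ord (K := ResidueField A)]

/-- the kernel of reduction in terms of the place map -/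
theorem mem_KDiv_iff {E : Divisor L F} :
    E ∈ C.KDiv ↔ Finsupp.mapDomain C.redPl E ∈
      Divisor.principal (K := ResidueField A) (F := Fb) := by
  constructor
  · rintro ⟨g, hg, h⟩
    exact ⟨g, hg, C.redTo_iff.mp h⟩
  · rintro ⟨g, hg, h⟩
    exact ⟨g, hg, C.redTo_iff.mpr h⟩

/-- divisors of functions reduce to the divisor of the reduction -/
theorem mapDomain_div (f : D.Z) (hf : D.ρ f ≠ 0) {E : Divisor L F}
    (hE : ∀ P, E P = P.ord (f : F)) (Q : Place (ResidueField A) Fb) :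
    Finsupp.mapDomain C.redPl E Q = Q.ord (D.ρ f) := by
  have h := C.redTo_div hE one_ne_zero (a := f) (b := 1) hf (by rw [map_one]; exact one_ne_zero)
    (by rw [map_one, OneMemClass.coe_one, mul_one, one_mul])
  rw [map_one, inv_one, mul_one] at h
  exact C.redTo_iff.mp h Q

/-- fractions of reductions of functions integral over `A[t₁]` -/
theorem exists_frac_ρ (y : Fb) : ∃ a b : D.Z, IntOver A (C.t₁ : F) (a : F) ∧
    IntOver A (C.t₁ : F) (b : F) ∧ D.ρ b ≠ 0 ∧ y = D.ρ a / D.ρ b := by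
  obtain ⟨p, q, hq, hpq⟩ := IsFractionRing.div_surjective
    (A := CR (ResidueField A) (D.ρ C.t₁)) y
  have hq0 : q ≠ 0 := nonZeroDivisors.ne_zero hq
  obtain ⟨a, ha, hap⟩ := C.h₁.red_surj (p : Fb) p.2
  obtain ⟨b, hb, hbq⟩ := C.h₁.red_surj (q : Fb) q.2
  refine ⟨⟨a, C.h₁.mem a ha⟩, ⟨b, C.h₁.mem b hb⟩, ha, hb, ?_, ?_⟩
  · rw [hbq]
    exact fun h => hq0 (Subtype.ext h)
  · rw [hap, hbq, ← hpq]
    rfl

/-- **The place map is surjective.** -/
theorem redPl_surjective [HasPrincipalDivisors L F] : Function.Surjective C.redPl := by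
  classical
  intro Q
  obtain ⟨y, hy0, hy⟩ := H18.exists_ord_eq_one Q
  obtain ⟨a, b, -, -, hb, rfl⟩ := C.exists_frac_ρ y
  have ha : D.ρ a ≠ 0 := by
    intro h
    rw [h, zero_div] at hy0
    exact hy0 rfl
  have key : ∀ f : D.Z, D.ρ f ≠ 0 → Q.ord (D.ρ f) ≠ 0 → ∃ P, C.redPl P = Q := by
    intro f hf hne
    have hf0 : (f : F) ≠ 0 := by
      intro h0
      apply hf
      have : f = 0 := Subtype.ext h0
      rw [this, map_zero]
    obtain ⟨E, hE, -⟩ := HasPrincipalDivisors.exists_divisor (K := L) (f : F) hf0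
    rw [← C.mapDomain_div f hf hE Q, ← Finsupp.mem_support_iff] at hne
    have h1 := Finsupp.mapDomain_support hne
    obtain ⟨P, -, hP⟩ := Finset.mem_image.mp h1
    exact ⟨P, hP⟩
  by_cases h : Q.ord (D.ρ a) = 0
  · refine key b hb ?_
    rw [div_eq_mul_inv, Q.ord_mul ha (inv_ne_zero hb), Q.ord_inv, h] at hy
    omega
  · exact key a ha h

/-- values of chart functions are compatible with reduction -/
theorem hasVal_redPl {P : Place L F} (h : C.GoodPl P) {x : D.Z} (hx : IntOver A (C.t₁ : F) (x : F))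
    {c : L} (hc : c ∈ A) (hv : HasVal P (x : F) c) :
    HasVal (C.redPl P) (D.ρ x) (residue A ⟨c, hc⟩) := by
  have hch := GoodPl.inChart C h
  let xR : C.h₁.sys.R := ⟨⟨(x : F), hx.isIntegral⟩, hx⟩
  have h1 : (xR : CR L (C.t₁ : F)) - algebraMap L _ c ∈ ctr (CR L (C.t₁ : F)) P :=
    (sub_mem_ctr_iff hch _ c).mpr hv
  have h2 : C.h₁.sys.ρ (xR - C.h₁.sys.incl ⟨c, hc⟩) ∈ C.h₁.sys.bar (ctr _ P) :=
    C.h₁.sys.ρ_mem_bar h1
  rw [map_sub, C.h₁.sys.ρ_incl, ← C.h₁.sys.primeOf_asIdeal C.rat₁ hch (GoodPl.good C h)] at h2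
  rw [C.redPl_of_good h]
  have hch2 : InChart (CR (ResidueField A) (D.ρ C.t₁)) (C.pl₁ (C.h₁.sys.primeOf C.rat₁ hch
    (GoodPl.good C h))) := inChart_placeOfPrime _
  rw [← center_placeOfPrime (L := ResidueField A) (F := Fb) _ hch2, ← ctr_of hch2,
    sub_mem_ctr_iff' hch2] at h2
  exact h2

theorem hasVal_redPl₂ {P : Place L F} (h : ¬ C.GoodPl P) {x : D.Z}
    (hx : IntOver A (C.t₂ : F) (x : F))
    {c : L} (hc : c ∈ A) (hv : HasVal P (x : F) c) :
    HasVal (C.redPl P) (D.ρ x) (residue A ⟨c, hc⟩) := by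
  have hch := (C.tVal_of_not_good h).1
  let xR : C.h₂.sys.R := ⟨⟨(x : F), hx.isIntegral⟩, hx⟩
  have h1 : (xR : CR L (C.t₂ : F)) - algebraMap L _ c ∈ ctr (CR L (C.t₂ : F)) P :=
    (sub_mem_ctr_iff hch _ c).mpr hv
  have h2 : C.h₂.sys.ρ (xR - C.h₂.sys.incl ⟨c, hc⟩) ∈ C.h₂.sys.bar (ctr _ P) :=
    C.h₂.sys.ρ_mem_bar h1
  rw [map_sub, C.h₂.sys.ρ_incl,
    ← C.h₂.sys.primeOf_asIdeal C.rat₂ hch (C.good₂_of_not_good h)] at h2
  rw [C.redPl_of_not h]
  have hch2 : InChart (CR (ResidueField A) (D.ρ C.t₂)) (C.pl₂ (C.h₂.sys.primeOf C.rat₂ hch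
    (C.good₂_of_not_good h))) := inChart_placeOfPrime _
  rw [← center_placeOfPrime (L := ResidueField A) (F := Fb) _ hch2, ← ctr_of hch2,
    sub_mem_ctr_iff' hch2] at h2
  exact h2

variable {C}

/-- the semilinear automorphism of the special fibre -/
def RedAut.gB {g : SemilinearAut L F} {gb : Fb ≃+* Fb}
    {σb : ResidueField A ≃+* ResidueField A} (h : C.RedAut g gb σb) :
    SemilinearAut (ResidueField A) Fb := ⟨(gb, σb), h.alg⟩

theorem RedAut.gB_smul {g : SemilinearAut L F} {gb : Fb ≃+* Fb}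
    {σb : ResidueField A ≃+* ResidueField A} (h : C.RedAut g gb σb) (y : Fb) :
    h.gB • y = gb y := rfl

theorem RedAut.pl₁_mapPrime {g : SemilinearAut L F} {gb : Fb ≃+* Fb}
    {σb : ResidueField A ≃+* ResidueField A} (h : C.RedAut g gb σb) (v : C.V₁) :
    C.pl₁ (mapPrime h.eb₁.symm v) = h.gB⁻¹ • C.pl₁ v := by
  apply place_ext_ord
  intro f
  by_cases hf : f = 0
  · rw [hf, Place.ord_zero, Place.ord_zero]
  have h1 : (C.pl₁ (mapPrime h.eb₁.symm v)).ord f = (C.pl₁ v).ord (gb f) := by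
    rw [← ordv_eq_ord, ← ordv_eq_ord]
    exact ordv_mapPrime gb σb h.alg h.fixb₁ v hf
  have h2 := SemilinearAut.ord_smul h.gB (h.gB⁻¹ • C.pl₁ v) f
  rw [smul_inv_smul] at h2
  rw [h1, ← h2]
  rfl

theorem RedAut.pl₂_mapPrime {g : SemilinearAut L F} {gb : Fb ≃+* Fb}
    {σb : ResidueField A ≃+* ResidueField A} (h : C.RedAut g gb σb) (v : C.V₂) :
    C.pl₂ (mapPrime h.eb₂.symm v) = h.gB⁻¹ • C.pl₂ v := by
  apply place_ext_ord
  intro f
  by_cases hf : f = 0
  · rw [hf, Place.ord_zero, Place.ord_zero]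
  have h1 : (C.pl₂ (mapPrime h.eb₂.symm v)).ord f = (C.pl₂ v).ord (gb f) := by
    rw [← ordv_eq_ord, ← ordv_eq_ord]
    exact ordv_mapPrime gb σb h.alg h.fixb₂ v hf
  have h2 := SemilinearAut.ord_smul h.gB (h.gB⁻¹ • C.pl₂ v) f
  rw [smul_inv_smul] at h2
  rw [h1, ← h2]
  rfl

theorem RedAut.tb₂_mem_mapPrime {g : SemilinearAut L F} {gb : Fb ≃+* Fb}
    {σb : ResidueField A ≃+* ResidueField A} (h : C.RedAut g gb σb) {v : C.V₂}
    (hv : C.tb₂ ∈ v.asIdeal) : C.tb₂ ∈ (mapPrime h.eb₂.symm v).asIdeal := by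
  change h.eb₂.symm.symm C.tb₂ ∈ v.asIdeal
  have h1 : h.eb₂.symm.symm C.tb₂ = C.tb₂ := crEquiv_tO gb σb h.alg h.fixb₂
  rw [h1]
  exact hv

/-- **The place map is Galois equivariant.** -/
theorem RedAut.redPl_smul {g : SemilinearAut L F} {gb : Fb ≃+* Fb}
    {σb : ResidueField A ≃+* ResidueField A} (h : C.RedAut g gb σb) (P : Place L F) :
    C.redPl (g • P) = h.gB • C.redPl P := by
  classical
  have key : ∀ (E : Divisor L F) (Q : Place (ResidueField A) Fb),
      Finsupp.mapDomain C.redPl (g • E) Q = Finsupp.mapDomain C.redPl E (h.gB⁻¹ • Q) := by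
    intro E Q
    rcases C.exists_pl Q with ⟨v, rfl⟩ | ⟨v, hv, rfl⟩
    · rw [C.mapDomain_pl₁, ← h.pl₁_mapPrime, C.mapDomain_pl₁]
      exact h.equi₁.theta_smul v E
    · rw [C.mapDomain_pl₂ hv, ← h.pl₂_mapPrime, C.mapDomain_pl₂ (h.tb₂_mem_mapPrime hv)]
      exact h.equi₂.theta_smul v E
  have h1 := key (Finsupp.single P 1) (C.redPl (g • P))
  rw [SemilinearAut.smul_single, Finsupp.mapDomain_single, Finsupp.mapDomain_single,
    Finsupp.single_eq_same, Finsupp.single_apply] at h1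
  by_cases h2 : C.redPl P = h.gB⁻¹ • C.redPl (g • P)
  · rw [h2, smul_inv_smul]
  · rw [if_neg h2] at h1
    exact absurd h1 one_ne_zero

end TwoCharts

end Fermat.Agent.H28
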