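import Mathlib
import Fermat.Agent.H28.ChartMk
import Fermat.Prelude.Def_ModularCurve_ReductionModL

set_option autoImplicit false
set_option linter.style.haveILetI false
set_option linter.unusedSectionVars false

/-! The reduction data of the modular function field of level `N`. -/

noncomputable section

namespace Fermat.Agent.H28

open Module IsLocalRing IsDedekindDomain Polynomial ModularCurve

theorem coeffMap_injective {R S : Type*} [CommRing R] [CommRing S] (f : R →+* S)
    (hf : Function.Injective f) : Function.Injective (coeffMap f) := by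
  intro x y h
  ext k
  apply hf
  rw [← coeffMap_coeff, ← coeffMap_coeff, h]

section Gen

variable {L : Type*} [Field L] (A : ValuationSubring L)
  (F : IntermediateField L (LaurentSeries L))
  (Fb : IntermediateField (ResidueField A) (LaurentSeries (ResidueField A)))

/-- Laurent series with coefficients in `A` which belong to `F` and whose reduction belongs
to `Fb` -/
def intFun : Subring (LaurentSeries A) where
  carrier := {y | coeffMap A.subtype y ∈ F ∧ coeffMap (residue A) y ∈ Fb}
  mul_mem' := fun {x y} hx hy => by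
    change _ ∧ _
    rw [map_mul, map_mul]
    exact ⟨mul_mem hx.1 hy.1, mul_mem hx.2 hy.2⟩
  one_mem' := by
    change _ ∧ _
    rw [map_one, map_one]
    exact ⟨one_mem _, one_mem _⟩
  add_mem' := fun {x y} hx hy => by
    change _ ∧ _
    rw [map_add, map_add]
    exact ⟨add_mem hx.1 hy.1, add_mem hx.2 hy.2⟩
  zero_mem' := by
    change _ ∧ _
    rw [map_zero, map_zero]
    exact ⟨zero_mem _, zero_mem _⟩
  neg_mem' := fun {x} hx => by
    change _ ∧ _
    rw [map_neg, map_neg]
    exact ⟨neg_mem hx.1, neg_mem hx.2⟩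

variable {A F Fb}

/-- the function in `F` attached to an integral series -/
def intEmb : intFun A F Fb →+* F where
  toFun y := ⟨coeffMap A.subtype (y : LaurentSeries A), y.2.1⟩
  map_one' := Subtype.ext (map_one (coeffMap A.subtype))
  map_mul' x y := Subtype.ext (map_mul (coeffMap A.subtype) (x : LaurentSeries A) y)
  map_zero' := Subtype.ext (map_zero (coeffMap A.subtype))
  map_add' x y := Subtype.ext (map_add (coeffMap A.subtype) (x : LaurentSeries A) y)

/-- the reduction of an integral series -/
def intRed : intFun A F Fb →+* Fb where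
  toFun y := ⟨coeffMap (residue A) (y : LaurentSeries A), y.2.2⟩
  map_one' := Subtype.ext (map_one (coeffMap (residue A)))
  map_mul' x y := Subtype.ext (map_mul (coeffMap (residue A)) (x : LaurentSeries A) y)
  map_zero' := Subtype.ext (map_zero (coeffMap (residue A)))
  map_add' x y := Subtype.ext (map_add (coeffMap (residue A)) (x : LaurentSeries A) y)

theorem intEmb_injective : Function.Injective (intEmb : intFun A F Fb →+* F) := by
  intro x y h
  apply Subtype.ext
  apply coeffMap_injective A.subtype Subtype.val_injective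
  exact congrArg Subtype.val h

/-- the ring of integral functions is isomorphic to its image -/
def intEquiv : intFun A F Fb ≃+* (intEmb : intFun A F Fb →+* F).range :=
  RingEquiv.ofBijective (intEmb : intFun A F Fb →+* F).rangeRestrict
    ⟨fun x y h => intEmb_injective (congrArg Subtype.val h),
      (intEmb : intFun A F Fb →+* F).rangeRestrict_surjective⟩

theorem coeffMap_C {R S : Type*} [CommRing R] [CommRing S] (f : R →+* S) (a : R) :
    coeffMap f (HahnSeries.single 0 a) = HahnSeries.single 0 (f a) := coeffMap_single f 0 a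

theorem alg_mem_intFun (a : A) : (HahnSeries.single 0 a : LaurentSeries A) ∈ intFun A F Fb := by
  change _ ∧ _
  rw [coeffMap_C, coeffMap_C, ← algebraMap_laurentSeries_eq_single,
    ← algebraMap_laurentSeries_eq_single]
  exact ⟨F.algebraMap_mem _, Fb.algebraMap_mem _⟩

theorem intEmb_alg (a : A) : intEmb (⟨_, alg_mem_intFun a⟩ : intFun A F Fb) =
    algebraMap L F a := by
  apply Subtype.ext
  have h1 : ((intEmb (⟨_, alg_mem_intFun a⟩ : intFun A F Fb) : F) : LaurentSeries L) =
      coeffMap A.subtype (HahnSeries.single 0 a) := rfl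
  rw [h1, coeffMap_C, ← algebraMap_laurentSeries_eq_single]
  rfl

theorem intRed_alg (a : A) : intRed (⟨_, alg_mem_intFun a⟩ : intFun A F Fb) =
    algebraMap (ResidueField A) Fb (residue A a) := by
  apply Subtype.ext
  have h1 : ((intRed (⟨_, alg_mem_intFun a⟩ : intFun A F Fb) : Fb) :
      LaurentSeries (ResidueField A)) = coeffMap (residue A) (HahnSeries.single 0 a) := rfl
  rw [h1, coeffMap_C, ← algebraMap_laurentSeries_eq_single]
  rfl

/-- reduction on the ring of integral functions -/
def laurentRho : (intEmb : intFun A F Fb →+* F).range →+* Fb :=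
  (intRed : intFun A F Fb →+* Fb).comp (intEquiv : intFun A F Fb ≃+* _).symm.toRingHom

theorem laurentRho_apply (y : intFun A F Fb)
    (h : intEmb y ∈ (intEmb : intFun A F Fb →+* F).range) :
    laurentRho ⟨intEmb y, h⟩ = intRed y := by
  have h1 : (intEquiv : intFun A F Fb ≃+* _) y = ⟨intEmb y, h⟩ := rfl
  rw [← h1]
  change intRed ((intEquiv : intFun A F Fb ≃+* _).symm _) = _
  rw [RingEquiv.symm_apply_apply]

variable (A F Fb) in
/-- the reduction data of a subfield of `L((q))` -/
def laurentRed : RedData A F Fb where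
  Z := (intEmb : intFun A F Fb →+* F).range
  ρ := laurentRho
  alg_mem a := ⟨⟨_, alg_mem_intFun a⟩, intEmb_alg a⟩
  ρ_alg a := by
    rw [← intRed_alg, ← laurentRho_apply _ ⟨_, rfl⟩]
    congr 1
    exact Subtype.ext (intEmb_alg a).symm

theorem mem_laurentRed {f : F} : f ∈ (laurentRed A F Fb).Z ↔
    ∃ y : LaurentSeries A, coeffMap A.subtype y = (f : LaurentSeries L) ∧
      coeffMap (residue A) y ∈ Fb := by
  constructor
  · rintro ⟨⟨y, hy⟩, rfl⟩
    exact ⟨y, rfl, hy.2⟩
  · rintro ⟨y, hy, hy2⟩
    refine ⟨⟨y, ?_, hy2⟩, Subtype.ext hy⟩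
    rw [hy]; exact f.2

theorem laurentRed_ρ (x : (laurentRed A F Fb).Z) {y : LaurentSeries A}
    (hy : coeffMap A.subtype y = ((x : F) : LaurentSeries L)) :
    ((laurentRed A F Fb).ρ x : LaurentSeries (ResidueField A)) = coeffMap (residue A) y := by
  obtain ⟨f, hf⟩ := x
  obtain ⟨⟨z, hz⟩, rfl⟩ := hf
  have hyz : y = z := by
    apply coeffMap_injective A.subtype Subtype.val_injective
    rw [hy]
    rfl
  subst hyz
  have h := laurentRho_apply (⟨y, hz⟩ : intFun A F Fb) ⟨_, rfl⟩
  exact congrArg Subtype.val h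

end Gen

section JInv

variable (R : Type*) [CommRing R]

/-- the inverse of `j` -/
def jqInv : LaurentSeries R :=
  HahnSeries.single 1 1 * HahnSeries.ofPowerSeries ℤ R
    (PowerSeries.invOfUnit (jNum.map (Int.castRingHom R)) 1)

theorem constantCoeff_jNum_map :
    PowerSeries.constantCoeff (jNum.map (Int.castRingHom R)) = ((1 : Rˣ) : R) := by
  have h := coeff_jqModC_neg_one R
  rw [jqModC] at h
  have h2 : ((HahnSeries.single (-1 : ℤ) (1 : R)) * HahnSeries.ofPowerSeries ℤ R
      (jNum.map (Int.castRingHom R))).coeff (-1 + 0) = (HahnSeries.ofPowerSeries ℤ R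
      (jNum.map (Int.castRingHom R))).coeff 0 * 1 := by
    rw [add_comm, HahnSeries.coeff_single_mul_add, mul_comm]
  rw [add_zero, h, mul_one] at h2
  have h3 : (HahnSeries.ofPowerSeries ℤ R (jNum.map (Int.castRingHom R))).coeff ((0 : ℕ) : ℤ) =
      PowerSeries.coeff 0 (jNum.map (Int.castRingHom R)) :=
    HahnSeries.ofPowerSeries_apply_coeff _ 0
  rw [Nat.cast_zero, ← h2] at h3
  rw [Units.val_one, h3, PowerSeries.coeff_zero_eq_constantCoeff]

theorem jqModC_mul_jqInv : jqModC R * jqInv R = 1 := by
  rw [jqModC, jqInv]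
  have h1 : (jNum.map (Int.castRingHom R)) *
      PowerSeries.invOfUnit (jNum.map (Int.castRingHom R)) 1 = 1 :=
    PowerSeries.mul_invOfUnit _ _ (constantCoeff_jNum_map R)
  calc _ = (HahnSeries.single (-1 : ℤ) (1 : R) * HahnSeries.single 1 1) *
      (HahnSeries.ofPowerSeries ℤ R ((jNum.map (Int.castRingHom R)) *
        PowerSeries.invOfUnit (jNum.map (Int.castRingHom R)) 1)) := by
        rw [map_mul]; ring
    _ = 1 := by
        rw [h1, map_one (HahnSeries.ofPowerSeries ℤ R), HahnSeries.single_mul_single,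
          neg_add_cancel, mul_one, mul_one]
        rfl

theorem jqInv_eq_inv (K : Type*) [Field K] : jqInv K = (jqModC K)⁻¹ :=
  eq_inv_of_mul_eq_one_right (jqModC_mul_jqInv K)

theorem coeffMap_jqInv {S : Type*} [CommRing S] (f : R →+* S) :
    coeffMap f (jqInv R) = jqInv S := by
  have h1 : jqModC S * coeffMap f (jqInv R) = 1 := by
    rw [← coeffMap_jqModC f, ← map_mul, jqModC_mul_jqInv, map_one]
  have h2 := jqModC_mul_jqInv S
  calc coeffMap f (jqInv R) = (jqModC S * jqInv S) * coeffMap f (jqInv R) := by rw [h2, one_mul]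
    _ = (jqModC S * coeffMap f (jqInv R)) * jqInv S := by ring
    _ = jqInv S := by rw [h1, one_mul]

end JInv

section Mod

variable (N : ℕ) (A : ValuationSubring (AlgebraicClosure ℚ))

/-- the reduction data of the modular function field -/
abbrev modRed : RedData A (modularFunctionFieldBar N)
    (modularFunctionFieldFullC (ResidueField A) N) :=
  laurentRed A (modularFunctionFieldBar N) (modularFunctionFieldFullC (ResidueField A) N)

theorem jq_mem_bar : jqModC (AlgebraicClosure ℚ) ∈ modularFunctionFieldBar N := by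
  have h1 : coeffEmb (AlgebraicClosure ℚ) (jqModC ℚ) = jqModC (AlgebraicClosure ℚ) :=
    coeffMap_jqModC (algebraMap ℚ (AlgebraicClosure ℚ))
  rw [← h1]
  apply coeffEmb_mem_laurentBaseChange
  rw [← modularFunctionFieldFullC_rat]
  exact jqModC_mem_full ℚ N

/-- `j` as a function -/
def jBar : modularFunctionFieldBar N := ⟨jqModC (AlgebraicClosure ℚ), jq_mem_bar N⟩

theorem jBar_mem : jBar N ∈ (modRed N A).Z := by
  rw [mem_laurentRed]
  refine ⟨jqModC A, coeffMap_jqModC A.subtype, ?_⟩
  rw [coeffMap_jqModC]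
  exact jqModC_mem_full _ N

/-- `j` as an integral function -/
def jZ : (modRed N A).Z := ⟨jBar N, jBar_mem N A⟩

theorem ρ_jZ : ((modRed N A).ρ (jZ N A) : LaurentSeries (ResidueField A)) =
    jqModC (ResidueField A) := by
  rw [laurentRed_ρ (jZ N A) (y := jqModC A) (coeffMap_jqModC A.subtype), coeffMap_jqModC]

theorem jBar_inv_mem : (jBar N)⁻¹ ∈ (modRed N A).Z := by
  rw [mem_laurentRed]
  refine ⟨jqInv A, ?_, ?_⟩
  · rw [coeffMap_jqInv, jqInv_eq_inv]
    rfl
  · rw [coeffMap_jqInv, jqInv_eq_inv]
    exact inv_mem (jqModC_mem_full _ N)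

/-- `1 / j` as an integral function -/
def jinvZ : (modRed N A).Z := ⟨(jBar N)⁻¹, jBar_inv_mem N A⟩

theorem coe_jZ : ((jZ N A : (modRed N A).Z) : modularFunctionFieldBar N) = jBar N := rfl

theorem coe_jinvZ : ((jinvZ N A : (modRed N A).Z) : modularFunctionFieldBar N) = (jBar N)⁻¹ := rfl

theorem jBar_ne_zero : jBar N ≠ 0 := by
  intro h
  exact jqModC_ne_zero_of_nontrivial (AlgebraicClosure ℚ) (congrArg Subtype.val h)

theorem jZ_mul_jinvZ : ((jZ N A : (modRed N A).Z) : modularFunctionFieldBar N) *
    ((jinvZ N A : (modRed N A).Z) : modularFunctionFieldBar N) = 1 :=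
  mul_inv_cancel₀ (jBar_ne_zero N)

theorem ρ_jinvZ : ((modRed N A).ρ (jinvZ N A) : LaurentSeries (ResidueField A)) =
    (jqModC (ResidueField A))⁻¹ := by
  rw [laurentRed_ρ (jinvZ N A) (y := jqInv A), coeffMap_jqInv, jqInv_eq_inv]
  rw [coeffMap_jqInv, jqInv_eq_inv]
  rfl

end Mod

end Fermat.Agent.H28
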