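import Mathlib
import Fermat.Agent.H28.TwoCharts
import Fermat.Agent.H28.ModRed
import Fermat.Agent.H05.HeckeInputs

set_option autoImplicit false
set_option linter.style.haveILetI false
set_option linter.unusedSectionVars false

/-! The two charts `j` and `1 / j` of the modular curve. -/

noncomputable section

namespace Fermat.Agent.H28

open Module IsLocalRing IsDedekindDomain Polynomial ModularCurve IntermediateField
open Fermat.Agent.H05 (AlgOver)

section Gen

variable {K F : Type*} [Field K] [Field F] [Algebra K F]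

open scoped IntermediateField.algebraAdjoinAdjoin in
theorem isAlgebraic_adjoin_of_algOver (t : F) (h : ∀ y : F, AlgOver K t y) :
    Algebra.IsAlgebraic (Algebra.adjoin K {t}) F := by
  haveI : Algebra.IsAlgebraic K⟮t⟯ F := ⟨h⟩
  exact (IsFractionRing.comap_isAlgebraic_iff (A := Algebra.adjoin K {t}) (K := K⟮t⟯)
    (C := F)).mpr inferInstance

theorem algOver_inv (t : F) (y : F) (h : AlgOver K t y) : AlgOver K t⁻¹ y := by
  have h1 : AlgOver K t⁻¹ t := by
    have h2 : t ∈ K⟮t⁻¹⟯ := by
      have h3 := inv_mem (mem_adjoin_simple_self K t⁻¹)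
      rwa [inv_inv] at h3
    exact isAlgebraic_algebraMap (⟨t, h2⟩ : K⟮t⁻¹⟯)
  exact h1.trans h

end Gen

section Mod

variable (N : ℕ) [NeZero N] (A : ValuationSubring (AlgebraicClosure ℚ))

theorem algOver_jBar (y : modularFunctionFieldBar N) :
    AlgOver (AlgebraicClosure ℚ) (jBar N) y := by
  apply H05.algOver_bc (AlgebraicClosure ℚ) 1 (N := N) (jBar N) y
  rw [qExpand_one_apply]
  rfl

theorem isAlgebraic_jBar :
    Algebra.IsAlgebraic (Algebra.adjoin (AlgebraicClosure ℚ) {jBar N})
      (modularFunctionFieldBar N) :=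
  isAlgebraic_adjoin_of_algOver _ (algOver_jBar N)

theorem isAlgebraic_jBar_inv :
    Algebra.IsAlgebraic (Algebra.adjoin (AlgebraicClosure ℚ) {(jBar N)⁻¹})
      (modularFunctionFieldBar N) :=
  isAlgebraic_adjoin_of_algOver _ fun y => algOver_inv _ _ (algOver_jBar N y)

end Mod

section Red

variable (K : Type*) [Field K] (N : ℕ) [NeZero N]

theorem algOver_full (t y : modularFunctionFieldFullC K N)
    (ht : (t : LaurentSeries K) = jqModC K) : AlgOver K t y := by
  apply (H05.algOver_map_iff (modularFunctionFieldFullC K N).val).mp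
  change AlgOver K (t : LaurentSeries K) (y : LaurentSeries K)
  rw [ht]
  exact H05.algOver_j_of_mem K y.2

theorem isAlgebraic_full (t : modularFunctionFieldFullC K N)
    (ht : (t : LaurentSeries K) = jqModC K) :
    Algebra.IsAlgebraic (Algebra.adjoin K {t}) (modularFunctionFieldFullC K N) :=
  isAlgebraic_adjoin_of_algOver _ fun y => algOver_full K N t y ht

theorem isAlgebraic_full_inv (t : modularFunctionFieldFullC K N)
    (ht : (t : LaurentSeries K) = (jqModC K)⁻¹) :
    Algebra.IsAlgebraic (Algebra.adjoin K {t}) (modularFunctionFieldFullC K N) := by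
  apply isAlgebraic_adjoin_of_algOver
  intro y
  have h1 : ((t⁻¹ : modularFunctionFieldFullC K N) : LaurentSeries K) = jqModC K := by
    rw [IntermediateField.coe_inv, ht, inv_inv]
  have h2 := algOver_inv _ _ (algOver_full K N t⁻¹ y h1)
  rwa [inv_inv] at h2

end Red

/-- the two charts `j` and `1/j` -/
def modCharts (N : ℕ) [NeZero N] (A : ValuationSubring (AlgebraicClosure ℚ))
    (h₁ : (modRed N A).IsChart (jZ N A)) (h₂ : (modRed N A).IsChart (jinvZ N A)) :
    TwoCharts (modRed N A) where
  t₁ := jZ N A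
  t₂ := jinvZ N A
  mul_eq := jZ_mul_jinvZ N A
  h₁ := h₁
  h₂ := h₂
  a₁ := isAlgebraic_jBar N
  a₂ := isAlgebraic_jBar_inv N
  b₁ := isAlgebraic_full (ResidueField A) N _ (ρ_jZ N A)
  b₂ := isAlgebraic_full_inv (ResidueField A) N _ (ρ_jinvZ N A)

end Fermat.Agent.H28
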