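import Mathlib
import Fermat.Agent.H28.ModCharts
import Fermat.Agent.H28.KernelAbs

set_option autoImplicit false
set_option linter.style.haveILetI false
set_option linter.unusedSectionVars false

/-! Galois elements of the decomposition group are compatible with reduction. -/

noncomputable section

namespace Fermat.Agent.H28

open Module IsLocalRing IsDedekindDomain Polynomial ModularCurve AlgebraicCurve

open scoped Pointwise

theorem isAlgClosed_residueField {K : Type*} [Field K] [IsAlgClosed K] (A : ValuationSubring K) :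
    IsAlgClosed (ResidueField A) := by
  apply IsAlgClosed.of_exists_root
  intro p hp hirr
  have hlift : p ∈ Polynomial.lifts (residue A) :=
    (Polynomial.lifts_iff_coeff_lifts p).2 fun n => residue_surjective _
  obtain ⟨P, hP, hdeg, hmon⟩ := Polynomial.lifts_and_natDegree_eq_and_monic hlift hp
  have hdeg' : (P.map A.subtype).degree ≠ 0 := by
    rw [Polynomial.degree_map_eq_of_injective (Subtype.val_injective)]
    rw [Polynomial.degree_eq_natDegree hmon.ne_zero, hdeg]
    have := hirr.natDegree_pos
    exact_mod_cast this.ne'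
  obtain ⟨x, hx⟩ := IsAlgClosed.exists_root _ hdeg'
  have hint : IsIntegral A x := by
    refine ⟨P, hmon, ?_⟩
    rw [Polynomial.IsRoot.def, Polynomial.eval_map] at hx
    exact hx
  obtain ⟨y, hy⟩ := IsIntegrallyClosed.isIntegral_iff.1 hint
  refine ⟨residue A y, ?_⟩
  rw [← hP, Polynomial.eval_map, Polynomial.eval₂_hom]
  have h1 : P.eval y = 0 := by
    apply Subtype.val_injective
    change A.subtype (P.eval y) = A.subtype 0
    rw [map_zero, ← Polynomial.eval₂_hom, ← Polynomial.eval_map]
    have h2 : A.subtype y = x := hy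
    rw [h2]
    exact hx
  rw [h1, map_zero]

section Full

variable {K : Type*} [Field K] (N : ℕ)

theorem coeffMap_mem_full (τ : K →+* K) {x : LaurentSeries K}
    (hx : x ∈ modularFunctionFieldFullC K N) : coeffMap τ x ∈ modularFunctionFieldFullC K N := by
  have h1 : ∀ z ∈ Subfield.closure (Set.range (algebraMap K (LaurentSeries K)) ∪
      divisorExpansionsC K N), coeffMap τ z ∈ modularFunctionFieldFullC K N := by
    intro z hz
    induction hz using Subfield.closure_induction with
    | mem z hz =>
      rcases hz with ⟨a, rfl⟩ | hz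
      · have : coeffMap τ (algebraMap K (LaurentSeries K) a) =
            algebraMap K (LaurentSeries K) (τ a) := by
          rw [algebraMap_laurentSeries_eq_single, algebraMap_laurentSeries_eq_single,
            coeffMap_single]
        rw [this]
        exact (modularFunctionFieldFullC K N).algebraMap_mem _
      · obtain ⟨d, hne, hdvd, rfl⟩ := hz
        have : coeffMap τ (qExpand K d (jqModC K)) = qExpand K d (jqModC K) := by
          rw [coeffMap_qExpand, coeffMap_jqModC]
        rw [this]
        exact jqModCd_mem_full K N hdvd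
    | one => simp
    | add x y _ _ hx hy => simpa using add_mem hx hy
    | neg x _ hx => simpa using neg_mem hx
    | inv x _ hx => simpa using inv_mem hx
    | mul x y _ _ hx hy => simpa using mul_mem hx hy
  exact h1 x hx

theorem coeffMap_symm_coeffMap (τ : K ≃+* K) (x : LaurentSeries K) :
    coeffMap (τ.symm : K →+* K) (coeffMap (τ : K →+* K) x) = x := by
  ext k
  rw [coeffMap_coeff, coeffMap_coeff]
  exact τ.symm_apply_apply _

/-- coefficientwise automorphism of the modular function field -/
def fullAut (τ : K ≃+* K) : modularFunctionFieldFullC K N ≃+* modularFunctionFieldFullC K N where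
  toFun x := ⟨coeffMap (τ : K →+* K) (x : LaurentSeries K), coeffMap_mem_full N _ x.2⟩
  invFun x := ⟨coeffMap (τ.symm : K →+* K) (x : LaurentSeries K), coeffMap_mem_full N _ x.2⟩
  left_inv x := Subtype.ext (coeffMap_symm_coeffMap τ (x : LaurentSeries K))
  right_inv x := Subtype.ext (coeffMap_symm_coeffMap τ.symm (x : LaurentSeries K))
  map_mul' x y := Subtype.ext (map_mul (coeffMap (τ : K →+* K)) (x : LaurentSeries K) y)
  map_add' x y := Subtype.ext (map_add (coeffMap (τ : K →+* K)) (x : LaurentSeries K) y)

theorem coe_fullAut (τ : K ≃+* K) (x : modularFunctionFieldFullC K N) :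
    ((fullAut N τ x : modularFunctionFieldFullC K N) : LaurentSeries K) =
      coeffMap (τ : K →+* K) (x : LaurentSeries K) := rfl

theorem coe_fullAut_symm (τ : K ≃+* K) (x : modularFunctionFieldFullC K N) :
    (((fullAut N τ).symm x : modularFunctionFieldFullC K N) : LaurentSeries K) =
      coeffMap (τ.symm : K →+* K) (x : LaurentSeries K) := rfl

theorem fullAut_alg (τ : K ≃+* K) (c : K) :
    fullAut N τ (algebraMap K (modularFunctionFieldFullC K N) c) =
      algebraMap K (modularFunctionFieldFullC K N) (τ c) := by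
  apply Subtype.ext
  rw [coe_fullAut]
  change coeffMap (τ : K →+* K) (algebraMap K (LaurentSeries K) c) =
    algebraMap K (LaurentSeries K) (τ c)
  rw [algebraMap_laurentSeries_eq_single, algebraMap_laurentSeries_eq_single, coeffMap_single]
  rfl

theorem fullAut_eq_self (τ : K ≃+* K) (hτ : ∀ x, τ x = x) (x : modularFunctionFieldFullC K N) :
    fullAut N τ x = x := by
  apply Subtype.ext
  rw [coe_fullAut]
  ext k
  rw [coeffMap_coeff]
  exact hτ _

end Full

section Dec

variable {L : Type*} [Field L] [Algebra ℚ L] {A : ValuationSubring L} {σ : L ≃ₐ[ℚ] L}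

theorem smul_mem_of_dec (hσ : σ ∈ A.decompositionSubgroup ℚ) {x : L} (hx : x ∈ A) : σ x ∈ A := by
  have h1 : σ • A = A := MulAction.mem_stabilizer_iff.mp hσ
  have h2 : σ • x ∈ σ • A := ValuationSubring.smul_mem_pointwise_smul σ x A hx
  rw [h1] at h2
  exact h2

/-- the action on `A` -/
def decA (hσ : σ ∈ A.decompositionSubgroup ℚ) : A →+* A where
  toFun x := ⟨σ x, smul_mem_of_dec hσ x.2⟩
  map_one' := Subtype.ext (map_one σ)
  map_mul' x y := Subtype.ext (map_mul σ (x : L) y)
  map_zero' := Subtype.ext (map_zero σ)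
  map_add' x y := Subtype.ext (map_add σ (x : L) y)

/-- the action on the residue field -/
def decRes (hσ : σ ∈ A.decompositionSubgroup ℚ) : ResidueField A ≃+* ResidueField A :=
  MulSemiringAction.toRingEquiv (A.decompositionSubgroup ℚ) (ResidueField A) ⟨σ, hσ⟩

theorem decRes_apply (hσ : σ ∈ A.decompositionSubgroup ℚ) (x : ResidueField A) :
    decRes hσ x = (⟨σ, hσ⟩ : A.decompositionSubgroup ℚ) • x := rfl

theorem decRes_residue (hσ : σ ∈ A.decompositionSubgroup ℚ) (x : A) :
    decRes hσ (residue A x) = residue A (decA hσ x) := rfl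

end Dec

section Mod

variable {N : ℕ} {A : ValuationSubring (AlgebraicClosure ℚ)}
  {σ : AlgebraicClosure ℚ ≃ₐ[ℚ] AlgebraicClosure ℚ}

theorem coeffMap_decA (hσ : σ ∈ A.decompositionSubgroup ℚ) (y : LaurentSeries A) :
    coeffMap A.subtype (coeffMap (decA hσ) y) =
      coeffMap (σ : AlgebraicClosure ℚ →+* AlgebraicClosure ℚ) (coeffMap A.subtype y) := by
  ext k
  rw [coeffMap_coeff, coeffMap_coeff, coeffMap_coeff, coeffMap_coeff]
  rfl

theorem coeffMap_residue_decA (hσ : σ ∈ A.decompositionSubgroup ℚ) (y : LaurentSeries A) :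
    coeffMap (residue A) (coeffMap (decA hσ) y) =
      coeffMap (decRes hσ : ResidueField A →+* ResidueField A) (coeffMap (residue A) y) := by
  ext k
  rw [coeffMap_coeff, coeffMap_coeff, coeffMap_coeff, coeffMap_coeff]
  rfl

theorem smul_mem_Z (hσ : σ ∈ A.decompositionSubgroup ℚ) {x : modularFunctionFieldBar N}
    (hx : x ∈ (modRed N A).Z) :
    arithmeticGalois (modularFunctionFieldFull N) σ • x ∈ (modRed N A).Z := by
  rw [mem_laurentRed] at hx ⊢
  obtain ⟨y, hy, hy2⟩ := hx
  refine ⟨coeffMap (decA hσ) y, ?_, ?_⟩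
  · rw [coeffMap_decA, hy]
    rfl
  · rw [coeffMap_residue_decA]
    exact coeffMap_mem_full N _ hy2

theorem smul_jBar : arithmeticGalois (modularFunctionFieldFull N) σ • (jBar N) = jBar N := by
  apply Subtype.ext
  rw [coe_arithmeticGalois_smul]
  exact coeffMap_jqModC _

theorem inv_mem_dec (hσ : σ ∈ A.decompositionSubgroup ℚ) : σ⁻¹ ∈ A.decompositionSubgroup ℚ :=
  inv_mem hσ

theorem ρ_smul (hσ : σ ∈ A.decompositionSubgroup ℚ) {x : modularFunctionFieldBar N}
    (hx : x ∈ (modRed N A).Z) :
    (modRed N A).ρ ⟨arithmeticGalois (modularFunctionFieldFull N) σ • x, smul_mem_Z hσ hx⟩ =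
      fullAut N (decRes hσ) ((modRed N A).ρ ⟨x, hx⟩) := by
  obtain ⟨y, hy, hy2⟩ := mem_laurentRed.mp hx
  apply Subtype.ext
  rw [coe_fullAut, laurentRed_ρ (⟨x, hx⟩ : (modRed N A).Z) hy, ← coeffMap_residue_decA]
  apply laurentRed_ρ
  rw [coeffMap_decA, hy]
  rfl

theorem modRedAut [NeZero N] (h₁ : (modRed N A).IsChart (jZ N A))
    (h₂ : (modRed N A).IsChart (jinvZ N A)) (hσ : σ ∈ A.decompositionSubgroup ℚ) :
    (modCharts N A h₁ h₂).RedAut (arithmeticGalois (modularFunctionFieldFull N) σ)
      (fullAut N (decRes hσ)) (decRes hσ) where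
  memA c hc := smul_mem_of_dec hσ hc
  memA' c hc := by
    rw [← map_inv]
    exact smul_mem_of_dec (inv_mem_dec hσ) hc
  memZ x hx := smul_mem_Z hσ hx
  fix₁ := smul_jBar
  fix₂ := by
    change arithmeticGalois (modularFunctionFieldFull N) σ • (jBar N)⁻¹ = (jBar N)⁻¹
    rw [smul_inv'', smul_jBar]
  red x hx := ρ_smul hσ hx
  alg c := fullAut_alg N (decRes hσ) c

end Mod

end Fermat.Agent.H28
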