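import Mathlib
import Fermat.Agent.H28.PlaceMap
import Fermat.Agent.H28.ModGal

set_option autoImplicit false
set_option linter.style.haveILetI false
set_option linter.unusedSectionVars false

/-! The reduction map on places of the modular curve. -/

noncomputable section

namespace Fermat.Agent.H28

open Module IsLocalRing IsDedekindDomain AlgebraicCurve ModularCurve

local notation "Qb" => AlgebraicClosure ℚ

variable {N : ℕ} [NeZero N] {A : ValuationSubring (AlgebraicClosure ℚ)}

/-- an integral function from its expansion -/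
theorem mk_mem_Z (y : LaurentSeries A) (hy : coeffMap A.subtype y ∈ modularFunctionFieldBar N)
    (hyk : coeffMap (residue A) y ∈ modularFunctionFieldFullC (ResidueField A) N) :
    (⟨coeffMap A.subtype y, hy⟩ : modularFunctionFieldBar N) ∈ (modRed N A).Z :=
  mem_laurentRed.mpr ⟨y, rfl, hyk⟩

theorem ρ_mk (y : LaurentSeries A) (hy : coeffMap A.subtype y ∈ modularFunctionFieldBar N)
    (hyk : coeffMap (residue A) y ∈ modularFunctionFieldFullC (ResidueField A) N) :
    (modRed N A).ρ ⟨_, mk_mem_Z y hy hyk⟩ = ⟨coeffMap (residue A) y, hyk⟩ :=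
  Subtype.ext (laurentRed_ρ (⟨_, mk_mem_Z y hy hyk⟩ : (modRed N A).Z) rfl)

variable (C : TwoCharts (modRed N A))

theorem isPlaceReduction_redPl : IsPlaceReductionModL A N C.redPl := by
  refine ⟨fun P => ?_, fun y hy hyk hne E hE Q => ?_⟩
  · rw [C.deg_redPl, H05.deg_eq_one_bc]
  · have h1 := C.mapDomain_div ⟨_, mk_mem_Z y hy hyk⟩ (by
      rw [ρ_mk y hy hyk]
      exact fun h => hne (congrArg Subtype.val h)) hE Q
    rw [ρ_mk y hy hyk] at h1
    exact h1

theorem div_mem_integralPrincipal (f : (modRed N A).Z) (hf : (modRed N A).ρ f ≠ 0)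
    {E : Divisor Qb (modularFunctionFieldBar N)}
    (hE : ∀ P, E P = P.ord (f : modularFunctionFieldBar N)) :
    E ∈ integralPrincipalDivisors A (residue A) N := by
  obtain ⟨y, hy, hyk⟩ := mem_laurentRed.mp f.2
  have hy' : coeffMap A.subtype y ∈ modularFunctionFieldBar N := by
    rw [hy]
    exact (f : modularFunctionFieldBar N).2
  refine ⟨y, hy', hyk, ?_, ?_⟩
  · rw [← laurentRed_ρ f hy]
    exact fun h => hf (Subtype.ext h)
  · intro P
    rw [hE]
    congr 1
    exact Subtype.ext hy.symm

include C in
theorem principalGenerated : PrincipalGeneratedByIntegral A (residue A) N := by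
  intro E hE
  obtain ⟨f, hf, hE⟩ := hE
  obtain ⟨c, a, b, hc, ha, hb, h⟩ := C.h₁.exists_frac hf
  have ha'' := C.h₁.ρ_toZ_ne ha
  have hb'' := C.h₁.ρ_toZ_ne hb
  have ne_of : ∀ x : (modRed N A).Z, (modRed N A).ρ x ≠ 0 → (x : modularFunctionFieldBar N) ≠ 0 := by
    intro x hx h0
    apply hx
    have : x = 0 := Subtype.ext h0
    rw [this, map_zero]
  have haF := ne_of _ ha''
  have hbF := ne_of _ hb''
  have hcF : algebraMap Qb (modularFunctionFieldBar N) c ≠ 0 := by simpa using hc
  obtain ⟨G, hG, -⟩ := HasPrincipalDivisors.exists_divisor (K := Qb) _ haF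
  obtain ⟨H, hH, -⟩ := HasPrincipalDivisors.exists_divisor (K := Qb) _ hbF
  have h1 : E = G - H := by
    ext P
    rw [Finsupp.sub_apply, hG, hH, hE]
    have h2 := congrArg P.ord h
    change P.ord (f * ((C.h₁.toZ b : (modRed N A).Z) : modularFunctionFieldBar N)) =
      P.ord (algebraMap Qb (modularFunctionFieldBar N) c *
        ((C.h₁.toZ a : (modRed N A).Z) : modularFunctionFieldBar N)) at h2
    rw [P.ord_mul hf hbF, P.ord_mul hcF haF, H18.ord_algebraMap] at h2
    omega
  rw [h1]
  exact sub_mem (AddSubgroup.subset_closure (div_mem_integralPrincipal _ ha'' hG))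
    (AddSubgroup.subset_closure (div_mem_integralPrincipal _ hb'' hH))

include C in
/-- **The reduction inputs of the Prelude hold**. -/
theorem reductionInputs : ReductionInputsModL A N :=
  ⟨C.redPl, isPlaceReduction_redPl C, principalGenerated C⟩

end Fermat.Agent.H28
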