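import Mathlib
import Fermat.Agent.H05.HeckeComm
import Fermat.Agent.H28.HeckeGen
import Fermat.Agent.Igusa.NormQ

set_option autoImplicit false
set_option linter.style.haveILetI false
set_option linter.unusedSectionVars false
set_option maxSynthPendingDepth 3

/-! Pullback of divisor classes along finite maps; the degeneracy map `q ↦ q^r`. -/

noncomputable section

namespace Fermat.Agent.H28

open ModularCurve AlgebraicCurve Fermat.Agent.H05

section Generic

variable {K F : Type*} {F' : Type} [Field K] [Field F] [Field F'] [Algebra K F] [Algebra K F']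
  [HasPrincipalDivisors K F'] [IsAlgClosed K] [CharZero F]

/-- pullback of classes along an embedding -/
def pullAlong (φ : F →ₐ[K] F') (hφ : φ.toRingHom.IsIntegral)
    (hFI : FundamentalIdentityAlong K φ hφ) : Pic0 K F →+ Pic0 K F' :=
  letI := algebraAlong φ
  haveI := isScalarTower_along φ
  haveI := isIntegral_along φ hφ
  haveI : FundamentalIdentity K F F' := hFI
  Pic0.pullbackHom F'

theorem pullAlong_mk (φ : F →ₐ[K] F') (hφ : φ.toRingHom.IsIntegral)
    (hFI : FundamentalIdentityAlong K φ hφ) (E : Divisor.degZero (K := K) (F := F)) :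
    pullAlong φ hφ hFI (Pic0.mk E) = Pic0.mk ⟨Divisor.pullbackAlong φ hφ (E : Divisor K F),
      Divisor.pullbackAlong_mem_degZero φ hφ hFI E.2⟩ := rfl

theorem pullAlong_smul (φ : F →ₐ[K] F') (hφ : φ.toRingHom.IsIntegral)
    (hFI : FundamentalIdentityAlong K φ hφ) {g : SemilinearAut K F} {g' : SemilinearAut K F'}
    (h : SemilinearAut.IntertwinesAlong φ.toRingHom g g') (x : Pic0 K F) :
    pullAlong φ hφ hFI (g • x) = g' • pullAlong φ hφ hFI x := by
  obtain ⟨E, rfl⟩ := Pic0.mk_surjective x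
  rw [SemilinearAut.pic0_smul_mk, pullAlong_mk, pullAlong_mk, SemilinearAut.pic0_smul_mk]
  congr 1
  apply Subtype.ext
  exact pullbackAlong_smul φ hφ h _

theorem push_pull (φ : F →ₐ[K] F') (hφ : φ.toRingHom.IsIntegral)
    (hFI : FundamentalIdentityAlong K φ hφ) (hdeg : ∀ P : Place K F, P.deg = 1)
    (hdeg' : ∀ W : Place K F', W.deg = 1) (E : Divisor K F) :
    Divisor.correspondence φ φ hφ hφ E = finrankAlong K φ • E := by
  induction E using Finsupp.induction with
  | zero => simp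
  | single_add P n E hP hn ih =>
    rw [map_add, ih, smul_add]
    congr 1
    have h1 : (Finsupp.single P n : Divisor K F) = n • Finsupp.single P 1 := by
      rw [Finsupp.smul_single, smul_eq_mul, mul_one]
    rw [h1, map_zsmul, corr_single φ φ hφ hφ hdeg' P, smul_comm]
    congr 1
    rw [Finset.sum_congr rfl (g := fun W => Finsupp.single P
      ((Place.ramificationIndexAlong φ W : ℕ) : ℤ))]
    · rw [← Finsupp.single_finsetSum, ← Nat.cast_sum, sum_ram φ hφ hdeg hdeg' hFI P,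
        Finsupp.smul_single, nsmul_eq_mul, mul_one]
    · intro W hW
      rw [Place.mem_fiberAlong.mp hW]

theorem nsmul_eq_zero_of_pullAlong (φ : F →ₐ[K] F') (hφ : φ.toRingHom.IsIntegral)
    (hFI : FundamentalIdentityAlong K φ hφ) (hfin : FiniteAlong K φ)
    (hN : NormFormulaAlong K φ hfin) (hdeg : ∀ P : Place K F, P.deg = 1)
    (hdeg' : ∀ W : Place K F', W.deg = 1) {x : Pic0 K F} (hx : pullAlong φ hφ hFI x = 0) :
    finrankAlong K φ • x = 0 := by
  obtain ⟨E, rfl⟩ := Pic0.mk_surjective x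
  rw [pullAlong_mk] at hx
  have h1 := (QuotientAddGroup.eq_zero_iff _).mp hx
  rw [AddSubgroup.mem_addSubgroupOf] at h1
  have h2 : Divisor.pushforwardAlong φ hφ (Divisor.pullbackAlong φ hφ (E : Divisor K F)) ∈
      Divisor.principal (K := K) (F := F) :=
    Divisor.isPrincipal_pushforwardAlong φ hφ hfin hN h1
  rw [← Divisor.correspondence_apply, push_pull φ hφ hFI hdeg hdeg'] at h2
  have h3 : finrankAlong K φ • (Pic0.mk E : Pic0 K F) = Pic0.mk (finrankAlong K φ • E) := rfl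
  rw [h3]
  apply (QuotientAddGroup.eq_zero_iff _).mpr
  rw [AddSubgroup.mem_addSubgroupOf]
  exact h2

end Generic

section Mod

local notation "Qb" => AlgebraicClosure ℚ

variable (N r : ℕ) [NeZero N] [NeZero r]

/-- pullback along `q ↦ q^r` -/
def pullR : JZero N →+ JZero (N * r) :=
  pullAlong (heckeBetaBar Qb N r) (heckeBetaBarIntegral Qb N r)
    (fundamentalIdentityAlong_of _ _ (finiteAlong_beta Qb N r))

theorem pullR_mk (E : Divisor.degZero (K := Qb) (F := modularFunctionFieldBar N)) :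
    pullR N r (Pic0.mk E) = Pic0.mk ⟨Divisor.pullbackAlong (heckeBetaBar Qb N r)
      (heckeBetaBarIntegral Qb N r) (E : Divisor Qb (modularFunctionFieldBar N)),
      Divisor.pullbackAlong_mem_degZero _ _
        (fundamentalIdentityAlong_of _ _ (finiteAlong_beta Qb N r)) E.2⟩ := rfl

theorem pullR_smul (σ : Qb ≃ₐ[ℚ] Qb) (x : JZero N) : pullR N r (σ • x) = σ • pullR N r x := by
  rw [galois_smul_pic0_def, galois_smul_pic0_def]
  exact pullAlong_smul _ _ _ (intertwines_beta Qb N r σ) x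

theorem nsmul_eq_zero_of_pullR (hr : r.Prime) (hrN : ¬ r ∣ N) {x : JZero N}
    (hx : pullR N r x = 0) : (r + 1) • x = 0 := by
  haveI : Fact r.Prime := ⟨hr⟩
  haveI : CharZero (modularFunctionFieldBar N) :=
    charZero_of_injective_algebraMap (algebraMap Qb (modularFunctionFieldBar N)).injective
  have h1 := nsmul_eq_zero_of_pullAlong (heckeBetaBar Qb N r) (heckeBetaBarIntegral Qb N r)
    (fundamentalIdentityAlong_of _ _ (finiteAlong_beta Qb N r)) (finiteAlong_beta Qb N r)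
    (normFormulaAlong_of _ _) (deg_eq_one_bc Qb N) (deg_eq_one_bc Qb (N * r)) hx
  rwa [Igusa.finrank_beta Qb N r hrN] at h1

/-- the pullback commutes with Hecke correspondences, on divisors -/
theorem pullback_heckeDiv {ℓ : ℕ} [NeZero ℓ] (hr : r.Prime) (hℓ : ℓ.Prime) (hrℓ : r ≠ ℓ)
    (E : Divisor Qb (modularFunctionFieldBar N)) :
    Divisor.pullbackAlong (heckeBetaBar Qb N r) (heckeBetaBarIntegral Qb N r)
      (heckeDivBar (heckeAlphaBarIntegral Qb N ℓ) (heckeBetaBarIntegral Qb N ℓ) E) =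
    heckeDivBar (heckeAlphaBarIntegral Qb (N * r) ℓ) (heckeBetaBarIntegral Qb (N * r) ℓ)
      (Divisor.pullbackAlong (heckeBetaBar Qb N r) (heckeBetaBarIntegral Qb N r) E) := by
  have hu : N * r ∣ N * r * ℓ := dvd_mul_right _ _
  have hv : N * ℓ * r ∣ N * r * ℓ := ⟨1, by ring⟩
  have hbc := baseChange_formula (heckeBetaBar Qb N r) (heckeAlphaBar Qb N ℓ)
    (heckeAlphaBar Qb (N * r) ℓ) (qe Qb r hv) (heckeBetaBarIntegral Qb N r)
    (heckeAlphaBarIntegral Qb N ℓ) (heckeAlphaBarIntegral Qb (N * r) ℓ) (qe_isIntegral Qb r hv)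
    (comp_comm Qb (dvd_refl (N * r)) (dvd_mul_right N ℓ) hu hv)
    (finiteAlong_alpha Qb N ℓ) (finiteAlong_alpha Qb (N * r) ℓ)
    (normFormulaAlong_of _ _) (normFormulaAlong_of _ _)
    (gen_prime Qb hℓ hr hrℓ.symm rfl rfl rfl hu hv)
    (by
      rw [heckeAlphaBar_eq, heckeAlphaBar_eq,
        finrankAlong_inc_prime Qb hℓ (dvd_mul_right (N * r) ℓ) rfl,
        finrankAlong_inc_prime Qb hℓ (dvd_mul_right N ℓ) rfl]
      have h3 : ℓ ∣ N * r ↔ ℓ ∣ N := by
        constructor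
        · intro h
          rcases (Nat.Prime.dvd_mul hℓ).mp h with h | h
          · exact h
          · exact absurd ((Nat.prime_dvd_prime_iff_eq hℓ hr).mp h) hrℓ.symm
        · exact fun h => h.mul_right r
      simp only [h3])
    (Divisor.pullbackAlong (heckeBetaBar Qb N ℓ) (heckeBetaBarIntegral Qb N ℓ) E)
  have h2' : N * (ℓ * r) ∣ N * r * ℓ := ⟨1, by ring⟩
  have h3' : N * (r * ℓ) ∣ N * r * ℓ := ⟨1, by ring⟩
  have e1 : (qe Qb r hv).comp (heckeBetaBar Qb N ℓ) =
      (heckeBetaBar Qb (N * r) ℓ).comp (heckeBetaBar Qb N r) := by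
    refine AlgHom.ext fun x => Subtype.ext ?_
    rw [AlgHom.comp_apply, AlgHom.comp_apply, coe_qe, coe_heckeBetaBar, coe_heckeBetaBar,
      coe_heckeBetaBar, qExpand_qExpand, qExpand_qExpand]
    exact qExpand_congr (mul_comm _ _) _
  have i1 : ((qe Qb r hv).comp (heckeBetaBar Qb N ℓ)).toRingHom.IsIntegral :=
    RingHom.IsIntegral.trans _ _ (heckeBetaBarIntegral Qb N ℓ) (qe_isIntegral Qb r hv)
  have i2 : ((heckeBetaBar Qb (N * r) ℓ).comp (heckeBetaBar Qb N r)).toRingHom.IsIntegral :=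
    RingHom.IsIntegral.trans _ _ (heckeBetaBarIntegral Qb N r) (heckeBetaBarIntegral Qb (N * r) ℓ)
  change Divisor.pullbackAlong (heckeBetaBar Qb N r) (heckeBetaBarIntegral Qb N r)
    (Divisor.pushforwardAlong (heckeAlphaBar Qb N ℓ) (heckeAlphaBarIntegral Qb N ℓ)
      (Divisor.pullbackAlong (heckeBetaBar Qb N ℓ) (heckeBetaBarIntegral Qb N ℓ) E)) =
    Divisor.pushforwardAlong (heckeAlphaBar Qb (N * r) ℓ) (heckeAlphaBarIntegral Qb (N * r) ℓ)
      (Divisor.pullbackAlong (heckeBetaBar Qb (N * r) ℓ) (heckeBetaBarIntegral Qb (N * r) ℓ)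
        (Divisor.pullbackAlong (heckeBetaBar Qb N r) (heckeBetaBarIntegral Qb N r) E))
  rw [hbc, ← pullbackAlong_comp _ _ _ (qe_isIntegral Qb r hv) i1, pullbackAlong_congr e1 i1 i2,
    pullbackAlong_comp _ _ (heckeBetaBarIntegral Qb N r) (heckeBetaBarIntegral Qb (N * r) ℓ) i2]

theorem heckeOperatorAlong_mk (M ℓ : ℕ) [NeZero M] [NeZero ℓ]
    (E : Divisor.degZero (K := Qb) (F := modularFunctionFieldBar M)) :
    ∃ h : heckeDivBar (heckeAlphaBarIntegral Qb M ℓ) (heckeBetaBarIntegral Qb M ℓ) (E : _) ∈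
        Divisor.degZero (K := Qb) (F := modularFunctionFieldBar M),
      heckeOperatorAlong Qb M ℓ (Pic0.mk E) = Pic0.mk ⟨_, h⟩ := by
  rw [heckeOperatorAlong_eq (heckeAlphaBarIntegral Qb M ℓ) (heckeBetaBarIntegral Qb M ℓ)
    (fundamentalIdentityAlong_of _ _ (finiteAlong_beta Qb M ℓ)) (finiteAlong_alpha Qb M ℓ)
    (normFormulaAlong_of _ _)]
  exact ⟨(Pic0.degZeroCorrespondence (heckeBetaBar Qb M ℓ) (heckeAlphaBar Qb M ℓ)
    (heckeBetaBarIntegral Qb M ℓ) (heckeAlphaBarIntegral Qb M ℓ)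
    (fundamentalIdentityAlong_of _ _ (finiteAlong_beta Qb M ℓ)) E).2, rfl⟩

theorem pullR_hecke {ℓ : ℕ} (hr : r.Prime) (hℓ : ℓ.Prime) (hrℓ : r ≠ ℓ) (x : JZero N) :
    pullR N r (heckeOperatorBar N ⟨ℓ, hℓ⟩ x) =
      heckeOperatorBar (N * r) ⟨ℓ, hℓ⟩ (pullR N r x) := by
  haveI : NeZero ℓ := ⟨hℓ.ne_zero⟩
  rw [heckeOperatorBar_apply, heckeOperatorBar_apply]
  obtain ⟨E, rfl⟩ := Pic0.mk_surjective x
  obtain ⟨h1, e1⟩ := heckeOperatorAlong_mk N ℓ E
  change pullR N r (heckeOperatorAlong Qb N ℓ (Pic0.mk E)) =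
    heckeOperatorAlong Qb (N * r) ℓ (pullR N r (Pic0.mk E))
  rw [e1, pullR_mk, pullR_mk]
  obtain ⟨h2, e2⟩ := heckeOperatorAlong_mk (N * r) ℓ
    ⟨Divisor.pullbackAlong (heckeBetaBar Qb N r)
      (heckeBetaBarIntegral Qb N r) (E : Divisor Qb (modularFunctionFieldBar N)),
      Divisor.pullbackAlong_mem_degZero _ _
        (fundamentalIdentityAlong_of _ _ (finiteAlong_beta Qb N r)) E.2⟩
  rw [e2]
  congr 1
  apply Subtype.ext
  exact pullback_heckeDiv N r hr hℓ hrℓ _

end Mod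

end Fermat.Agent.H28
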