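import Mathlib
import Fermat.Agent.Q.Frobenius
import Fermat.Agent.H28.ModRed
import Fermat.Agent.H28.HeckeGen

set_option autoImplicit false
set_option linter.style.haveILetI false
set_option linter.unusedSectionVars false

/-! Reduction of the norm formula. -/

noncomputable section

namespace Fermat.Agent.H28

open Module IsLocalRing Polynomial ModularCurve Fermat.Agent.Igusa

section

variable {L : Type*} [Field L] (A : ValuationSubring L) {ℓ : ℕ} [hℓ : Fact ℓ.Prime]
  [CharP (ResidueField A) ℓ]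

/-- a root of unity as a unit of `A` -/
theorem exists_unit_A {ζ : Lˣ} (hζ : ζ ^ ℓ = 1) : ∃ z : Aˣ,
    Units.map (A.subtype : A →* L) z = ζ ∧ z ^ ℓ = 1 := by
  have hℓ0 : ℓ ≠ 0 := hℓ.out.ne_zero
  have h1 : ∀ ξ : Lˣ, ξ ^ ℓ = 1 → (ξ : L) ∈ A := by
    intro ξ hξ
    have h2 : IsIntegral A (ξ : L) := by
      refine ⟨X ^ ℓ - 1, monic_X_pow_sub_C 1 hℓ0, ?_⟩
      have h3 : (ξ : L) ^ ℓ = 1 := by
        rw [← Units.val_pow_eq_pow_val, hξ, Units.val_one]
      rw [Polynomial.eval₂_sub, Polynomial.eval₂_pow, Polynomial.eval₂_X, Polynomial.eval₂_one, h3,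
        sub_self]
    obtain ⟨y, hy⟩ := IsIntegrallyClosed.isIntegral_iff.mp h2
    rw [← hy]
    exact y.2
  have hinv : ζ⁻¹ ^ ℓ = 1 := by rw [inv_pow, hζ, inv_one]
  refine ⟨⟨⟨ζ, h1 ζ hζ⟩, ⟨(ζ⁻¹ : Lˣ), h1 _ hinv⟩, Subtype.ext ζ.mul_inv, Subtype.ext ζ.inv_mul⟩,
    Units.ext rfl, ?_⟩
  apply Units.ext
  apply Subtype.ext
  have h3 : (ζ : L) ^ ℓ = 1 := by
    rw [← Units.val_pow_eq_pow_val, hζ, Units.val_one]
  exact h3

theorem residue_unit_eq_one {z : Aˣ} (hz : z ^ ℓ = 1) :
    Units.map (residue A : A →* ResidueField A) z = 1 := by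
  apply Units.ext
  rw [Units.val_one]
  change residue A (z : A) = 1
  have h1 : (residue A (z : A)) ^ ℓ = 1 := by
    rw [← map_pow, ← Units.val_pow_eq_pow_val, hz, Units.val_one, map_one]
  have h2 : (residue A (z : A) - 1) ^ ℓ = 0 := by
    rw [sub_pow_char, h1, one_pow, sub_self]
  exact sub_eq_zero.mp (pow_eq_zero_iff hℓ.out.ne_zero |>.mp h2)

theorem twist_one_apply {R : Type*} [CommRing R] (x : LaurentSeries R) :
    twist (1 : Rˣ) x = x := by
  ext n
  rw [twist_coeff, one_zpow, Units.val_one, mul_one]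

variable {A}

theorem reduction_of_norm [NeZero ℓ] {ζ : Lˣ} (hζ : ζ ^ ℓ = 1) {ya yb : LaurentSeries A}
    (h : qExpand L ℓ (coeffMap A.subtype yb) =
      qExpand L ℓ (qExpand L ℓ (coeffMap A.subtype ya)) *
        ∏ b ∈ Finset.range ℓ, twist (ζ ^ b) (coeffMap A.subtype ya))
    (τ : ResidueField A ≃+* ResidueField A) (hτ : ∀ x, τ x = x ^ ℓ) :
    coeffMap (residue A) yb =
      coeffMap (τ : ResidueField A →+* ResidueField A) (coeffMap (residue A) ya) *
        (coeffMap (τ.symm : ResidueField A →+* ResidueField A) (coeffMap (residue A) ya)) ^ ℓ := by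
  obtain ⟨z, hz, hz1⟩ := exists_unit_A A hζ
  have h1 : qExpand A ℓ yb = qExpand A ℓ (qExpand A ℓ ya) *
      ∏ b ∈ Finset.range ℓ, twist (z ^ b) ya := by
    apply coeffMap_injective A.subtype Subtype.val_injective
    rw [map_mul, map_prod, coeffMap_qExpand, coeffMap_qExpand, coeffMap_qExpand, h]
    congr 1
    refine Finset.prod_congr rfl fun b _ => ?_
    rw [← twist_coeffMap, map_pow, hz]
  have h2 := congrArg (coeffMap (residue A)) h1
  rw [map_mul, map_prod, coeffMap_qExpand, coeffMap_qExpand, coeffMap_qExpand] at h2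
  have h3 : ∏ b ∈ Finset.range ℓ, coeffMap (residue A) (twist (z ^ b) ya) =
      coeffMap (residue A) ya ^ ℓ := by
    rw [Finset.prod_congr rfl fun b _ => ?_, Finset.prod_const, Finset.card_range]
    rw [← twist_coeffMap, map_pow, residue_unit_eq_one A hz1, one_pow, twist_one_apply]
  rw [h3] at h2
  have hfr : (τ : ResidueField A →+* ResidueField A) = frobenius (ResidueField A) ℓ :=
    RingHom.ext fun x => hτ x
  have h4 : coeffMap (residue A) ya ^ ℓ = qExpand (ResidueField A) ℓ
      (coeffMap (τ : ResidueField A →+* ResidueField A) (coeffMap (residue A) ya)) := by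
    rw [hfr]
    exact Q.pow_char ℓ _
  have h5 : (coeffMap (τ.symm : ResidueField A →+* ResidueField A) (coeffMap (residue A) ya)) ^ ℓ
      = qExpand (ResidueField A) ℓ (coeffMap (residue A) ya) := by
    rw [Q.pow_char ℓ, ← hfr]
    congr 1
    ext k
    rw [coeffMap_coeff, coeffMap_coeff]
    exact τ.apply_symm_apply _
  apply qExpand_injective (R := ResidueField A) ℓ
  rw [h2, map_mul, h5, h4]
  ring

end

theorem intOver_of_evZ {L F : Type*} [Field L] [Field F] [Algebra L F] {A : ValuationSubring L}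
    {t x : F} {P : ℤ[X][X]} (hP : P.Monic) (h : P.eval₂ (evZ t) x = 0) : IntOver A t x := by
  refine ⟨P.map (Polynomial.mapRingHom (Int.castRingHom A)), hP.map _, ?_⟩
  rw [Polynomial.eval₂_map]
  have h1 : (evA A t).comp (Polynomial.mapRingHom (Int.castRingHom A)) = evZ t := by
    apply Polynomial.ringHom_ext
    · intro a
      simp
    · rw [RingHom.comp_apply, Polynomial.coe_mapRingHom, Polynomial.map_X, evA_X, evZ_X]
  rw [h1]
  exact h

end Fermat.Agent.H28
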