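import Mathlib
import Fermat.Agent.H28.ModGal
import Fermat.Agent.H28.NormRed
import Fermat.Agent.Igusa.NormQ

set_option autoImplicit false
set_option linter.style.haveILetI false
set_option linter.unusedSectionVars false

/-! The Hecke correspondence `T_ℓ` on modular curves and reduction modulo `ℓ`. -/

noncomputable section

namespace Fermat.Agent.H28

open Module IsLocalRing Polynomial ModularCurve Fermat.Agent.Igusa AlgebraicCurve

local notation "Qb" => AlgebraicClosure ℚ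

theorem exists_primitive_root (ℓ : ℕ) [NeZero ℓ] : ∃ ζ : Qbˣ, IsPrimitiveRoot ζ ℓ := by
  haveI : NeZero ((ℓ : ℕ) : Qb) := NeZero.charZero
  obtain ⟨ζ, hζ⟩ := HasEnoughRootsOfUnity.exists_primitiveRoot Qb ℓ
  have hu : IsUnit ζ := hζ.isUnit (NeZero.ne ℓ)
  exact ⟨hu.unit, IsPrimitiveRoot.coe_units_iff.mp hζ⟩

section

variable (N ℓ : ℕ) [NeZero N] [hℓ : Fact ℓ.Prime] [NeZero ℓ]

theorem evZ_alpha_beta : (modPoly ℓ).eval₂ (evZ (heckeBetaBar Qb N ℓ (jBar N)))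
    (heckeAlphaBar Qb N ℓ (jBar N)) = 0 := by
  apply Subtype.val_injective
  have h1 := Polynomial.hom_eval₂ (modPoly ℓ) (evZ (heckeBetaBar Qb N ℓ (jBar N)))
    (modularFunctionFieldBar (N * ℓ)).val.toRingHom (heckeAlphaBar Qb N ℓ (jBar N))
  change (modularFunctionFieldBar (N * ℓ)).val.toRingHom _ = 0
  have e1 : (modularFunctionFieldBar (N * ℓ)).val.toRingHom (heckeBetaBar Qb N ℓ (jBar N)) =
      qExpand Qb ℓ (jqModC Qb) := coe_heckeBetaBar N ℓ (jBar N)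
  have e2 : (modularFunctionFieldBar (N * ℓ)).val.toRingHom (heckeAlphaBar Qb N ℓ (jBar N)) =
      jqModC Qb := coe_heckeAlphaBar N ℓ (jBar N)
  rw [h1, ringHom_comp_evZ, e1, e2]
  exact H05.modPoly_eval_j ℓ Qb

theorem evZ_beta_alpha : (modPoly ℓ).eval₂ (evZ (heckeAlphaBar Qb N ℓ (jBar N)))
    (heckeBetaBar Qb N ℓ (jBar N)) = 0 := by
  apply Subtype.val_injective
  have h1 := Polynomial.hom_eval₂ (modPoly ℓ) (evZ (heckeAlphaBar Qb N ℓ (jBar N)))
    (modularFunctionFieldBar (N * ℓ)).val.toRingHom (heckeBetaBar Qb N ℓ (jBar N))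
  change (modularFunctionFieldBar (N * ℓ)).val.toRingHom _ = 0
  have e1 : (modularFunctionFieldBar (N * ℓ)).val.toRingHom (heckeBetaBar Qb N ℓ (jBar N)) =
      qExpand Qb ℓ (jqModC Qb) := coe_heckeBetaBar N ℓ (jBar N)
  have e2 : (modularFunctionFieldBar (N * ℓ)).val.toRingHom (heckeAlphaBar Qb N ℓ (jBar N)) =
      jqModC Qb := coe_heckeAlphaBar N ℓ (jBar N)
  rw [h1, ringHom_comp_evZ, e1, e2]
  exact H05.modPoly_eval_jr ℓ Qb

end

section

variable {N ℓ : ℕ} [NeZero N] [hℓ : Fact ℓ.Prime] [NeZero ℓ]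
  {A : ValuationSubring (AlgebraicClosure ℚ)} [CharP (ResidueField A) ℓ]
  {σ : AlgebraicClosure ℚ ≃ₐ[ℚ] AlgebraicClosure ℚ}

theorem ρ_norm (hlN : ¬ ℓ ∣ N) (τ : ResidueField A ≃+* ResidueField A) (hτ : ∀ x, τ x = x ^ ℓ)
    (a b : (modRed N A).Z) (hab : (b : modularFunctionFieldBar N) =
      H05.normAlong (heckeAlphaBar Qb N ℓ) (heckeBetaBar Qb N ℓ (a : modularFunctionFieldBar N))) :
    (modRed N A).ρ b = fullAut N τ ((modRed N A).ρ a) *
      (fullAut N τ).symm ((modRed N A).ρ a) ^ ℓ := by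
  obtain ⟨ya, hya, -⟩ := mem_laurentRed.mp a.2
  obtain ⟨yb, hyb, -⟩ := mem_laurentRed.mp b.2
  obtain ⟨ζ, hζ⟩ := exists_primitive_root ℓ
  have h1 := norm_qExpand Qb N ℓ hlN hζ (a : modularFunctionFieldBar N)
  rw [← hab, ← hya, ← hyb] at h1
  have h2 := reduction_of_norm (by rw [hζ.pow_eq_one]) h1 τ hτ
  apply Subtype.ext
  change ((modRed N A).ρ b : LaurentSeries (ResidueField A)) =
    (fullAut N τ ((modRed N A).ρ a) : LaurentSeries (ResidueField A)) *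
      ((fullAut N τ).symm ((modRed N A).ρ a) : LaurentSeries (ResidueField A)) ^ ℓ
  rw [coe_fullAut, coe_fullAut_symm, laurentRed_ρ a hya, laurentRed_ρ b hyb]
  exact h2

theorem heckeAt_mod (h₁ : (modRed N A).IsChart (jZ N A))
    (h₂ : (modRed N A).IsChart (jinvZ N A)) (hlN : ¬ ℓ ∣ N)
    (τ : ResidueField A ≃+* ResidueField A) (hτ : ∀ x, τ x = x ^ ℓ)
    (P : Place Qb (modularFunctionFieldBar N)) (hP : (modCharts N A h₁ h₂).GoodPl P) :
    (modCharts N A h₁ h₂).HeckeAt (fullAut N τ) ℓ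
      (heckeDivBar (H05.heckeAlphaBarIntegral Qb N ℓ) (H05.heckeBetaBarIntegral Qb N ℓ)) P := by
  haveI : CharZero (modularFunctionFieldBar N) :=
    charZero_of_injective_algebraMap (algebraMap Qb (modularFunctionFieldBar N)).injective
  exact heckeAt_of (heckeAlphaBar Qb N ℓ) (heckeBetaBar Qb N ℓ)
    (H05.heckeAlphaBarIntegral Qb N ℓ) (H05.heckeBetaBarIntegral Qb N ℓ)
    (H05.deg_eq_one_bc Qb N) (H05.deg_eq_one_bc Qb (N * ℓ))
    (H05.finiteAlong_alpha Qb N ℓ)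
    (H05.normFormulaAlong_of _ _)
    (H05.fundamentalIdentityAlong_of _ _ (H05.finiteAlong_beta Qb N ℓ))
    (finrank_beta Qb N ℓ hlN)
    (intOver_of_evZ (modPoly_monic ℓ) (evZ_alpha_beta N ℓ))
    (intOver_of_evZ (modPoly_monic ℓ) (evZ_beta_alpha N ℓ))
    (fullAut N τ) (ρ_norm hlN τ hτ) hP

end

end Fermat.Agent.H28
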