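import Mathlib
import Fermat.Agent.H28.ModHecke
import Fermat.Agent.H05_Frob

set_option autoImplicit false
set_option linter.style.haveILetI false
set_option linter.unusedSectionVars false

/-! The kernel of reduction on `J₀(N)` modulo `ℓ`, given the two charts. -/

noncomputable section

namespace Fermat.Agent.H28

open Module IsLocalRing Polynomial ModularCurve AlgebraicCurve

local notation "Qb" => AlgebraicClosure ℚ

/-- The properties of the kernel of reduction modulo `ℓ`. -/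
structure RedKernel (N : ℕ) [NeZero N] {l : ℕ} (hl : l.Prime) (A : ValuationSubring (AlgebraicClosure ℚ))
    (K : AddSubgroup (JZero N)) : Prop where
  inertia : ∀ σ ∈ A.inertiaSubgroupIn ℚ, ∀ x : JZero N, σ • x - x ∈ K
  relation : ∀ σ : AlgebraicClosure ℚ ≃ₐ[ℚ] AlgebraicClosure ℚ, A.IsFrobeniusAt σ l →
    ∀ x : JZero N, σ • σ • x - heckeOperatorBar N ⟨l, hl⟩ (σ • x) + l • x ∈ K
  torsion : ∀ m : ℕ, ¬ l ∣ m → ∀ x ∈ K, m • x = 0 → x = 0
  stable : ∀ σ ∈ A.decompositionSubgroup ℚ, ∀ x ∈ K, σ • x ∈ K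

/-- the hypotheses at good levels -/
structure GoodLevel (N : ℕ) [NeZero N] (l : ℕ) (A : ValuationSubring (AlgebraicClosure ℚ)) : Prop where
  h₁ : (modRed N A).IsChart (jZ N A)
  h₂ : (modRed N A).IsChart (jinvZ N A)
  key : ∀ m : ℕ, ¬ l ∣ m → KeyLemma (modRed N A) (jZ N A) m

theorem redKernel_of_goodLevel {N : ℕ} [NeZero N] {l : ℕ} (hl : l.Prime) (hlN : ¬ l ∣ N)
    {A : ValuationSubring (AlgebraicClosure ℚ)} (hA : A.LiesOverPrime l)
    (h : GoodLevel N l A) : RedKernel N hl A (modCharts N A h.h₁ h.h₂).kernel where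
  inertia σ hσ x := by
    obtain ⟨hσ, hres⟩ := (H05.mem_inertiaSubgroupIn_iff A σ).mp hσ
    rw [galois_smul_pic0_def]
    exact (modCharts N A h.h₁ h.h₂).smul_sub_mem_kernel (modRedAut h.h₁ h.h₂ hσ)
      (fullAut_eq_self N (decRes hσ) hres) x
  relation σ hσ x := by
    haveI : Fact l.Prime := ⟨hl⟩
    haveI : NeZero l := ⟨hl.ne_zero⟩
    haveI : CharP (ResidueField A) l := H05.charP_residueField hl hA
    obtain ⟨hσ, hres⟩ := hσ
    rw [heckeOperatorBar_apply, galois_smul_pic0_def, galois_smul_pic0_def]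
    refine (modCharts N A h.h₁ h.h₂).relation_mem_kernel (modRedAut h.h₁ h.h₂ hσ)
      (T := heckeDivBar (H05.heckeAlphaBarIntegral Qb N l) (H05.heckeBetaBarIntegral Qb N l))
      (heckeAt_mod h.h₁ h.h₂ hlN (decRes hσ) hres) ?_ x
    intro E
    rw [heckeOperatorAlong_eq (H05.heckeAlphaBarIntegral Qb N l) (H05.heckeBetaBarIntegral Qb N l)
      (H05.fundamentalIdentityAlong_of _ _ (H05.finiteAlong_beta Qb N l))
      (H05.finiteAlong_alpha Qb N l) (H05.normFormulaAlong_of _ _)]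
    exact ⟨_, rfl, rfl⟩
  torsion m hm x hx hmx := by
    haveI : IsAlgClosed (ResidueField A) := isAlgClosed_residueField A
    have hm0 : m ≠ 0 := by
      rintro rfl
      exact hm (dvd_zero _)
    exact (modCharts N A h.h₁ h.h₂).eq_zero_of_mem_kernel hm0 (h.key m hm) hx hmx
  stable σ hσ x hx := by
    rw [galois_smul_pic0_def]
    exact (modCharts N A h.h₁ h.h₂).smul_mem_kernel (modRedAut h.h₁ h.h₂ hσ) hx

theorem RedKernel.inf {N : ℕ} [NeZero N] {l : ℕ} {hl : l.Prime} {A : ValuationSubring (AlgebraicClosure ℚ)}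
    {K K' : AddSubgroup (JZero N)}
    (hi : ∀ σ ∈ A.inertiaSubgroupIn ℚ, ∀ x : JZero N, σ • x - x ∈ K)
    (hr : ∀ σ : AlgebraicClosure ℚ ≃ₐ[ℚ] AlgebraicClosure ℚ, A.IsFrobeniusAt σ l →
      ∀ x : JZero N, σ • σ • x - heckeOperatorBar N ⟨l, hl⟩ (σ • x) + l • x ∈ K)
    (hs : ∀ σ ∈ A.decompositionSubgroup ℚ, ∀ x ∈ K, σ • x ∈ K)
    (hi' : ∀ σ ∈ A.inertiaSubgroupIn ℚ, ∀ x : JZero N, σ • x - x ∈ K')
    (hr' : ∀ σ : AlgebraicClosure ℚ ≃ₐ[ℚ] AlgebraicClosure ℚ, A.IsFrobeniusAt σ l →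
      ∀ x : JZero N, σ • σ • x - heckeOperatorBar N ⟨l, hl⟩ (σ • x) + l • x ∈ K')
    (hs' : ∀ σ ∈ A.decompositionSubgroup ℚ, ∀ x ∈ K', σ • x ∈ K')
    (ht : ∀ m : ℕ, ¬ l ∣ m → ∀ x ∈ K, x ∈ K' → m • x = 0 → x = 0) :
    RedKernel N hl A (K ⊓ K') where
  inertia σ hσ x := ⟨hi σ hσ x, hi' σ hσ x⟩
  relation σ hσ x := ⟨hr σ hσ x, hr' σ hσ x⟩
  torsion m hm x hx hmx := ht m hm x hx.1 hx.2 hmx
  stable σ hσ x hx := ⟨hs σ hσ x hx.1, hs' σ hσ x hx.2⟩

end Fermat.Agent.H28
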