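import Mathlib
import Fermat.Agent.H28.PullPic
import Fermat.Agent.H28.KernelMod

set_option autoImplicit false
set_option linter.style.haveILetI false
set_option linter.unusedSectionVars false

/-! The kernel of reduction at all levels, from the levels divisible by `2` or `3`. -/

noncomputable section

namespace Fermat.Agent.H28

open ModularCurve AlgebraicCurve Fermat.Agent.H05

local notation "Qb" => AlgebraicClosure ℚ

variable {N : ℕ} [NeZero N] {l : ℕ} {hl : l.Prime} {A : ValuationSubring (AlgebraicClosure ℚ)}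
  {r : ℕ} [NeZero r]

theorem inertia_comap {K : AddSubgroup (JZero (N * r))} (h : RedKernel (N * r) hl A K) :
    ∀ σ ∈ A.inertiaSubgroupIn ℚ, ∀ x : JZero N, σ • x - x ∈ K.comap (pullR N r) := by
  intro σ hσ x
  rw [AddSubgroup.mem_comap, map_sub, pullR_smul]
  exact h.inertia σ hσ _

theorem relation_comap {K : AddSubgroup (JZero (N * r))} (h : RedKernel (N * r) hl A K)
    (hr : r.Prime) (hrl : r ≠ l) :
    ∀ σ : AlgebraicClosure ℚ ≃ₐ[ℚ] AlgebraicClosure ℚ, A.IsFrobeniusAt σ l →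
      ∀ x : JZero N, σ • σ • x - heckeOperatorBar N ⟨l, hl⟩ (σ • x) + l • x ∈
        K.comap (pullR N r) := by
  intro σ hσ x
  rw [AddSubgroup.mem_comap, map_add, map_sub, map_nsmul, pullR_smul, pullR_smul,
    pullR_hecke N r hr hl hrl, pullR_smul]
  exact h.relation σ hσ _

theorem stable_comap {K : AddSubgroup (JZero (N * r))} (h : RedKernel (N * r) hl A K) :
    ∀ σ ∈ A.decompositionSubgroup ℚ, ∀ x ∈ K.comap (pullR N r), σ • x ∈ K.comap (pullR N r) := by
  intro σ hσ x hx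
  rw [AddSubgroup.mem_comap] at hx ⊢
  rw [pullR_smul]
  exact h.stable σ hσ _ hx

theorem torsion_comap {K : AddSubgroup (JZero (N * r))} (h : RedKernel (N * r) hl A K)
    (hr : r.Prime) (hrN : ¬ r ∣ N) :
    ∀ m : ℕ, ¬ l ∣ m → ∀ x ∈ K.comap (pullR N r), m • x = 0 → (r + 1) • x = 0 := by
  intro m hm x hx hmx
  apply nsmul_eq_zero_of_pullR N r hr hrN
  apply h.torsion m hm _ hx
  rw [← map_nsmul, hmx, map_zero]

omit [NeZero N] [NeZero r] in
theorem eq_zero_of_coprime {G : Type*} [AddCommGroup G] {x : G} {a b : ℕ} (hab : Nat.Coprime a b)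
    (ha : a • x = 0) (hb : b • x = 0) : x = 0 := by
  have h1 := addOrderOf_dvd_of_nsmul_eq_zero ha
  have h2 := addOrderOf_dvd_of_nsmul_eq_zero hb
  have h3 := Nat.dvd_gcd h1 h2
  rw [hab.gcd_eq_one, Nat.dvd_one] at h3
  exact AddMonoid.addOrderOf_eq_one_iff.mp h3

/-- **The kernel of reduction modulo `l` exists at all levels prime to `l`.** -/
theorem exists_redKernel_of (N : ℕ) [NeZero N] {l : ℕ} (hl : l.Prime) (hlN : ¬ l ∣ N)
    (A : ValuationSubring (AlgebraicClosure ℚ)) (hA : A.LiesOverPrime l)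
    (hgood : ∀ (M : ℕ) [NeZero M], ¬ l ∣ M → ((2 ∣ M ∧ l ≠ 2) ∨ (3 ∣ M ∧ l ≠ 3)) →
      GoodLevel M l A) : ∃ K : AddSubgroup (JZero N), RedKernel N hl A K := by
  have hnd : ∀ r : ℕ, r.Prime → r ≠ l → ¬ l ∣ N * r := by
    intro r hr hrl h
    rcases (Nat.Prime.dvd_mul hl).mp h with h | h
    · exact hlN h
    · exact hrl ((Nat.prime_dvd_prime_iff_eq hl hr).mp h).symm
  by_cases h0 : (2 ∣ N ∧ l ≠ 2) ∨ (3 ∣ N ∧ l ≠ 3)
  · exact ⟨_, redKernel_of_goodLevel hl hlN hA (hgood N hlN h0)⟩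
  push Not at h0
  haveI : NeZero 2 := ⟨by norm_num⟩
  haveI : NeZero 3 := ⟨by norm_num⟩
  by_cases hl2 : l = 2
  · have hl3 : l ≠ 3 := by omega
    have h3N : ¬ 3 ∣ N := fun h => hl3 (h0.2 h)
    have h3 := redKernel_of_goodLevel hl (hnd 3 Nat.prime_three hl3.symm) hA
      (hgood (N * 3) (hnd 3 Nat.prime_three hl3.symm) (Or.inr ⟨dvd_mul_left _ _, hl3⟩))
    refine ⟨_, inertia_comap h3, relation_comap h3 Nat.prime_three hl3.symm, ?_, stable_comap h3⟩
    intro m hm x hx hmx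
    have h4 := torsion_comap h3 Nat.prime_three h3N m hm x hx hmx
    apply eq_zero_of_coprime (a := 3 + 1) (b := m) _ h4 hmx
    have : Nat.Coprime 2 m := (Nat.Prime.coprime_iff_not_dvd Nat.prime_two).mpr (hl2 ▸ hm)
    exact Nat.Coprime.mul_left this this
  by_cases hl3 : l = 3
  · have h2N : ¬ 2 ∣ N := fun h => hl2 (h0.1 h)
    have h2 := redKernel_of_goodLevel hl (hnd 2 Nat.prime_two (Ne.symm hl2)) hA
      (hgood (N * 2) (hnd 2 Nat.prime_two (Ne.symm hl2)) (Or.inl ⟨dvd_mul_left _ _, hl2⟩))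
    refine ⟨_, inertia_comap h2, relation_comap h2 Nat.prime_two (Ne.symm hl2), ?_,
      stable_comap h2⟩
    intro m hm x hx hmx
    have h4 := torsion_comap h2 Nat.prime_two h2N m hm x hx hmx
    exact eq_zero_of_coprime (a := 2 + 1) (b := m)
      ((Nat.Prime.coprime_iff_not_dvd Nat.prime_three).mpr (hl3 ▸ hm)) h4 hmx
  · have h2N : ¬ 2 ∣ N := fun h => hl2 (h0.1 h)
    have h3N : ¬ 3 ∣ N := fun h => hl3 (h0.2 h)
    have h2 := redKernel_of_goodLevel hl (hnd 2 Nat.prime_two (Ne.symm hl2)) hA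
      (hgood (N * 2) (hnd 2 Nat.prime_two (Ne.symm hl2)) (Or.inl ⟨dvd_mul_left _ _, hl2⟩))
    have h3 := redKernel_of_goodLevel hl (hnd 3 Nat.prime_three (Ne.symm hl3)) hA
      (hgood (N * 3) (hnd 3 Nat.prime_three (Ne.symm hl3)) (Or.inr ⟨dvd_mul_left _ _, hl3⟩))
    refine ⟨_, RedKernel.inf (inertia_comap h2)
      (relation_comap h2 Nat.prime_two (Ne.symm hl2)) (stable_comap h2) (inertia_comap h3)
      (relation_comap h3 Nat.prime_three (Ne.symm hl3)) (stable_comap h3) ?_⟩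
    intro m hm x hx2 hx3 hmx
    have h4 := torsion_comap h2 Nat.prime_two h2N m hm x hx2 hmx
    have h5 := torsion_comap h3 Nat.prime_three h3N m hm x hx3 hmx
    exact eq_zero_of_coprime (a := 2 + 1) (b := 3 + 1) (by norm_num) h4 h5

end Fermat.Agent.H28
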