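import Mathlib
import Fermat.Agent.H28.AllLevels
import Fermat.Prelude.Def_ModularCurve_HeckeModule

set_option autoImplicit false
set_option linter.style.haveILetI false
set_option linter.unusedSectionVars false

/-! Existence of the specialisation map from the kernel of reduction. -/

noncomputable section

namespace Fermat.Agent.H28

open ModularCurve AlgebraicCurve Fermat.Agent.H05

local notation "Qb" => AlgebraicClosure ℚ
local notation "Γℚ" => AlgebraicClosure ℚ ≃ₐ[ℚ] AlgebraicClosure ℚ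

section Abstract

variable {J : Type} [AddCommGroup J] [Module HeckeAlg J] [DistribMulAction Γℚ J]
  [SMulCommClass Γℚ HeckeAlg J]

/-- the largest Hecke submodule contained in `K` -/
def heckeCore (K : AddSubgroup J) : Submodule HeckeAlg J where
  carrier := {x | ∀ T : HeckeAlg, T • x ∈ K}
  add_mem' := fun hx hy T => by rw [smul_add]; exact add_mem (hx T) (hy T)
  zero_mem' := fun T => by rw [smul_zero]; exact zero_mem K
  smul_mem' := fun c x hx T => by rw [← mul_smul]; exact hx _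

theorem mem_heckeCore {K : AddSubgroup J} {x : J} :
    x ∈ heckeCore K ↔ ∀ T : HeckeAlg, T • x ∈ K := Iff.rfl

theorem heckeCore_le {K : AddSubgroup J} {x : J} (hx : x ∈ heckeCore K) : x ∈ K := by
  have := hx 1
  rwa [one_smul] at this

theorem exists_spec {A : ValuationSubring (AlgebraicClosure ℚ)} {ℓ p : ℕ} (hℓ : ℓ.Prime)
    (hA : A.LiesOverPrime ℓ) (hℓp : ¬ ℓ ∣ p) {K : AddSubgroup J}
    (hin : ∀ σ ∈ A.inertiaSubgroupIn ℚ, ∀ x : J, σ • x - x ∈ K)
    (hrel : ∀ σ : Γℚ, A.IsFrobeniusAt σ ℓ →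
      ∀ x : J, σ • σ • x - heckeGen ⟨ℓ, hℓ⟩ • (σ • x) + ℓ • x ∈ K)
    (htor : ∀ m : ℕ, ¬ ℓ ∣ m → ∀ x ∈ K, m • x = 0 → x = 0)
    (hst : ∀ σ ∈ A.decompositionSubgroup ℚ, ∀ x ∈ K, σ • x ∈ K) :
    ∃ (J' : Type) (_ : AddCommGroup J') (_ : Module HeckeAlg J') (sp : J →+ J')
        (F : J' →+ J'),
        IsSpecialization (K := ℚ) p J J' A ℓ sp F ∧ SpecialFibreRelation J' ℓ hℓ F := by
  obtain ⟨φ, hφ⟩ := exists_isFrobeniusAt (L := AlgebraicClosure ℚ) hℓ hA
  have hstC : ∀ σ ∈ A.decompositionSubgroup ℚ, ∀ x ∈ heckeCore K, σ • x ∈ heckeCore K := by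
    intro σ hσ x hx T
    rw [← smul_comm σ T x]
    exact hst σ hσ _ (hx T)
  have hinC : ∀ σ ∈ A.inertiaSubgroupIn ℚ, ∀ x : J, σ • x - x ∈ heckeCore K := by
    intro σ hσ x T
    rw [smul_sub, ← smul_comm σ T x]
    exact hin σ hσ _
  let g : J →+ J := DistribSMul.toAddMonoidHom J φ
  let F : (J ⧸ heckeCore K) →+ (J ⧸ heckeCore K) :=
    QuotientAddGroup.map (heckeCore K).toAddSubgroup (heckeCore K).toAddSubgroup g
      (fun x hx => hstC φ hφ.mem_decompositionSubgroup x hx)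
  refine ⟨J ⧸ heckeCore K, inferInstance, inferInstance, (heckeCore K).mkQ.toAddMonoidHom, F,
    ⟨?_, ?_, ?_, ?_⟩, ?_⟩
  · intro T x
    exact map_smul (heckeCore K).mkQ T x
  · intro σ hσ x
    exact (Submodule.Quotient.eq _).mpr (hinC σ hσ x)
  · intro σ hσ x
    change (Submodule.Quotient.mk (σ • x) : J ⧸ heckeCore K) = Submodule.Quotient.mk (φ • x)
    rw [Submodule.Quotient.eq]
    have h1 := H05.IsFrobeniusAt.inv_mul_mem hφ hσ
    have h2 := hstC φ hφ.mem_decompositionSubgroup _ (hinC _ h1 x)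
    rw [smul_sub, ← mul_smul, mul_inv_cancel_left] at h2
    exact h2
  · rintro x ⟨n, hn⟩ hx
    have h1 : x ∈ heckeCore K := (Submodule.Quotient.mk_eq_zero _).mp hx
    refine htor (p ^ n) (fun h => hℓp (hℓ.dvd_of_dvd_pow h)) x (heckeCore_le h1) hn
  · intro y
    obtain ⟨x, rfl⟩ := Submodule.Quotient.mk_surjective _ y
    change (Submodule.Quotient.mk (φ • φ • x - heckeGen ⟨ℓ, hℓ⟩ • (φ • x) + ℓ • x) :
      J ⧸ heckeCore K) = 0
    rw [Submodule.Quotient.mk_eq_zero]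
    intro T
    have h1 := hrel φ hφ (T • x)
    have h2 : T • (φ • φ • x - heckeGen ⟨ℓ, hℓ⟩ • (φ • x) + ℓ • x) =
        φ • φ • (T • x) - heckeGen ⟨ℓ, hℓ⟩ • (φ • (T • x)) + ℓ • (T • x) := by
      rw [smul_add, smul_sub, ← smul_comm φ T (φ • x), ← smul_comm φ T x,
        smul_comm T (heckeGen ⟨ℓ, hℓ⟩), ← smul_comm φ T x, smul_comm T ℓ x]
    rw [h2]
    exact h1

end Abstract

theorem specializationExists_of (N p : ℕ) [NeZero N]
    (hcomm : ModularCurve.HeckeOperatorsCommuteBar N)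
    (hK : ∀ (l : ℕ) (hl : l.Prime), ¬ l ∣ N → ∀ A : ValuationSubring (AlgebraicClosure ℚ),
      A.LiesOverPrime l → ∃ K : AddSubgroup (JZero N), RedKernel N hl A K) :
    letI := ModularCurve.heckeModuleBar N
    ∀ (_ : SMulCommClass (AlgebraicClosure ℚ ≃ₐ[ℚ] AlgebraicClosure ℚ) ModularCurve.HeckeAlg
      (ModularCurve.JZero N)), ModularCurve.SpecializationExists (K := ℚ)
        (L := AlgebraicClosure ℚ) N p (ModularCurve.JZero N) := by
  letI := ModularCurve.heckeModuleBar N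
  intro _ l hl hlNp A hA
  obtain ⟨K, hK⟩ := hK l hl (fun h => hlNp (h.mul_right p)) A hA
  refine exists_spec hl hA (fun h => hlNp (h.mul_left N)) hK.inertia ?_ hK.torsion hK.stable
  intro σ hσ x
  have h1 : heckeGen ⟨l, hl⟩ • (σ • x) = heckeOperatorBar N ⟨l, hl⟩ (σ • x) :=
    heckeModuleBar_heckeGen_smul hcomm _ _
  rw [h1]
  exact hK.relation σ hσ x

end Fermat.Agent.H28
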