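import Mathlib
import Fermat.Agent.H28.SpecExists
import Fermat.Agent.H28.ModPlace
import Fermat.Agent.H29.GR
import Fermat.Agent.H27.KeyH28
import Fermat.Agent.H27.HauptEx

set_option autoImplicit false
set_option linter.style.haveILetI false
set_option linter.unusedSectionVars false

/-! Good reduction of `J₀(N)` modulo `ℓ ∤ N`: final form. -/

noncomputable section

namespace Fermat.Agent.H28

open ModularCurve AlgebraicCurve

theorem goodLevel {M : ℕ} [NeZero M] {l : ℕ} (hl : l.Prime)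
    {A : ValuationSubring (AlgebraicClosure ℚ)} (hA : A.LiesOverPrime l)
    (hyp : ¬ l ∣ M ∧ ((2 ∣ M ∧ l ≠ 2) ∨ (3 ∣ M ∧ l ≠ 3))) : GoodLevel M l A where
  h₁ := H29.isChart_j hl hA hyp
  h₂ := H29.isChart_jinv hl hA hyp
  key m hm := by
    obtain ⟨H⟩ := H27.hauptLevel_exists hl hA hyp
    exact H27.keyLemma_of_haupt hl hA H _ hm

/-- the two charts at good levels -/
def charts {M : ℕ} [NeZero M] {l : ℕ} (hl : l.Prime)
    {A : ValuationSubring (AlgebraicClosure ℚ)} (hA : A.LiesOverPrime l)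
    (hyp : ¬ l ∣ M ∧ ((2 ∣ M ∧ l ≠ 2) ∨ (3 ∣ M ∧ l ≠ 3))) : TwoCharts (modRed M A) :=
  modCharts M A (goodLevel hl hA hyp).h₁ (goodLevel hl hA hyp).h₂

theorem redKernel_charts {M : ℕ} [NeZero M] {l : ℕ} (hl : l.Prime)
    {A : ValuationSubring (AlgebraicClosure ℚ)} (hA : A.LiesOverPrime l)
    (hyp : ¬ l ∣ M ∧ ((2 ∣ M ∧ l ≠ 2) ∨ (3 ∣ M ∧ l ≠ 3))) :
    RedKernel M hl A (charts hl hA hyp).kernel :=
  redKernel_of_goodLevel hl hyp.1 hA (goodLevel hl hA hyp)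

/-- **The kernel of reduction modulo `l` at all levels prime to `l`.** -/
theorem exists_redKernel (N : ℕ) [NeZero N] {l : ℕ} (hl : l.Prime) (hlN : ¬ l ∣ N)
    (A : ValuationSubring (AlgebraicClosure ℚ)) (hA : A.LiesOverPrime l) :
    ∃ K : AddSubgroup (JZero N), RedKernel N hl A K :=
  exists_redKernel_of N hl hlN A hA fun _ _ h1 h2 => goodLevel hl hA ⟨h1, h2⟩

theorem nsmul_gal {N : ℕ} [NeZero N] (σ : AlgebraicClosure ℚ ≃ₐ[ℚ] AlgebraicClosure ℚ) (m : ℕ)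
    {x : JZero N} (hx : m • x = 0) : m • (σ • x) = 0 := by
  have h := map_nsmul (DistribSMul.toAddMonoidHom (JZero N) σ) m x
  rw [hx, map_zero] at h
  exact h.symm

/-- inertia acts trivially on torsion prime to `l` -/
theorem inertia_torsion (N : ℕ) [NeZero N] {l : ℕ} (hl : l.Prime) (hlN : ¬ l ∣ N)
    (A : ValuationSubring (AlgebraicClosure ℚ)) (hA : A.LiesOverPrime l) {m : ℕ} (hm : ¬ l ∣ m)
    {σ : AlgebraicClosure ℚ ≃ₐ[ℚ] AlgebraicClosure ℚ} (hσ : σ ∈ A.inertiaSubgroupIn ℚ)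
    (x : JZero N) (hx : m • x = 0) : σ • x = x := by
  obtain ⟨K, hK⟩ := exists_redKernel N hl hlN A hA
  refine sub_eq_zero.mp (hK.torsion m hm _ (hK.inertia σ hσ x) ?_)
  rw [nsmul_sub, nsmul_gal σ m hx, hx, sub_zero]

/-- the Eichler-Shimura relation on torsion prime to `l` -/
theorem frobenius_torsion (N : ℕ) [NeZero N] {l : ℕ} (hl : l.Prime) (hlN : ¬ l ∣ N)
    (A : ValuationSubring (AlgebraicClosure ℚ)) (hA : A.LiesOverPrime l) {m : ℕ} (hm : ¬ l ∣ m)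
    {σ : AlgebraicClosure ℚ ≃ₐ[ℚ] AlgebraicClosure ℚ} (hσ : A.IsFrobeniusAt σ l)
    (x : JZero N) (hx : m • x = 0) :
    σ • σ • x - heckeOperatorBar N ⟨l, hl⟩ (σ • x) + l • x = 0 := by
  obtain ⟨K, hK⟩ := exists_redKernel N hl hlN A hA
  have h1 := nsmul_gal σ m hx
  have h2 := nsmul_gal σ m h1
  have h3 : m • heckeOperatorBar N ⟨l, hl⟩ (σ • x) = 0 := by
    rw [← map_nsmul, h1, map_zero]
  have h4 : m • (l • x) = 0 := by
    rw [nsmul_left_comm, hx, nsmul_zero]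
  refine hK.torsion m hm _ (hK.relation σ hσ x) ?_
  rw [nsmul_add, nsmul_sub, h2, h3, h4, sub_zero, add_zero]

end Fermat.Agent.H28
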